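import Fermat.Agent.S55.Base.Abstract

/-!
# COUNT for the abstract K-side contract (`S55/Base/Abstract.lean`)

Pure linear algebra on a datum `D : KData k Γ ι`:

* `outToQuot D : (D.Out →₀ k) →ₗ[k] D.J ⧸ (D.Dgl ⊔ D.JS)` (`d ↦ [(0, d)]`) is surjective and kills
  the divisor `Ξ.2` of every global `Ξ`;
* hence if `ord : A →ₗ[k] (D.Out →₀ k)` is a "divisor map" all of whose values are global
  (`hglob`), then `D.J ⧸ (D.Dgl ⊔ D.JS)` is a quotient of `(D.Out →₀ k) ⧸ range ord`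
  (`finite_quotient`, `finrank_quotient_le`); if moreover every global `Ξ` has `Ξ.2 ∈ range ord`
  the two are isomorphic (`quotEquiv`, `finrank_quotient_eq`);
* `count_le`, `count_eq` : the `count` field of `KHyp` from the three numerical inputs.
-/

set_option autoImplicit false

namespace Fermat.Agent.CFT.Count.AbsCount

open Fermat.Agent.S55.Base Module

variable {k : Type} [Field k] {Γ : Type} [Group Γ] {ι : Type} [DecidableEq ι] (D : KData k Γ ι)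

/-- `d ↦ [(0, d)] : (Out →₀ k) → 𝕁 ⧸ (Dgl ⊔ 𝕁_S)`. -/
noncomputable def outToQuot : (D.Out →₀ k) →ₗ[k] D.J ⧸ (D.Dgl ⊔ D.JS) :=
  (Submodule.mkQ (D.Dgl ⊔ D.JS)).comp
    (LinearMap.inr k (∀ v : ↥D.S, ↥(D.Hloc v)) (D.Out →₀ k))

theorem outToQuot_apply (d : D.Out →₀ k) :
    outToQuot D d = Submodule.Quotient.mk ((0, d) : D.J) := rfl

theorem mk_eq_outToQuot (Ξ : D.J) :
    (Submodule.Quotient.mk Ξ : D.J ⧸ (D.Dgl ⊔ D.JS)) = outToQuot D Ξ.2 := by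
  rw [outToQuot_apply, Submodule.Quotient.eq]
  refine Submodule.mem_sup_right ⟨Ξ.1, ?_⟩
  ext <;> simp

theorem outToQuot_surjective : Function.Surjective (outToQuot D) := by
  intro x
  obtain ⟨Ξ, rfl⟩ := Submodule.mkQ_surjective _ x
  exact ⟨Ξ.2, (mk_eq_outToQuot D Ξ).symm⟩

theorem outToQuot_eq_zero_of_isGlobal {Ξ : D.J} (h : D.IsGlobal Ξ) : outToQuot D Ξ.2 = 0 := by
  rw [← mk_eq_outToQuot, Submodule.Quotient.mk_eq_zero]
  exact Submodule.mem_sup_left (Submodule.subset_span h)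

section Ord

variable {A : Type*} [AddCommGroup A] [Module k A] (ord : A →ₗ[k] (D.Out →₀ k))

/-- The induced map `(Out →₀ k) ⧸ range ord → 𝕁 ⧸ (Dgl ⊔ 𝕁_S)` when all `ord a` are global. -/
noncomputable def quotMap (hglob : ∀ a, ∃ ξ, D.IsGlobal (ξ, ord a)) :
    ((D.Out →₀ k) ⧸ LinearMap.range ord) →ₗ[k] D.J ⧸ (D.Dgl ⊔ D.JS) :=
  (LinearMap.range ord).liftQ (outToQuot D) (by
    rintro _ ⟨a, rfl⟩
    obtain ⟨ξ, hξ⟩ := hglob a
    exact outToQuot_eq_zero_of_isGlobal D hξ)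

theorem quotMap_mk (hglob : ∀ a, ∃ ξ, D.IsGlobal (ξ, ord a)) (d : D.Out →₀ k) :
    quotMap D ord hglob (Submodule.Quotient.mk d) = outToQuot D d := rfl

theorem quotMap_surjective (hglob : ∀ a, ∃ ξ, D.IsGlobal (ξ, ord a)) :
    Function.Surjective (quotMap D ord hglob) := by
  intro x
  obtain ⟨d, rfl⟩ := outToQuot_surjective D x
  exact ⟨Submodule.Quotient.mk d, rfl⟩

/-- **finCl.**  `𝕁 ⧸ (Dgl ⊔ 𝕁_S)` is finite-dimensional as soon as the cokernel of a divisor map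
with global values is. -/
theorem finite_quotient (hglob : ∀ a, ∃ ξ, D.IsGlobal (ξ, ord a))
    [Module.Finite k ((D.Out →₀ k) ⧸ LinearMap.range ord)] :
    Module.Finite k (D.J ⧸ (D.Dgl ⊔ D.JS)) :=
  Module.Finite.of_surjective (quotMap D ord hglob) (quotMap_surjective D ord hglob)

/-- **(c4).**  `dim 𝕁 ⧸ (Dgl ⊔ 𝕁_S) ≤ dim coker ord`. -/
theorem finrank_quotient_le (hglob : ∀ a, ∃ ξ, D.IsGlobal (ξ, ord a))
    [Module.Finite k ((D.Out →₀ k) ⧸ LinearMap.range ord)] :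
    finrank k (D.J ⧸ (D.Dgl ⊔ D.JS)) ≤ finrank k ((D.Out →₀ k) ⧸ LinearMap.range ord) :=
  LinearMap.finrank_le_finrank_of_surjective (quotMap_surjective D ord hglob)

/-- The projection `𝕁 → (Out →₀ k) ⧸ range ord` kills `Dgl ⊔ 𝕁_S` when the divisor of every
global element lies in `range ord`. -/
theorem sup_le_ker (hconv : ∀ Ξ : D.J, D.IsGlobal Ξ → Ξ.2 ∈ LinearMap.range ord) :
    D.Dgl ⊔ D.JS ≤ LinearMap.ker ((Submodule.mkQ (LinearMap.range ord)).comp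
      (LinearMap.snd k (∀ v : ↥D.S, ↥(D.Hloc v)) (D.Out →₀ k))) := by
  refine sup_le ?_ ?_
  · refine Submodule.span_le.2 ?_
    intro Ξ hΞ
    simp only [SetLike.mem_coe, LinearMap.mem_ker, LinearMap.comp_apply, LinearMap.snd_apply,
      Submodule.mkQ_apply, Submodule.Quotient.mk_eq_zero]
    exact hconv Ξ hΞ
  · rintro _ ⟨ξ, rfl⟩
    simp

/-- `𝕁 ⧸ (Dgl ⊔ 𝕁_S) ≃ coker ord` when `range ord` is exactly the set of divisors of global
elements. -/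
noncomputable def quotEquiv (hglob : ∀ a, ∃ ξ, D.IsGlobal (ξ, ord a))
    (hconv : ∀ Ξ : D.J, D.IsGlobal Ξ → Ξ.2 ∈ LinearMap.range ord) :
    ((D.Out →₀ k) ⧸ LinearMap.range ord) ≃ₗ[k] D.J ⧸ (D.Dgl ⊔ D.JS) :=
  LinearEquiv.ofBijective (quotMap D ord hglob) ⟨by
    have hleft : ∀ x, ((D.Dgl ⊔ D.JS).liftQ _ (sup_le_ker D ord hconv))
        (quotMap D ord hglob x) = x := by
      intro x
      obtain ⟨d, rfl⟩ := Submodule.mkQ_surjective _ x
      rfl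
    exact Function.LeftInverse.injective hleft, quotMap_surjective D ord hglob⟩

theorem finrank_quotient_eq (hglob : ∀ a, ∃ ξ, D.IsGlobal (ξ, ord a))
    (hconv : ∀ Ξ : D.J, D.IsGlobal Ξ → Ξ.2 ∈ LinearMap.range ord) :
    finrank k (D.J ⧸ (D.Dgl ⊔ D.JS)) = finrank k ((D.Out →₀ k) ⧸ LinearMap.range ord) :=
  (quotEquiv D ord hglob hconv).finrank_eq.symm

end Ord

/-- **count (≤ form)** from the three numerical inputs `(c1)`, `(c4)`, `(c3)`. -/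
theorem count_le (n : ↥D.S → ℕ) (hn : ∀ v : ↥D.S, finrank k ↥(D.Hloc v) ≤ n v) (ρ : ℕ)
    (hρ : finrank k (D.J ⧸ (D.Dgl ⊔ D.JS)) ≤ ρ)
    (hV : ∑ v, n v + 2 * ρ ≤ 2 * finrank k ↥D.V) :
    ∑ v : ↥D.S, finrank k ↥(D.Hloc v) + 2 * finrank k (D.J ⧸ (D.Dgl ⊔ D.JS))
      ≤ 2 * finrank k ↥D.V := by
  have h1 : ∑ v : ↥D.S, finrank k ↥(D.Hloc v) ≤ ∑ v, n v :=
    Finset.sum_le_sum fun v _ => hn v
  omega

/-- **count (= form)** from the three numerical inputs. -/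
theorem count_eq (n : ↥D.S → ℕ) (hn : ∀ v : ↥D.S, finrank k ↥(D.Hloc v) = n v) (ρ : ℕ)
    (hρ : finrank k (D.J ⧸ (D.Dgl ⊔ D.JS)) = ρ)
    (hV : ∑ v, n v + 2 * ρ = 2 * finrank k ↥D.V) :
    ∑ v : ↥D.S, finrank k ↥(D.Hloc v) + 2 * finrank k (D.J ⧸ (D.Dgl ⊔ D.JS))
      = 2 * finrank k ↥D.V := by
  rw [hρ, Finset.sum_congr rfl fun v _ => hn v]
  exact hV

end Fermat.Agent.CFT.Count.AbsCount
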