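import Mathlib
import Fermat.Prelude.Def_GroupCohomology_ContinuousUnramified
import Fermat.Agent.S14.Wiring.ValRing
import Fermat.Agent.S55.Glue.PlacesAbove
import Fermat.Agent.S55.Glue.LevelGalois
import Fermat.Agent.S55.Base.Capit

/-!
# COUNT, (BE)(ii) = (BrS): descent of `χ ∪ κ_b` to level `S`

`Qb = AlgebraicClosure ℚ`, `Gq = Gal(Qb/ℚ)`, `K ≤ Qb` finite, unramified outside `S ∋ p`,
`ζ ∈ K` a primitive `p`-th root of unity, `G_K = K.fixingSubgroup`.

Input: an additive character `χ : G_K → ZMod p` of level `S`, an element `b ∈ Kˣ` with Kummer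
character `κ`, such that at every valuation subring `A` of `Qb` over a prime `q ∉ S` either
`p ∣ ord_A b` (valuation-subring form: `b x ^ p` is an `A`-unit for some `x ∈ K`) or `χ` vanishes
on the decomposition group `D_A ∩ G_K`.

Output (`brS`): a 2-cochain `y` of level `S` on `G_K` and a level-constant 1-cochain `u` with
`y (g, h) = κ g * χ h + (u g + u h - u (g * h))` on `G_K`.
-/

set_option autoImplicit false

open scoped NumberField nonZeroDivisors Pointwise IntermediateField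
open IsDedekindDomain

namespace Fermat.Agent.CFT.Count.BrS

local notation "Qb" => AlgebraicClosure ℚ
local notation "Gq" => (AlgebraicClosure ℚ ≃ₐ[ℚ] AlgebraicClosure ℚ)

open Fermat.Agent.S14.Wiring.ValRing
open Fermat.Agent.S55.Glue.PlacesAbove
open Fermat.Agent.S55.Base.Capit

local instance isAlgebraicQb_brS : Algebra.IsAlgebraic ℚ (AlgebraicClosure ℚ) :=
  AlgebraicClosure.isAlgebraic ℚ
local instance isAlgClosureQb_brS : IsAlgClosure ℚ (AlgebraicClosure ℚ) :=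
  ⟨inferInstance, inferInstance⟩
local instance normalQb_brS : Normal ℚ (AlgebraicClosure ℚ) :=
  IsAlgClosure.normal ℚ (AlgebraicClosure ℚ)

/-! ### Part 1: an element supported at one place (finiteness of the class group) -/

/-- For a prime `v₀` of a number field `M ≤ Qb` (cut out by `A₀`) and `b ∈ Mˣ` there is `γ ∈ Mˣ`
whose divisor is `ord_{v₀}(b ^ h) · v₀`, `h` the class number of `M`. -/
theorem exists_supported_element (M : IntermediateField ℚ Qb) [NumberField M]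
    (A₀ : ValuationSubring Qb) {ℓ : ℕ} (hℓ : ℓ.Prime) (hA₀ : A₀.LiesOverPrime ℓ)
    (b : M) (hb : b ≠ 0) :
    ∃ γ : M, γ ≠ 0 ∧
      (∀ A' : ValuationSubring Qb, primeUnder M A' = primeUnder M A₀ →
        A'.valuation ((γ : Qb) / (b : Qb) ^ NumberField.classNumber M) = 1) ∧
      (∀ A' : ValuationSubring Qb, primeUnder M A' ≠ primeUnder M A₀ →
        A'.valuation (γ : Qb) = 1) := by
  classical
  set v₀ : HeightOneSpectrum (𝓞 M) := placeUnder M A₀ hℓ hA₀ with hv₀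
  have hv₀A : v₀.asIdeal = primeUnder M A₀ := rfl
  set h := NumberField.classNumber M with hh
  -- a principal power of `v₀`
  have hprin : (v₀.asIdeal ^ h).IsPrincipal := by
    have hne : v₀.asIdeal ∈ (Ideal (𝓞 M))⁰ := mem_nonZeroDivisors_of_ne_zero v₀.ne_bot
    have h1 : ClassGroup.mk0 ((⟨v₀.asIdeal, hne⟩ : (Ideal (𝓞 M))⁰) ^ h) = 1 := by
      rw [map_pow]
      exact pow_card_eq_one
    exact (ClassGroup.mk0_eq_one_iff _).mp h1
  obtain ⟨π, hπ⟩ := hprin.principal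
  have hπmem : π ∈ v₀.asIdeal ^ h := by
    rw [hπ]; exact Submodule.mem_span_singleton_self π
  have hπ0 : π ≠ 0 := by
    rintro rfl
    have h0 : v₀.asIdeal ^ h = ⊥ := by
      rw [hπ]; exact Ideal.span_singleton_eq_bot.mpr rfl
    exact v₀.ne_bot (pow_eq_zero_iff (Nat.pos_iff_ne_zero.mp (NumberField.classNumber_pos M))
      |>.mp h0)
  have hπnot : π ∉ v₀.asIdeal ^ (h + 1) := by
    intro hmem
    have hle : v₀.asIdeal ^ h ≤ v₀.asIdeal ^ (h + 1) := by
      rw [hπ]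
      exact (Ideal.span_singleton_le_iff_mem _).mpr hmem
    exact absurd hle (not_le_of_gt (Ideal.pow_succ_lt_pow v₀.ne_bot h))
  -- the valuation of `π` at `v₀`
  have hvalπ : v₀.valuation M (π : M) = WithZero.exp (-(h : ℤ)) := by
    rw [HeightOneSpectrum.valuation_of_algebraMap]
    have h1 : v₀.intValuation π ≤ WithZero.exp (-(h : ℤ)) :=
      (v₀.intValuation_le_pow_iff_mem π h).mpr hπmem
    have h2 : ¬ v₀.intValuation π ≤ WithZero.exp (-((h + 1 : ℕ) : ℤ)) := fun h' =>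
      hπnot ((v₀.intValuation_le_pow_iff_mem π (h + 1)).mp h')
    have h3 : v₀.intValuation π ≠ 0 := v₀.intValuation_ne_zero π hπ0
    rw [← WithZero.exp_log h3] at h1 h2 ⊢
    rw [WithZero.exp_le_exp] at h1 h2
    congr 1
    push_cast at h2
    omega
  have hπM0 : (π : M) ≠ 0 := by
    intro h'
    exact hπ0 (NumberField.RingOfIntegers.coe_eq_zero_iff.mp h')
  -- the order of `b`
  have hvb : v₀.valuation M b ≠ 0 := by rw [Ne, map_eq_zero]; exact hb
  set c : ℤ := WithZero.log (v₀.valuation M b) with hc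
  have hvbc : v₀.valuation M b = WithZero.exp c := (WithZero.exp_log hvb).symm
  refine ⟨(π : M) ^ (-c), zpow_ne_zero _ hπM0, ?_, ?_⟩
  · intro A' hA'
    have hv : v₀.asIdeal = primeUnder M A' := hv₀A.trans hA'.symm
    have h1 : v₀.valuation M ((π : M) ^ (-c) / b ^ h) = 1 := by
      rw [map_div₀, map_zpow₀, map_pow, hvalπ, hvbc, ← WithZero.exp_zsmul, ← WithZero.exp_nsmul,
        ← WithZero.exp_sub, ← WithZero.exp_zero]
      congr 1
      simp only [smul_eq_mul, nsmul_eq_mul]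
      ring
    have h2 := (valuation_eq_one_iff hv ((π : M) ^ (-c) / b ^ h)).mp h1
    exact h2
  · intro A' hA'
    have h1 : π ∉ primeUnder M A' := by
      intro hmem
      have hle : v₀.asIdeal ^ h ≤ primeUnder M A' := by
        rw [hπ]
        exact (Ideal.span_singleton_le_iff_mem _).mpr hmem
      have hle' : v₀.asIdeal ≤ primeUnder M A' :=
        (primeUnder_isPrime M A').le_of_pow_le hle
      have hmax : v₀.asIdeal.IsMaximal := v₀.isMaximal
      have := hmax.eq_of_le (primeUnder_isPrime M A').ne_top hle'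
      exact hA' (this.symm.trans hv₀A)
    have h2 : A'.valuation (((π : M)) : Qb) = 1 := (notMem_primeUnder M A' π).mp h1
    show A'.valuation ((((π : M) ^ (-c) : M)) : Qb) = 1
    have h3 : ((((π : M) ^ (-c) : M)) : Qb) = (((π : M)) : Qb) ^ (-c) :=
      map_zpow₀ (algebraMap M Qb) (π : M) (-c)
    rw [h3, map_zpow₀, h2, one_zpow]

/-! ### Part 2: the element `α` attached to one bad place -/

/-- Primes under a valuation subring are compatible in towers. -/
theorem primeUnder_eq_of_le {K M : IntermediateField ℚ Qb} (hKM : K ≤ M)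
    {A A' : ValuationSubring Qb} (h : primeUnder M A = primeUnder M A') :
    primeUnder K A = primeUnder K A' := by
  ext x
  have hint : IsIntegral ℤ (⟨((x : K) : Qb), hKM (x : K).2⟩ : M) :=
    (isIntegral_algebraMap_iff (algebraMap M Qb).injective).mp (isIntegral_coe K x)
  have h1 := mem_primeUnder M A (⟨⟨((x : K) : Qb), hKM (x : K).2⟩, hint⟩ : 𝓞 M)
  have h2 := mem_primeUnder M A' (⟨⟨((x : K) : Qb), hKM (x : K).2⟩, hint⟩ : 𝓞 M)
  rw [h] at h1
  rw [mem_primeUnder, mem_primeUnder]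
  exact h1.symm.trans h2

/-- **One bad place.**  `χ` is an additive character of `G_K`, trivial on `G_M` and on
`D_{A₀} ∩ G_K`.  Then there is `α ∈ Mˣ` with `α · b ^ (h · χ̃(g))` a unit at `g • A₀` for all
`g ∈ G_K` (`h` the class number of `M`), and `α` a unit at all valuation subrings not inducing
the place of `K` below `A₀`. -/
theorem exists_alpha_place {p : ℕ} [Fact p.Prime]
    (K M : IntermediateField ℚ Qb) [NumberField M] (hKM : K ≤ M)
    (χ : Gq → ZMod p)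
    (hχ : ∀ g ∈ K.fixingSubgroup, ∀ h ∈ K.fixingSubgroup, χ (g * h) = χ g + χ h)
    (hχM : ∀ s ∈ M.fixingSubgroup, χ s = 0)
    (A₀ : ValuationSubring Qb) {ℓ : ℕ} (hℓ : ℓ.Prime) (hA₀ : A₀.LiesOverPrime ℓ)
    (hD : ∀ s ∈ A₀.decompositionSubgroup ℚ, s ∈ K.fixingSubgroup → χ s = 0)
    (b : K) (hb : b ≠ 0) :
    ∃ α : M, α ≠ 0 ∧
      (∀ g ∈ K.fixingSubgroup,
        (g • A₀).valuation ((α : Qb) * (b : Qb) ^ (NumberField.classNumber M * (χ g).val)) = 1) ∧
      (∀ A' : ValuationSubring Qb, primeUnder K A' ≠ primeUnder K A₀ →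
        A'.valuation (α : Qb) = 1) := by
  classical
  have : Finite (PlacesOver M ℓ) := finite_placesOver M hℓ.ne_zero
  let _ : Fintype (PlacesOver M ℓ) := Fintype.ofFinite _
  set n := NumberField.classNumber M with hn
  have hMK : M.fixingSubgroup ≤ K.fixingSubgroup := IntermediateField.fixingSubgroup_antitone hKM
  let bM : M := ⟨(b : Qb), hKM b.2⟩
  have hbM : bM ≠ 0 := by
    intro h
    apply hb
    have h' : (bM : Qb) = 0 := by rw [h]; rfl
    exact Subtype.ext h'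
  -- representatives of the places of `M` reachable from `A₀` under `G_K`
  let P : PlacesOver M ℓ → Prop := fun w => ∃ g ∈ K.fixingSubgroup, placeOfSmul M hℓ hA₀ g = w
  let rep : PlacesOver M ℓ → Gq := fun w => if h : P w then h.choose else 1
  have hrepK : ∀ w, rep w ∈ K.fixingSubgroup := by
    intro w
    by_cases h : P w
    · simp only [rep, dif_pos h]; exact h.choose_spec.1
    · simp only [rep, dif_neg h]; exact one_mem _
  have hrep : ∀ w, P w → placeOfSmul M hℓ hA₀ (rep w) = w := by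
    intro w h
    simp only [rep, dif_pos h]; exact h.choose_spec.2
  have hγ : ∀ w : PlacesOver M ℓ, ∃ γ : M, γ ≠ 0 ∧
      (∀ A' : ValuationSubring Qb, primeUnder M A' = primeUnder M (rep w • A₀) →
        A'.valuation ((γ : Qb) / (bM : Qb) ^ n) = 1) ∧
      (∀ A' : ValuationSubring Qb, primeUnder M A' ≠ primeUnder M (rep w • A₀) →
        A'.valuation (γ : Qb) = 1) := fun w =>
    exists_supported_element M (rep w • A₀) hℓ (liesOverPrime_smul hA₀ _) bM hbM
  choose γ hγ0 hγ1 hγ2 using hγ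
  let t : PlacesOver M ℓ → M := fun w => if P w then (γ w)⁻¹ ^ (χ (rep w)).val else 1
  have ht0 : ∀ w, t w ≠ 0 := by
    intro w
    by_cases h : P w
    · simp only [t, if_pos h]; exact pow_ne_zero _ (inv_ne_zero (hγ0 w))
    · simp only [t, if_neg h]; exact one_ne_zero
  have hcoe : (((∏ w : PlacesOver M ℓ, t w : M)) : Qb) = ∏ w : PlacesOver M ℓ, ((t w : M) : Qb) :=
    map_prod (algebraMap M Qb) t Finset.univ
  have htcoe : ∀ w, ((t w : M) : Qb) = if P w then ((γ w : M) : Qb)⁻¹ ^ (χ (rep w)).val else 1 := by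
    intro w
    by_cases h : P w
    · simp only [t, if_pos h]; rfl
    · simp only [t, if_neg h]; rfl
  refine ⟨∏ w : PlacesOver M ℓ, t w, Finset.prod_ne_zero_iff.mpr fun w _ => ht0 w, ?_, ?_⟩
  · intro g hg
    set w' : PlacesOver M ℓ := placeOfSmul M hℓ hA₀ g with hw'
    have hPw' : P w' := ⟨g, hg, rfl⟩
    have hχeq : χ (rep w') = χ g := by
      obtain ⟨u, hu, d, hd, hgd⟩ := (placeOfSmul_eq_iff M hℓ hA₀ (rep w') g).mp (hrep w' hPw')
      have hdK : d ∈ K.fixingSubgroup := by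
        have hd' : d = (rep w')⁻¹ * u⁻¹ * g := by rw [hgd]; group
        rw [hd']
        exact mul_mem (mul_mem (inv_mem (hrepK w')) (inv_mem (hMK hu))) hg
      rw [hgd, hχ _ (mul_mem (hMK hu) (hrepK w')) _ hdK, hχ _ (hMK hu) _ (hrepK w'), hχM u hu,
        hD d hd hdK]
      ring
    have hother : ∀ w : PlacesOver M ℓ, w ≠ w' → (g • A₀).valuation ((t w : M) : Qb) = 1 := by
      intro w hw
      rw [htcoe]
      by_cases h : P w
      · rw [if_pos h]
        have hne : primeUnder M (g • A₀) ≠ primeUnder M (rep w • A₀) := by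
          intro heq
          apply hw
          rw [← hrep w h, hw']
          exact Subtype.ext (HeightOneSpectrum.ext heq.symm)
        rw [map_pow, map_inv₀, hγ2 w _ hne, inv_one, one_pow]
      · rw [if_neg h, map_one]
    have hself : (g • A₀).valuation (((t w' : M) : Qb) * (b : Qb) ^ (n * (χ g).val)) = 1 := by
      rw [htcoe, if_pos hPw', hχeq]
      have heq : primeUnder M (g • A₀) = primeUnder M (rep w' • A₀) := by
        have := congrArg (fun w : PlacesOver M ℓ => w.1.asIdeal) (hrep w' hPw')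
        exact this.symm
      have h1 := hγ1 w' _ heq
      have h2 : ((γ w' : M) : Qb)⁻¹ ^ (χ g).val * (b : Qb) ^ (n * (χ g).val) =
          (((γ w' : M) : Qb) / (bM : Qb) ^ n)⁻¹ ^ (χ g).val := by
        have hb0 : (b : Qb) ≠ 0 := by
          intro h; exact hb (Subtype.ext h)
        have hγ0' : ((γ w' : M) : Qb) ≠ 0 := by
          intro h; exact hγ0 w' (Subtype.ext h)
        show ((γ w' : M) : Qb)⁻¹ ^ (χ g).val * (b : Qb) ^ (n * (χ g).val) =
          (((γ w' : M) : Qb) / (b : Qb) ^ n)⁻¹ ^ (χ g).val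
        rw [pow_mul, inv_div, div_pow, inv_pow]
        field_simp
      rw [h2, map_pow, map_inv₀, h1, inv_one, one_pow]
    rw [hcoe, ← Finset.mul_prod_erase Finset.univ _ (Finset.mem_univ w'), mul_right_comm, map_mul,
      hself, one_mul, map_prod]
    exact Finset.prod_eq_one fun w hw => hother w (Finset.ne_of_mem_erase hw)
  · intro A' hA'
    rw [hcoe, map_prod]
    refine Finset.prod_eq_one fun w _ => ?_
    rw [htcoe]
    by_cases h : P w
    · rw [if_pos h]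
      have hne : primeUnder M A' ≠ primeUnder M (rep w • A₀) := by
        intro heq
        apply hA'
        rw [primeUnder_eq_of_le hKM heq]
        exact primeUnder_smul_of_mem_fixingSubgroup K A₀ (hrepK w)
      rw [map_pow, map_inv₀, hγ2 w _ hne, inv_one, one_pow]
    · rw [if_neg h, map_one]

/-! ### Part 3: all bad places together -/

/-- Units of a valuation subring in terms of its non-units. -/
theorem valuation_eq_one_iff_nonunits (A : ValuationSubring Qb) (z : Qb) :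
    A.valuation z = 1 ↔ z ∉ A.nonunits ∧ z⁻¹ ∉ A.nonunits := by
  rw [A.mem_nonunits_iff, A.mem_nonunits_iff, map_inv₀, not_lt, not_lt]
  constructor
  · intro h
    rw [h, inv_one]
    exact ⟨le_refl _, le_refl _⟩
  · rintro ⟨h1, h2⟩
    have h0 : A.valuation z ≠ 0 := fun h => by
      rw [h] at h1
      exact absurd h1 (not_le.mpr zero_lt_one)
    refine le_antisymm ?_ h1
    have h3 := (one_le_inv₀ (zero_lt_iff.mpr h0)).mp h2
    exact h3

/-- Units of a translated valuation subring. -/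
theorem valuation_smul_eq_one_iff (A : ValuationSubring Qb) (τ : Gq) (z : Qb) :
    (τ • A).valuation z = 1 ↔ A.valuation (τ⁻¹ z) = 1 := by
  rw [valuation_eq_one_iff_nonunits, valuation_eq_one_iff_nonunits, mem_nonunits_smul_iff,
    mem_nonunits_smul_iff, map_inv₀]

/-- Units of a translated valuation subring, for fixed elements. -/
theorem valuation_smul_eq_one_of_fixed (A : ValuationSubring Qb) (τ : Gq) (z : Qb)
    (hz : τ z = z) : (τ • A).valuation z = 1 ↔ A.valuation z = 1 := by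
  rw [valuation_smul_eq_one_iff]
  have : τ⁻¹ z = z := by
    conv_lhs => rw [← hz]
    exact AlgEquiv.symm_apply_apply τ z
  rw [this]

/-- The places where a nonzero element is not a unit are finite in number. -/
theorem finite_valuation_ne_one' (K : IntermediateField ℚ Qb) [NumberField K] (b : K)
    (hb : b ≠ 0) : {v : HeightOneSpectrum (𝓞 K) | v.valuation K b ≠ 1}.Finite := by
  have h1 := HeightOneSpectrum.Support.finite (𝓞 K) b
  have h2 := HeightOneSpectrum.Support.finite (𝓞 K) b⁻¹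
  refine (h1.union h2).subset ?_
  intro v hv
  rcases lt_trichotomy (v.valuation K b) 1 with h | h | h
  · right
    show 1 < v.valuation K b⁻¹
    rw [map_inv₀]
    have h0 : v.valuation K b ≠ 0 := by rw [Ne, map_eq_zero]; exact hb
    exact (one_lt_inv₀ (zero_lt_iff.mpr h0)).mpr h
  · exact absurd h hv
  · left
    exact h

/-- **All bad places.**  See `exists_alpha_place`; here the hypothesis is the local condition
`hloc` at every valuation subring outside `S`. -/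
theorem exists_alpha {p : ℕ} [Fact p.Prime] (S : Finset Nat.Primes)
    (K M : IntermediateField ℚ Qb) [NumberField K] [NumberField M] (hKM : K ≤ M)
    (χ : Gq → ZMod p)
    (hχ : ∀ g ∈ K.fixingSubgroup, ∀ h ∈ K.fixingSubgroup, χ (g * h) = χ g + χ h)
    (hχM : ∀ s ∈ M.fixingSubgroup, χ s = 0)
    (b : K) (hb : b ≠ 0)
    (hloc : ∀ q : Nat.Primes, q ∉ S → ∀ A : ValuationSubring Qb, A.LiesOverPrime (q : ℕ) →
      (∃ x : K, A.valuation ((b : Qb) * (x : Qb) ^ p) = 1) ∨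
      (∀ s ∈ A.decompositionSubgroup ℚ, s ∈ K.fixingSubgroup → χ s = 0)) :
    ∃ α : M, α ≠ 0 ∧
      ∀ q : Nat.Primes, q ∉ S → ∀ A : ValuationSubring Qb, A.LiesOverPrime (q : ℕ) →
        ∃ k : ZMod p, ∀ τ ∈ K.fixingSubgroup, ∃ x x' : K,
          (τ • A).valuation ((α : Qb) *
            ((b : Qb) ^ (k + χ τ).val * (x : Qb)) ^ NumberField.classNumber M) = 1 ∧
          (τ • A).valuation ((x : Qb) * (x' : Qb) ^ p) = 1 := by
  classical
  set n := NumberField.classNumber M with hn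
  have hfixK : ∀ τ ∈ K.fixingSubgroup, ∀ z : K, τ (z : Qb) = z := fun τ hτ z =>
    (IntermediateField.mem_fixingSubgroup_iff K τ).mp hτ z z.2
  have hb0 : (b : Qb) ≠ 0 := fun h => hb (Subtype.ext h)
  let Bad : Set (HeightOneSpectrum (𝓞 K)) := {v | ∃ (q : Nat.Primes) (A : ValuationSubring Qb),
    q ∉ S ∧ A.LiesOverPrime (q : ℕ) ∧ v.asIdeal = primeUnder K A ∧
      ¬ ∃ x : K, A.valuation ((b : Qb) * (x : Qb) ^ p) = 1}
  have hBadfin : Bad.Finite := by
    refine (finite_valuation_ne_one' K b hb).subset ?_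
    rintro v ⟨q, A, -, -, hv, hx⟩ h1
    apply hx
    refine ⟨1, ?_⟩
    have := (valuation_eq_one_iff hv b).mp h1
    simpa using this
  have hdata : ∀ v : Bad, ∃ (q : Nat.Primes) (A : ValuationSubring Qb),
      q ∉ S ∧ A.LiesOverPrime (q : ℕ) ∧
      (v : HeightOneSpectrum (𝓞 K)).asIdeal = primeUnder K A ∧
      ¬ ∃ x : K, A.valuation ((b : Qb) * (x : Qb) ^ p) = 1 := fun v => v.2
  choose qv Av hqv hAv hvA hbad using hdata
  have hα : ∀ v : Bad, ∃ α : M, α ≠ 0 ∧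
      (∀ g ∈ K.fixingSubgroup,
        (g • Av v).valuation ((α : Qb) * (b : Qb) ^ (n * (χ g).val)) = 1) ∧
      (∀ A' : ValuationSubring Qb, primeUnder K A' ≠ primeUnder K (Av v) →
        A'.valuation (α : Qb) = 1) := fun v =>
    exists_alpha_place K M hKM χ hχ hχM (Av v) (qv v).2 (hAv v)
      ((hloc (qv v) (hqv v) (Av v) (hAv v)).resolve_left (hbad v)) b hb
  choose αv hαv0 hαv1 hαv2 using hα
  let _ : Fintype Bad := hBadfin.fintype
  have hcoe : (((∏ v : Bad, αv v : M)) : Qb) = ∏ v : Bad, ((αv v : M) : Qb) :=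
    map_prod (algebraMap M Qb) αv Finset.univ
  refine ⟨∏ v : Bad, αv v, Finset.prod_ne_zero_iff.mpr fun v _ => hαv0 v, ?_⟩
  intro q hq A hA
  by_cases hcase : ∃ v : Bad, (v : HeightOneSpectrum (𝓞 K)).asIdeal = primeUnder K A
  · obtain ⟨v, hv⟩ := hcase
    obtain ⟨g, hg, hgA⟩ := exists_fixing_smul_eq K (qv v).2 (hAv v) ((hvA v).symm.trans hv)
    refine ⟨χ g, fun τ hτ => ⟨1, 1, ?_, ?_⟩⟩
    · have hτA : τ • A = (τ * g) • Av v := by rw [mul_smul, hgA]
      have h1 := hαv1 v (τ * g) (mul_mem hτ hg)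
      rw [hχ τ hτ g hg, ← hτA, add_comm] at h1
      have hother : ∀ v' : Bad, v' ≠ v → (τ • A).valuation ((αv v' : M) : Qb) = 1 := by
        intro v' hv'
        apply hαv2 v'
        rw [primeUnder_smul_of_mem_fixingSubgroup K A hτ, ← hv, ← hvA v']
        intro h
        exact hv' (Subtype.ext (HeightOneSpectrum.ext h.symm))
      rw [hcoe, ← Finset.mul_prod_erase Finset.univ _ (Finset.mem_univ v), mul_right_comm,
        map_mul]
      have h2 : ((b : Qb) ^ (χ g + χ τ).val * ((1 : K) : Qb)) ^ n =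
          (b : Qb) ^ (n * (χ g + χ τ).val) := by
        have : ((1 : K) : Qb) = 1 := rfl
        rw [this, mul_one, ← pow_mul, mul_comm]
      rw [h2, h1, one_mul, map_prod]
      exact Finset.prod_eq_one fun w hw => hother w (Finset.ne_of_mem_erase hw)
    · have : ((1 : K) : Qb) = 1 := rfl
      rw [this, one_pow, mul_one, map_one]
  · have hv : placeUnder K A q.2 hA ∉ Bad := fun h => hcase ⟨⟨_, h⟩, rfl⟩
    have hx : ∃ x : K, A.valuation ((b : Qb) * (x : Qb) ^ p) = 1 := by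
      by_contra hx
      exact hv ⟨q, A, hq, hA, rfl, hx⟩
    obtain ⟨x₀, hx₀⟩ := hx
    have hx₀0 : (x₀ : Qb) ≠ 0 := by
      intro h
      have hp0 : p ≠ 0 := (Fact.out : p.Prime).ne_zero
      rw [h, zero_pow hp0, mul_zero, map_zero] at hx₀
      exact zero_ne_one hx₀
    refine ⟨0, fun τ hτ => ⟨(x₀ ^ p) ^ (χ τ).val, x₀⁻¹ ^ (χ τ).val, ?_, ?_⟩⟩
    · have hα1 : (τ • A).valuation (((∏ v : Bad, αv v : M)) : Qb) = 1 := by
        rw [hcoe, map_prod]
        refine Finset.prod_eq_one fun v' _ => ?_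
        apply hαv2 v'
        rw [primeUnder_smul_of_mem_fixingSubgroup K A hτ, ← hvA v']
        intro h
        exact hcase ⟨v', h.symm⟩
      have h3 : (τ • A).valuation ((b : Qb) * (x₀ : Qb) ^ p) = 1 := by
        rw [valuation_smul_eq_one_of_fixed A τ _ (by rw [map_mul, map_pow, hfixK τ hτ, hfixK τ hτ])]
        exact hx₀
      have h4 : (b : Qb) ^ (0 + χ τ).val * ((((x₀ ^ p) ^ (χ τ).val : K)) : Qb) =
          ((b : Qb) * (x₀ : Qb) ^ p) ^ (χ τ).val := by
        rw [zero_add, mul_pow]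
        rfl
      rw [map_mul, hα1, one_mul, h4, map_pow, map_pow, h3, one_pow, one_pow]
    · have h5 : ((((x₀ ^ p) ^ (χ τ).val : K)) : Qb) * (((x₀⁻¹ ^ (χ τ).val : K)) : Qb) ^ p = 1 := by
        show ((x₀ : Qb) ^ p) ^ (χ τ).val * (((x₀ : Qb))⁻¹ ^ (χ τ).val) ^ p = 1
        rw [← pow_mul, ← pow_mul, inv_pow, mul_comm p, mul_inv_cancel₀ (pow_ne_zero _ hx₀0)]
      rw [h5, map_one]

/-- **The element `ξ`.**  Under the local condition `hloc` there is `ξ ∈ K_Sˣ` whose divisor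
outside `S` is, modulo `p`, the twisted divisor of `b`: at every valuation subring `A` outside
`S` there is `k` with `ξ · b ^ (k + χ τ)` a unit times a `p`-th power of `K` at `τ • A`, for all
`τ ∈ G_K`. -/
theorem exists_xi {p : ℕ} [Fact p.Prime] (S : Finset Nat.Primes)
    (hpS : ExtCitation.pPrime p ∈ S)
    (K M : IntermediateField ℚ Qb) [NumberField K] [NumberField M] (hKM : K ≤ M)
    (hM : M.IsUnramifiedOutside S)
    (χ : Gq → ZMod p)
    (hχ : ∀ g ∈ K.fixingSubgroup, ∀ h ∈ K.fixingSubgroup, χ (g * h) = χ g + χ h)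
    (hχM : ∀ s ∈ M.fixingSubgroup, χ s = 0)
    (b : K) (hb : b ≠ 0)
    (hloc : ∀ q : Nat.Primes, q ∉ S → ∀ A : ValuationSubring Qb, A.LiesOverPrime (q : ℕ) →
      (∃ x : K, A.valuation ((b : Qb) * (x : Qb) ^ p) = 1) ∨
      (∀ s ∈ A.decompositionSubgroup ℚ, s ∈ K.fixingSubgroup → χ s = 0)) :
    ∃ (ξ : Qb) (L : IntermediateField ℚ Qb), ξ ≠ 0 ∧ ξ ∈ L ∧ M ≤ L ∧
      L.IsUnramifiedOutside S ∧ Normal ℚ L ∧
      ∀ q : Nat.Primes, q ∉ S → ∀ A : ValuationSubring Qb, A.LiesOverPrime (q : ℕ) →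
        ∃ k : ZMod p, ∀ τ ∈ K.fixingSubgroup, ∃ x : K,
          (τ • A).valuation (ξ * (b : Qb) ^ (k + χ τ).val * (x : Qb) ^ p) = 1 := by
  classical
  have hp : p.Prime := Fact.out
  obtain ⟨α, hα0, hα⟩ := exists_alpha S K M hKM χ hχ hχM b hb hloc
  set n := NumberField.classNumber M with hn
  have hn0 : n ≠ 0 := NumberField.classNumber_ne_zero M
  obtain ⟨j, n', hn', hnj⟩ := Nat.exists_eq_pow_mul_and_not_dvd hn0 p hp.ne_one
  have hcop : Nat.Coprime n' p := ((Nat.Prime.coprime_iff_not_dvd hp).mpr hn').symm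
  obtain ⟨t, e, hte⟩ : ∃ t e : ℕ, n' * t = 1 + p * e := by
    obtain ⟨m, -, hm⟩ := Nat.exists_mul_mod_eq_one_of_coprime hcop hp.one_lt
    refine ⟨m, n' * m / p, ?_⟩
    have := Nat.div_add_mod (n' * m) p
    omega
  have hpj : 0 < p ^ j := pow_pos hp.pos j
  obtain ⟨ξ₀, hξ₀⟩ := IsAlgClosed.exists_pow_nat_eq (α : Qb) hpj
  have hα0' : (α : Qb) ≠ 0 := fun h => hα0 (Subtype.ext h)
  have hξ₀0 : ξ₀ ≠ 0 := by
    rintro rfl
    rw [zero_pow hpj.ne'] at hξ₀
    exact hα0' hξ₀.symm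
  have hq_ne : ∀ q : Nat.Primes, q ∉ S → Nat.Coprime (q : ℕ) (p ^ j) := by
    intro q hq
    apply Nat.Coprime.pow_right
    rw [Nat.coprime_primes q.2 hp]
    intro hqp
    apply hq
    have : q = ExtCitation.pPrime p := Subtype.ext hqp
    rw [this]
    exact hpS
  have hMfin : FiniteDimensional ℚ M := hM.1
  set L₁ : IntermediateField ℚ Qb := (M⟮ξ₀⟯).restrictScalars ℚ with hL₁def
  have hL₁ : L₁.IsUnramifiedOutside S := by
    refine ⟨Fermat.Agent.CFT.Kummer.finiteDimensional_adjoin_simple M ξ₀,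
      fun q hq A hA σ hσI => ?_⟩
    have hσM : σ ∈ M.fixingSubgroup := hM.2 q hq A hA hσI
    refine Fermat.Agent.CFT.Kummer.mem_fixingSubgroup_adjoin_simple M ξ₀ σ hσM ?_
    obtain ⟨k, hk⟩ := hα q hq A hA
    obtain ⟨x, x', hx1, -⟩ := hk 1 (one_mem _)
    rw [one_smul] at hx1
    let xM : M := ⟨(((b ^ (k + χ 1).val * x) ^ n' : K) : Qb), hKM (Subtype.property _)⟩
    refine inertia_fixes_root M ξ₀ α (p ^ j) hpj.ne' hξ₀ A q (hq_ne q hq) hA xM ?_ σ hσI hσM
    have h1 : (xM : Qb) ^ (p ^ j) = ((b : Qb) ^ (k + χ 1).val * (x : Qb)) ^ n := by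
      show (((b : Qb) ^ (k + χ 1).val * (x : Qb)) ^ n') ^ (p ^ j) = _
      rw [← pow_mul, hnj, mul_comm n' (p ^ j)]
    rw [h1]
    exact hx1
  set L : IntermediateField ℚ Qb := IntermediateField.normalClosure ℚ L₁ Qb with hLdef
  have hL : L.IsUnramifiedOutside S :=
    Fermat.Agent.S55.Glue.isUnramifiedOutside_normalClosure hL₁
  have hL₁L : L₁ ≤ L := IntermediateField.le_normalClosure L₁
  have hML₁ : M ≤ L₁ := by
    intro z hz
    exact (M⟮ξ₀⟯).algebraMap_mem (⟨z, hz⟩ : M)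
  have hξ₀L₁ : ξ₀ ∈ L₁ := IntermediateField.mem_adjoin_simple_self M ξ₀
  refine ⟨ξ₀ ^ t, L, pow_ne_zero _ hξ₀0, pow_mem (hL₁L hξ₀L₁) t, hML₁.trans hL₁L, hL,
    normalClosure.normal ℚ _ Qb, ?_⟩
  intro q hq A hA
  obtain ⟨k, hk⟩ := hα q hq A hA
  refine ⟨k, fun τ hτ => ?_⟩
  obtain ⟨x, x', hx1, hx2⟩ := hk τ hτ
  have hx0 : (x : Qb) ≠ 0 := by
    intro h
    rw [h, zero_mul, map_zero] at hx2
    exact zero_ne_one hx2
  have hx'0 : (x' : Qb) ≠ 0 := by
    intro h
    rw [h, zero_pow hp.ne_zero, mul_zero, map_zero] at hx2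
    exact zero_ne_one hx2
  have h1 : (τ • A).valuation (ξ₀ * ((b : Qb) ^ (k + χ τ).val * (x : Qb)) ^ n') = 1 := by
    apply valuation_eq_one_of_pow hpj.ne'
    rw [mul_pow, hξ₀, ← pow_mul, mul_comm n' (p ^ j), ← hnj]
    exact hx1
  have h2 : (τ • A).valuation ((ξ₀ * ((b : Qb) ^ (k + χ τ).val * (x : Qb)) ^ n') ^ t) = 1 := by
    rw [map_pow, h1, one_pow]
  refine ⟨(b ^ (k + χ τ).val * x) ^ e / x', ?_⟩
  have h3 : ξ₀ ^ t * (b : Qb) ^ (k + χ τ).val *
      ((((b ^ (k + χ τ).val * x) ^ e / x' : K)) : Qb) ^ p =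
      (ξ₀ * ((b : Qb) ^ (k + χ τ).val * (x : Qb)) ^ n') ^ t / ((x : Qb) * (x' : Qb) ^ p) := by
    show ξ₀ ^ t * (b : Qb) ^ (k + χ τ).val *
      (((b : Qb) ^ (k + χ τ).val * (x : Qb)) ^ e / (x' : Qb)) ^ p = _
    rw [mul_pow ξ₀, ← pow_mul, hte, pow_add, pow_one, pow_mul, div_pow]
    field_simp
    ring
  rw [h3, map_div₀, h2, hx2, div_one]

/-! ### Part 4: the roots `η(τ)` and the final statement -/

/-- Automorphisms preserve a normal intermediate field. -/
theorem map_mem_of_normal (L : IntermediateField ℚ Qb) [Normal ℚ L] (σ : Gq) {x : Qb}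
    (hx : x ∈ L) : σ x ∈ L := by
  have h := AlgEquiv.restrictNormal_commutes σ L ⟨x, hx⟩
  have h2 : σ x = algebraMap L Qb (σ.restrictNormal L ⟨x, hx⟩) := h.symm
  rw [h2]
  exact (σ.restrictNormal L ⟨x, hx⟩).2

/-- An automorphism fixing a set pointwise fixes the field it generates. -/
theorem mem_fixingSubgroup_adjoin (E : Set Qb) (σ : Gq) (h : ∀ x ∈ E, σ x = x) :
    σ ∈ (IntermediateField.adjoin ℚ E).fixingSubgroup := by
  rw [IntermediateField.mem_fixingSubgroup_iff]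
  intro y hy
  induction hy using IntermediateField.adjoin_induction with
  | mem z hz => exact h z hz
  | algebraMap z => exact σ.commutes z
  | add a b _ _ ha hb => rw [map_add, ha, hb]
  | inv a _ ha => rw [map_inv₀, ha]
  | mul a b _ _ ha hb => rw [map_mul, ha, hb]

/-! ### Part 5: the algebraic core (the descent cocycle, multiplicatively)

This part is helper106's `S55/Count/BrSAlg.lean`, inlined verbatim under the file-specific
namespace `Alg106` so that this module does not depend on the namespace of that file.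

`ξ, b ∈ Qbˣ`, `χ : Gq → ZMod p`, `χ~ = ZMod.val ∘ χ`:
`cEl τ = τ ξ / (ξ b^{χ~(τ)})`, `etaEl τ` a chosen `p`-th root of `cEl τ`,
`YEl g h = etaEl (g h) / (etaEl g · g (etaEl h) · b^{carry(g,h)})`,
`UEl g = g Ξ / (Ξ β^{χ~(g)} etaEl g)` (`Ξ^p = ξ`, `β^p = b`). -/

namespace Alg106

section Defs

variable {p : ℕ} (ξ b : Qb) (χ : Gq → ZMod p)

/-- `c(τ) = τ ξ / (ξ b^{χ~(τ)})`. -/
noncomputable def cEl (τ : Gq) : Qb := τ ξ / (ξ * b ^ (χ τ).val)

/-- `η(τ)`: the chosen `p`-th root of `c(τ)`. -/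
noncomputable def etaEl (τ : Gq) : Qb := rootP p (cEl ξ b χ τ)

/-- The carry of the integer lift of `χ`. -/
def carry (g h : Gq) : ℕ := ((χ g).val + (χ h).val) / p

/-- The descent cocycle, multiplicatively. -/
noncomputable def YEl (g h : Gq) : Qb :=
  etaEl ξ b χ (g * h) / (etaEl ξ b χ g * g (etaEl ξ b χ h) * b ^ carry χ g h)

/-- The comparison cochain, multiplicatively. -/
noncomputable def UEl (Ξ β : Qb) (g : Gq) : Qb :=
  g Ξ / (Ξ * β ^ (χ g).val * etaEl ξ b χ g)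

end Defs

section Alg

variable {p : ℕ} [Fact p.Prime] {ξ b : Qb} {χ : Gq → ZMod p}

omit [Fact p.Prime] in
theorem cEl_ne_zero (hξ : ξ ≠ 0) (hb : b ≠ 0) (τ : Gq) : cEl ξ b χ τ ≠ 0 := by
  unfold cEl
  have h1 : τ ξ ≠ 0 := by rw [Ne, map_eq_zero]; exact hξ
  exact div_ne_zero h1 (mul_ne_zero hξ (pow_ne_zero _ hb))

theorem etaEl_pow (τ : Gq) : etaEl ξ b χ τ ^ p = cEl ξ b χ τ :=
  rootP_pow (Fact.out : p.Prime).pos _

theorem etaEl_ne_zero (hξ : ξ ≠ 0) (hb : b ≠ 0) (τ : Gq) : etaEl ξ b χ τ ≠ 0 := by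
  intro h
  have h1 := etaEl_pow (ξ := ξ) (b := b) (χ := χ) τ
  rw [h, zero_pow (Fact.out : p.Prime).ne_zero] at h1
  exact cEl_ne_zero hξ hb τ h1.symm

theorem carry_spec {g h : Gq} (hgh : χ (g * h) = χ g + χ h) :
    (χ g).val + (χ h).val = (χ (g * h)).val + p * carry χ g h := by
  have : NeZero p := ⟨(Fact.out : p.Prime).ne_zero⟩
  unfold carry
  rw [hgh, ZMod.val_add, Nat.mod_add_div]

theorem UEl_pow {Ξ β : Qb} (hΞ : Ξ ^ p = ξ) (hβ : β ^ p = b) (hξ : ξ ≠ 0) (hb : b ≠ 0) (g : Gq) :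
    UEl ξ b χ Ξ β g ^ p = 1 := by
  have h1 : g ξ ≠ 0 := by rw [Ne, map_eq_zero]; exact hξ
  have h2 : b ^ (χ g).val ≠ 0 := pow_ne_zero _ hb
  unfold UEl
  rw [div_pow, mul_pow, mul_pow, ← map_pow, hΞ, etaEl_pow, ← pow_mul, mul_comm (χ g).val p,
    pow_mul, hβ]
  unfold cEl
  field_simp

/-- The key identity. -/
theorem UEl_mul {Ξ β z : Qb} (hΞ : Ξ ^ p = ξ) (hβ : β ^ p = b) (hξ : ξ ≠ 0) (hb : b ≠ 0)
    (hz : IsPrimitiveRoot z p) {κ : Gq → ZMod p} {g h : Gq}
    (hgz : g z = z) (hgβ : g β = z ^ (κ g).val * β) (hgh : χ (g * h) = χ g + χ h) :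
    UEl ξ b χ Ξ β g * UEl ξ b χ Ξ β h / UEl ξ b χ Ξ β (g * h)
      = YEl ξ b χ g h * (z ^ ((κ g).val * (χ h).val))⁻¹ := by
  have hp : p.Prime := Fact.out
  have : NeZero p := ⟨hp.ne_zero⟩
  have hΞ0 : Ξ ≠ 0 := by
    rintro rfl
    rw [zero_pow hp.ne_zero] at hΞ
    exact hξ hΞ.symm
  have hβ0 : β ≠ 0 := by
    rintro rfl
    rw [zero_pow hp.ne_zero] at hβ
    exact hb hβ.symm
  have hz0 : z ≠ 0 := hz.ne_zero hp.ne_zero
  -- `g` fixes the `p`-th root of unity `UEl h`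
  have hUh : g (UEl ξ b χ Ξ β h) = UEl ξ b χ Ξ β h := by
    have h1 := dlog_spec hz (UEl_pow (χ := χ) hΞ hβ hξ hb h)
    rw [h1, map_pow, hgz]
  have hUh' : UEl ξ b χ Ξ β h
      = (g * h) Ξ / (g Ξ * (z ^ (κ g).val * β) ^ (χ h).val * g (etaEl ξ b χ h)) := by
    conv_lhs => rw [← hUh]
    unfold UEl
    rw [map_div₀, map_mul, map_mul, map_pow, hgβ, AlgEquiv.mul_apply]
  have hgΞ : g Ξ ≠ 0 := by rw [Ne, map_eq_zero]; exact hΞ0
  have hghΞ : (g * h) Ξ ≠ 0 := by rw [Ne, map_eq_zero]; exact hΞ0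
  have he1 := etaEl_ne_zero (χ := χ) hξ hb g
  have he2 : g (etaEl ξ b χ h) ≠ 0 := by
    rw [Ne, map_eq_zero]; exact etaEl_ne_zero hξ hb h
  have he3 := etaEl_ne_zero (χ := χ) hξ hb (g * h)
  have hpow : β ^ (χ g).val * β ^ (χ h).val = β ^ (χ (g * h)).val * b ^ carry χ g h := by
    rw [← pow_add, carry_spec hgh, pow_add, pow_mul, hβ]
  have hb1 : b ^ carry χ g h ≠ 0 := pow_ne_zero _ hb
  have hβ1 : β ^ (χ g).val ≠ 0 := pow_ne_zero _ hβ0
  have hβ2 : β ^ (χ h).val ≠ 0 := pow_ne_zero _ hβ0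
  have hβ3 : β ^ (χ (g * h)).val ≠ 0 := pow_ne_zero _ hβ0
  have hzz : z ^ ((κ g).val * (χ h).val) ≠ 0 := pow_ne_zero _ hz0
  rw [hUh']
  unfold UEl YEl
  rw [mul_pow, ← pow_mul]
  rw [div_mul_div_comm, div_div_div_eq, div_mul_eq_mul_div, div_eq_div_iff (by positivity)
    (by positivity)]
  have hinv : (z ^ ((κ g).val * (χ h).val))⁻¹ * z ^ ((κ g).val * (χ h).val) = 1 :=
    inv_mul_cancel₀ hzz
  linear_combination
    (-(etaEl ξ b χ (g * h) * Ξ * etaEl ξ b χ g * g Ξ * g (etaEl ξ b χ h) * (g * h) Ξ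
        * β ^ (χ (g * h)).val * b ^ carry χ g h)) * hinv
    - (etaEl ξ b χ (g * h) * Ξ * etaEl ξ b χ g * g Ξ * g (etaEl ξ b χ h) * (g * h) Ξ
        * ((z ^ ((κ g).val * (χ h).val))⁻¹ * z ^ ((κ g).val * (χ h).val))) * hpow

theorem dlog_pow_self {z : Qb} (hz : IsPrimitiveRoot z p) (n : ℕ) :
    dlog p z (z ^ n) = (n : ZMod p) := by
  have : NeZero p := ⟨(Fact.out : p.Prime).ne_zero⟩
  refine dlog_eq hz (n : ZMod p) ?_
  rw [ZMod.val_natCast]
  conv_lhs => rw [← Nat.mod_add_div n p, pow_add, pow_mul, hz.pow_eq_one, one_pow, mul_one]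

/-- `YEl g h` is a `p`-th root of unity and its logarithm is `κ ∪ χ + d u`. -/
theorem dlog_YEl {Ξ β z : Qb} (hΞ : Ξ ^ p = ξ) (hβ : β ^ p = b) (hξ : ξ ≠ 0) (hb : b ≠ 0)
    (hz : IsPrimitiveRoot z p) {κ : Gq → ZMod p} {g h : Gq}
    (hgz : g z = z) (hgβ : g β = z ^ (κ g).val * β) (hgh : χ (g * h) = χ g + χ h) :
    dlog p z (YEl ξ b χ g h) = κ g * χ h
      + (dlog p z (UEl ξ b χ Ξ β g) + dlog p z (UEl ξ b χ Ξ β h)
          - dlog p z (UEl ξ b χ Ξ β (g * h))) := by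
  have hp : p.Prime := Fact.out
  have : NeZero p := ⟨hp.ne_zero⟩
  have hz0 : z ≠ 0 := hz.ne_zero hp.ne_zero
  have hzz : z ^ ((κ g).val * (χ h).val) ≠ 0 := pow_ne_zero _ hz0
  have key := UEl_mul (χ := χ) hΞ hβ hξ hb hz hgz hgβ hgh
  have hY : YEl ξ b χ g h = UEl ξ b χ Ξ β g * UEl ξ b χ Ξ β h / UEl ξ b χ Ξ β (g * h)
      * z ^ ((κ g).val * (χ h).val) := by
    rw [key, mul_assoc, inv_mul_cancel₀ hzz, mul_one]
  have h1 := UEl_pow (χ := χ) hΞ hβ hξ hb g
  have h2 := UEl_pow (χ := χ) hΞ hβ hξ hb h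
  have h3 := UEl_pow (χ := χ) hΞ hβ hξ hb (g * h)
  have h12 : (UEl ξ b χ Ξ β g * UEl ξ b χ Ξ β h) ^ p = 1 := by rw [mul_pow, h1, h2, one_mul]
  have h123 : (UEl ξ b χ Ξ β g * UEl ξ b χ Ξ β h / UEl ξ b χ Ξ β (g * h)) ^ p = 1 := by
    rw [div_pow, h12, h3, div_one]
  have h4 : (z ^ ((κ g).val * (χ h).val)) ^ p = 1 := by
    rw [← pow_mul, mul_comm, pow_mul, hz.pow_eq_one, one_pow]
  rw [hY, dlog_mul hz h123 h4, dlog_div hz h12 h3, dlog_mul hz h1 h2, dlog_pow_self hz]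
  push_cast
  rw [ZMod.natCast_zmod_val, ZMod.natCast_zmod_val]
  ring

end Alg

section Level

variable {p : ℕ} {ξ b : Qb} {χ : Gq → ZMod p}

theorem cEl_mul_right {τ s : Gq} (hs : s ξ = ξ) (hχ : χ (τ * s) = χ τ) :
    cEl ξ b χ (τ * s) = cEl ξ b χ τ := by
  unfold cEl
  rw [AlgEquiv.mul_apply, hs, hχ]

theorem etaEl_mul_right {τ s : Gq} (hs : s ξ = ξ) (hχ : χ (τ * s) = χ τ) :
    etaEl ξ b χ (τ * s) = etaEl ξ b χ τ := by
  unfold etaEl
  rw [cEl_mul_right hs hχ]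

theorem YEl_mul_right {g h s t : Gq}
    (h1 : etaEl ξ b χ (g * s) = etaEl ξ b χ g) (h2 : etaEl ξ b χ (h * t) = etaEl ξ b χ h)
    (h3 : s (etaEl ξ b χ h) = etaEl ξ b χ h)
    (h4 : etaEl ξ b χ (g * s * (h * t)) = etaEl ξ b χ (g * h))
    (h5 : χ (g * s) = χ g) (h6 : χ (h * t) = χ h) :
    YEl ξ b χ (g * s) (h * t) = YEl ξ b χ g h := by
  unfold YEl carry
  rw [h1, h2, h4, h5, h6, AlgEquiv.mul_apply, h3]

theorem UEl_mul_right {Ξ β : Qb} {g s : Gq} (hs : s Ξ = Ξ) (hχ : χ (g * s) = χ g)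
    (hη : etaEl ξ b χ (g * s) = etaEl ξ b χ g) :
    UEl ξ b χ Ξ β (g * s) = UEl ξ b χ Ξ β g := by
  unfold UEl
  rw [AlgEquiv.mul_apply, hs, hχ, hη]

end Level

section Main

variable {p : ℕ} [Fact p.Prime]

/-- **(BrS), from `ξ`.**  If `ξ ≠ 0` lies in a finite normal extension `F ⊇ K` unramified outside
`S` which also contains all the chosen roots `etaEl h` (`h ∈ G_K`) and is a level of `χ`, then
`κ_b ∪ χ` is cohomologous on `G_K` to a level-`S` cocycle. -/
theorem brS_of_xi (S : Finset Nat.Primes) (K : IntermediateField ℚ Qb) (z : Qb)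
    (hz : IsPrimitiveRoot z p) (hzK : z ∈ K) (b : Qb) (hb : b ≠ 0) (β : Qb)
    (hβ : β ^ p = b) (χ κ : Gq → ZMod p)
    (hχadd : ∀ g ∈ K.fixingSubgroup, ∀ h ∈ K.fixingSubgroup, χ (g * h) = χ g + χ h)
    (hκ : ∀ s ∈ K.fixingSubgroup, s β = z ^ (κ s).val * β)
    (ξ : Qb) (hξ : ξ ≠ 0)
    (F : IntermediateField ℚ Qb) (hF : F.IsUnramifiedOutside S) [Normal ℚ F] (hKF : K ≤ F)
    (hFξ : ξ ∈ F) (hFχ : ∀ g, ∀ s ∈ F.fixingSubgroup, χ (g * s) = χ g)
    (hFη : ∀ h ∈ K.fixingSubgroup, ∀ s ∈ F.fixingSubgroup,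
      s (etaEl ξ b χ h) = etaEl ξ b χ h) :
    ∃ (y : Gq × Gq → ZMod p) (u : Gq → ZMod p),
      (∃ F₁ : IntermediateField ℚ Qb, F₁.IsUnramifiedOutside S ∧ K ≤ F₁ ∧
        ∀ g ∈ K.fixingSubgroup, ∀ h ∈ K.fixingSubgroup,
        ∀ s ∈ F₁.fixingSubgroup, ∀ t ∈ F₁.fixingSubgroup, y (g * s, h * t) = y (g, h)) ∧
      (∃ F' : IntermediateField ℚ Qb, FiniteDimensional ℚ F' ∧
        ∀ g s, s ∈ F'.fixingSubgroup → u (g * s) = u g) ∧
      ∀ g ∈ K.fixingSubgroup, ∀ h ∈ K.fixingSubgroup,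
        y (g, h) = κ g * χ h + (u g + u h - u (g * h)) := by
  have hp : p.Prime := Fact.out
  have hΞ : rootP p ξ ^ p = ξ := rootP_pow hp.pos ξ
  have hfixξ : ∀ s ∈ F.fixingSubgroup, s ξ = ξ := fun s hs =>
    (IntermediateField.mem_fixingSubgroup_iff F s).mp hs ξ hFξ
  refine ⟨fun gh => dlog p z (YEl ξ b χ gh.1 gh.2),
    fun g => dlog p z (UEl ξ b χ (rootP p ξ) β g), ⟨F, hF, hKF, ?_⟩, ?_, ?_⟩
  · intro g _ h _ s hs t ht
    show dlog p z (YEl ξ b χ (g * s) (h * t)) = dlog p z (YEl ξ b χ g h)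
    have hn : h⁻¹ * s * h * t ∈ F.fixingSubgroup := by
      have h1 := Fermat.Agent.S55.Glue.conj_mem_fixingSubgroup F hs h⁻¹
      rw [inv_inv] at h1
      exact mul_mem h1 ht
    have e : g * s * (h * t) = g * h * (h⁻¹ * s * h * t) := by group
    rw [YEl_mul_right (etaEl_mul_right (hfixξ s hs) (hFχ g s hs))
      (etaEl_mul_right (hfixξ t ht) (hFχ h t ht)) (hFη h ‹_› s hs)
      (by rw [e]; exact etaEl_mul_right (hfixξ _ hn) (hFχ _ _ hn)) (hFχ g s hs) (hFχ h t ht)]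
  · have := hF.1
    have hint : IsIntegral ℚ (rootP p ξ) :=
      ((AlgebraicClosure.isAlgebraic ℚ).isAlgebraic (rootP p ξ)).isIntegral
    have : FiniteDimensional ℚ (IntermediateField.adjoin ℚ {rootP p ξ}) :=
      IntermediateField.adjoin.finiteDimensional hint
    refine ⟨F ⊔ IntermediateField.adjoin ℚ {rootP p ξ},
      IntermediateField.finiteDimensional_sup F _, fun g s hs => ?_⟩
    have hsF : s ∈ F.fixingSubgroup :=
      IntermediateField.fixingSubgroup_antitone le_sup_left hs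
    have hsΞ : s (rootP p ξ) = rootP p ξ :=
      (IntermediateField.mem_fixingSubgroup_iff _ s).mp hs _
        ((le_sup_right : IntermediateField.adjoin ℚ {rootP p ξ} ≤ _)
          (IntermediateField.mem_adjoin_simple_self ℚ _))
    show dlog p z (UEl ξ b χ (rootP p ξ) β (g * s)) = dlog p z (UEl ξ b χ (rootP p ξ) β g)
    rw [UEl_mul_right hsΞ (hFχ g s hsF) (etaEl_mul_right (hfixξ s hsF) (hFχ g s hsF))]
  · intro g hg h hh
    have hgz : g z = z := (IntermediateField.mem_fixingSubgroup_iff K g).mp hg z hzK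
    exact dlog_YEl hΞ hβ hξ hb hz hgz (hκ g hg) (hχadd g hg h hh)

end Main

end Alg106

open Alg106 in
/-- **(BrS) = (BE)(ii).**  Let `χ` be an additive character of `G_K` of level `S` and `b ∈ Kˣ`
with Kummer character `κ` (`ζ_p ∈ K`).  Assume that at every valuation subring `A` of `Qb` over
a prime `q ∉ S` either `p ∣ ord_A b` or `χ` is trivial on `D_A ∩ G_K`.  Then the 2-cocycle
`κ ∪ χ` of `G_K` is cohomologous (via a level-constant 1-cochain `u`) to a 2-cochain `y` of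
level `S`. -/
theorem brS {p : ℕ} [Fact p.Prime] (S : Finset Nat.Primes) (hpS : ExtCitation.pPrime p ∈ S)
    (K : IntermediateField ℚ Qb) (hK : K.IsUnramifiedOutside S) (ζ : K)
    (hζ : IsPrimitiveRoot ζ p)
    (χ : Gq → ZMod p)
    (hχ : ∀ g ∈ K.fixingSubgroup, ∀ h ∈ K.fixingSubgroup, χ (g * h) = χ g + χ h)
    (F : IntermediateField ℚ Qb) (hF : F.IsUnramifiedOutside S)
    (hχF : ∀ g, ∀ s ∈ F.fixingSubgroup, χ (g * s) = χ g)
    (b : K) (hb : b ≠ 0) (β : Qb) (hβ : β ^ p = (b : Qb))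
    (κ : Gq → ZMod p) (hκ : ∀ s ∈ K.fixingSubgroup, s β = (ζ : Qb) ^ (κ s).val * β)
    (hloc : ∀ q : Nat.Primes, q ∉ S → ∀ A : ValuationSubring Qb, A.LiesOverPrime (q : ℕ) →
      (∃ x : K, A.valuation ((b : Qb) * (x : Qb) ^ p) = 1) ∨
      (∀ s ∈ A.decompositionSubgroup ℚ, s ∈ K.fixingSubgroup → χ s = 0)) :
    ∃ (y : Gq × Gq → ZMod p) (u : Gq → ZMod p),
      (∃ F' : IntermediateField ℚ Qb, F'.IsUnramifiedOutside S ∧ K ≤ F' ∧
        ∀ g₁ ∈ K.fixingSubgroup, ∀ g₂ ∈ K.fixingSubgroup,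
        ∀ s₁ ∈ F'.fixingSubgroup, ∀ s₂ ∈ F'.fixingSubgroup,
          y (g₁ * s₁, g₂ * s₂) = y (g₁, g₂)) ∧
      (∃ F'' : IntermediateField ℚ Qb, FiniteDimensional ℚ F'' ∧
        ∀ g s, s ∈ F''.fixingSubgroup → u (g * s) = u g) ∧
      ∀ g ∈ K.fixingSubgroup, ∀ h ∈ K.fixingSubgroup,
        y (g, h) = κ g * χ h + (u g + u h - u (g * h)) := by
  classical
  have hp : p.Prime := Fact.out
  have hKfin : FiniteDimensional ℚ K := hK.1
  set M : IntermediateField ℚ Qb := K ⊔ F with hMdef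
  have hM : M.IsUnramifiedOutside S := hK.sup hF
  have hMfin : FiniteDimensional ℚ M := hM.1
  have hnfK : NumberField K := ⟨⟩
  have hnfM : NumberField M := ⟨⟩
  have hKM : K ≤ M := le_sup_left
  have hFM : F ≤ M := le_sup_right
  have hχ1 : χ 1 = 0 := by
    have h1 := hχ 1 (one_mem _) 1 (one_mem _)
    rw [mul_one] at h1
    exact left_eq_add.mp h1
  have hχM : ∀ s ∈ M.fixingSubgroup, χ s = 0 := by
    intro s hs
    have hsF : s ∈ F.fixingSubgroup := IntermediateField.fixingSubgroup_antitone hFM hs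
    have h1 := hχF 1 s hsF
    rw [one_mul] at h1
    rw [h1, hχ1]
  obtain ⟨ξ, L, hξ0, hξL, hML, hL, hLn, hξ⟩ := exists_xi S hpS K M hKM hM χ hχ hχM b hb hloc
  have hb0 : (b : Qb) ≠ 0 := fun h => hb (Subtype.ext h)
  have hfixK : ∀ τ ∈ K.fixingSubgroup, ∀ z : K, τ (z : Qb) = z := fun τ hτ z =>
    (IntermediateField.mem_fixingSubgroup_iff K τ).mp hτ z z.2
  have hq_ne : ∀ q : Nat.Primes, q ∉ S → Nat.Coprime (q : ℕ) p := by
    intro q hq
    rw [Nat.coprime_primes q.2 hp]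
    intro hqp
    apply hq
    have : q = ExtCitation.pPrime p := Subtype.ext hqp
    rw [this]
    exact hpS
  -- `c(τ)` lies in `L` and is locally a `p`-th power up to units outside `S`
  have hcL : ∀ τ : Gq, cEl ξ (b : Qb) χ τ ∈ L := by
    intro τ
    unfold cEl
    exact div_mem (map_mem_of_normal L τ hξL) (mul_mem hξL (pow_mem (hML (hKM b.2)) _))
  have hcdiv : ∀ τ ∈ K.fixingSubgroup, ∀ q : Nat.Primes, q ∉ S → ∀ A : ValuationSubring Qb,
      A.LiesOverPrime (q : ℕ) →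
      ∃ x : K, A.valuation (cEl ξ (b : Qb) χ τ * (x : Qb) ^ p) = 1 := by
    intro τ hτ q hq A hA
    obtain ⟨k, hk⟩ := hξ q hq (τ⁻¹ • A) (liesOverPrime_smul hA τ⁻¹)
    obtain ⟨x₁, hx₁⟩ := hk τ hτ
    obtain ⟨x₂, hx₂⟩ := hk 1 (one_mem _)
    rw [smul_inv_smul] at hx₁
    rw [one_smul, hχ1, add_zero, valuation_smul_eq_one_iff, inv_inv] at hx₂
    have hτz : τ (ξ * (b : Qb) ^ k.val * (x₂ : Qb) ^ p) =
        τ ξ * (b : Qb) ^ k.val * (x₂ : Qb) ^ p := by
      rw [map_mul, map_mul, map_pow, map_pow, hfixK τ hτ, hfixK τ hτ]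
    rw [hτz] at hx₂
    set c := (k.val + (χ τ).val) / p with hc
    have hval : k.val + (χ τ).val = (k + χ τ).val + p * c := by
      rw [ZMod.val_add]
      exact (Nat.mod_add_div _ _).symm
    have hx₁0 : (x₁ : Qb) ≠ 0 := by
      intro h
      rw [h, zero_pow hp.ne_zero, mul_zero, map_zero] at hx₁
      exact zero_ne_one hx₁
    refine ⟨b ^ c * x₂ / x₁, ?_⟩
    have hpow : (b : Qb) ^ k.val * (b : Qb) ^ (χ τ).val =
        (b : Qb) ^ (k + χ τ).val * ((b : Qb) ^ c) ^ p := by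
      rw [← pow_add, hval, pow_add, ← pow_mul, mul_comm c p]
    have hkey : cEl ξ (b : Qb) χ τ * (((b ^ c * x₂ / x₁ : K)) : Qb) ^ p =
        (τ ξ * (b : Qb) ^ k.val * (x₂ : Qb) ^ p) /
          (ξ * (b : Qb) ^ (k + χ τ).val * (x₁ : Qb) ^ p) := by
      unfold cEl
      show τ ξ / (ξ * (b : Qb) ^ (χ τ).val) * ((b : Qb) ^ c * (x₂ : Qb) / (x₁ : Qb)) ^ p = _
      rw [div_pow, mul_pow]
      field_simp
      linear_combination (-(τ ξ * (x₂ : Qb) ^ p)) * hpow
    rw [hkey, map_div₀, hx₂, hx₁, div_one]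
  -- the finitely many chosen roots
  set E : Set Qb := (fun τ => etaEl ξ (b : Qb) χ τ) '' (K.fixingSubgroup : Set Gq) with hE
  have hEfin : E.Finite := by
    have hfin : ((fun τ => cEl ξ (b : Qb) χ τ) '' (K.fixingSubgroup : Set Gq)).Finite := by
      refine Set.Finite.subset (Set.Finite.image2 (fun (r : Qb) (i : ℕ) => r / (ξ * (b : Qb) ^ i))
        (Polynomial.rootSet_finite (minpoly ℚ ξ) Qb) (Set.finite_Iio p)) ?_
      rintro _ ⟨τ, -, rfl⟩
      refine ⟨τ ξ, ?_, (χ τ).val, ?_, rfl⟩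
      · have hint : IsIntegral ℚ ξ := Algebra.IsIntegral.isIntegral ξ
        rw [Polynomial.mem_rootSet]
        refine ⟨minpoly.ne_zero hint, ?_⟩
        have h1 : Polynomial.aeval (τ ξ) (minpoly ℚ ξ) = τ (Polynomial.aeval ξ (minpoly ℚ ξ)) :=
          Polynomial.aeval_algHom_apply (τ : Qb →ₐ[ℚ] Qb) ξ (minpoly ℚ ξ)
        rw [h1, minpoly.aeval, map_zero]
      · have : NeZero p := ⟨hp.ne_zero⟩
        exact ZMod.val_lt _
    have hEq : E = (rootP p) '' ((fun τ => cEl ξ (b : Qb) χ τ) '' (K.fixingSubgroup : Set Gq)) := by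
      rw [Set.image_image]
      rfl
    rw [hEq]
    exact hfin.image _
  set F₁ : IntermediateField ℚ Qb := L ⊔ IntermediateField.adjoin ℚ E with hF₁def
  have hF₁ : F₁.IsUnramifiedOutside S := by
    have hLfin : FiniteDimensional ℚ L := hL.1
    have hEint : ∀ x ∈ E, IsIntegral ℚ x := fun x _ => Algebra.IsIntegral.isIntegral x
    have hEfin' : Finite E := hEfin.to_subtype
    have hadjfin : FiniteDimensional ℚ (IntermediateField.adjoin ℚ E) :=
      IntermediateField.finiteDimensional_adjoin hEint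
    refine ⟨IntermediateField.finiteDimensional_sup L _, fun q hq A hA σ hσI => ?_⟩
    rw [IntermediateField.fixingSubgroup_sup]
    have hσL : σ ∈ L.fixingSubgroup := hL.2 q hq A hA hσI
    refine ⟨hσL, mem_fixingSubgroup_adjoin E σ ?_⟩
    rintro _ ⟨τ, hτ, rfl⟩
    obtain ⟨x, hx⟩ := hcdiv τ hτ q hq A hA
    exact inertia_fixes_root L (etaEl ξ (b : Qb) χ τ) ⟨cEl ξ (b : Qb) χ τ, hcL τ⟩ p hp.ne_zero
      (etaEl_pow τ) A q (hq_ne q hq) hA ⟨(x : Qb), hML (hKM x.2)⟩ hx σ hσI hσL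
  set F₂ : IntermediateField ℚ Qb := IntermediateField.normalClosure ℚ F₁ Qb with hF₂def
  have hF₂ : F₂.IsUnramifiedOutside S :=
    Fermat.Agent.S55.Glue.isUnramifiedOutside_normalClosure hF₁
  have hF₂n : Normal ℚ F₂ := normalClosure.normal ℚ _ Qb
  have hF₁F₂ : F₁ ≤ F₂ := IntermediateField.le_normalClosure F₁
  have hLF₂ : L ≤ F₂ := le_sup_left.trans hF₁F₂
  have hzprim : IsPrimitiveRoot (ζ : Qb) p := hζ.map_of_injective (f := K.val) K.val.injective
  exact brS_of_xi S K (ζ : Qb) hzprim ζ.2 (b : Qb) hb0 β hβ χ κ hχ hκ ξ hξ0 F₂ hF₂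
    (hKM.trans (hML.trans hLF₂)) (hLF₂ hξL)
    (fun g s hs => hχF g s
      (IntermediateField.fixingSubgroup_antitone (hFM.trans (hML.trans hLF₂)) hs))
    (fun h hh s hs => (IntermediateField.mem_fixingSubgroup_iff F₂ s).mp hs _
      (hF₁F₂ ((le_sup_right : IntermediateField.adjoin ℚ E ≤ F₁)
        (IntermediateField.subset_adjoin ℚ E ⟨h, hh, rfl⟩))))

end Fermat.Agent.CFT.Count.BrS
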