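import Fermat.Agent.CFT.Count.BECup
import Fermat.Agent.CFT.Count.BrS

/-!
# (BE): the K-side count against an abstract localisation map

`K ≤ M` number fields in `Qb`, unramified outside `S ∋ p`, `μ_p ⊆ K`, `M / K` cyclic of degree `p`
cut out by `χ`, non-split above `S`.  Let `Λ` be any map from 2-cochains of `G_K = Gal(Qb/K)` with
values in `ZMod p` to a finite abelian group `W` such that, on level-`S` 2-cocycles (`Good`),

* `Λ` is additive modulo coboundaries of level-constant 1-cochains (`hΛadd`), and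
* `Λ y = 0` forces `y` to be, on `D(A) ⊓ G_K` for every valuation subring `A` over a prime of
  `S`, the coboundary of a level-constant cochain (`hΛker`).

Then `p ^ #(places of K above S) ≤ p * |W|` (`count_of_loc`).  In the application
`Λ y = loc² [ind₂ y]` and `W = range loc²` for the module `M0(K)`: the two hypotheses are the
Shapiro lemmas, everything on the side of `K` (the `T`-units, the descent cocycle (BrS), the
approximation (CA) and the Hasse norm theorem) is inside this statement.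
-/

set_option autoImplicit false
set_option linter.unusedSectionVars false

namespace Fermat.Agent.CFT.Count.BECount

local notation "Qb" => AlgebraicClosure ℚ
local notation "Gq" => (AlgebraicClosure ℚ ≃ₐ[ℚ] AlgebraicClosure ℚ)

open Fermat.Agent.CFT.Cyclic Fermat.Agent.CFT.Global groupCohomology

/-- Level-`S` 2-cocycles of `Gal(Qb/K)` with trivial coefficients `ZMod p`. -/
def Good {p : ℕ} (S : Finset Nat.Primes) (K : IntermediateField ℚ Qb)
    (y : ↥K.fixingSubgroup × ↥K.fixingSubgroup → ZMod p) : Prop :=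
  (∃ F : IntermediateField ℚ Qb, F.IsUnramifiedOutside S ∧
    ∀ g g' s s' : ↥K.fixingSubgroup, (s : Gq) ∈ F.fixingSubgroup →
      (s' : Gq) ∈ F.fixingSubgroup → y (g * s, g' * s') = y (g, g')) ∧
  ∀ g h j : ↥K.fixingSubgroup, y (g * h, j) + y (g, h) = y (h, j) + y (g, h * j)

section Kummer

variable {p : ℕ} [hp : Fact p.Prime]

theorem eq_add_of_pow_eq {z : Qb} (hz : IsPrimitiveRoot z p) {a b c : ZMod p}
    (h : z ^ a.val = z ^ (b.val + c.val)) : a = b + c := by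
  have h4 : z ^ a.val = z ^ (b + c).val := by
    rw [h, val_add_val_eq, pow_add, pow_mul, hz.pow_eq_one, one_pow, mul_one]
  exact ZMod.val_injective p (hz.pow_inj (ZMod.val_lt _) (ZMod.val_lt _) h4)

/-- Existence of a `p`-th root and of its Kummer character. -/
theorem exists_kummer_char (K : IntermediateField ℚ Qb) {z : Qb} (hz : IsPrimitiveRoot z p)
    (b : Qb) (hbK : b ∈ K) (hb : b ≠ 0) :
    ∃ (β : Qb) (κ : Gq → ZMod p), β ^ p = b ∧
      ∀ g ∈ K.fixingSubgroup, g β = z ^ (κ g).val * β := by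
  classical
  obtain ⟨β, hβ⟩ := IsAlgClosed.exists_pow_nat_eq b hp.out.pos
  have hβ0 : β ≠ 0 := by
    rintro rfl
    rw [zero_pow hp.out.ne_zero] at hβ
    exact hb hβ.symm
  have key : ∀ g : Gq, ∃ i : ZMod p, g ∈ K.fixingSubgroup → g β = z ^ i.val * β := by
    intro g
    by_cases hg : g ∈ K.fixingSubgroup
    · have h1 : (g β / β) ^ p = 1 := by
        rw [div_pow, ← map_pow, hβ]
        have : g b = b := hg ⟨b, hbK⟩
        rw [this, div_self hb]
      obtain ⟨i, hi, hzi⟩ := hz.eq_pow_of_pow_eq_one h1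
      refine ⟨(i : ZMod p), fun _ => ?_⟩
      rw [ZMod.val_natCast_of_lt hi, hzi, div_mul_cancel₀ _ hβ0]
    · exact ⟨0, fun h => absurd h hg⟩
  choose κ hκ using key
  exact ⟨β, κ, hβ, hκ⟩

/-- Kummer characters are additive on `Gal(Qb/K)` when `μ_p ⊆ K`. -/
theorem kummer_add (K : IntermediateField ℚ Qb) {z : Qb} (hz : IsPrimitiveRoot z p) (hzK : z ∈ K)
    {β : Qb} (hβ0 : β ≠ 0) {κ : Gq → ZMod p}
    (hκ : ∀ g ∈ K.fixingSubgroup, g β = z ^ (κ g).val * β)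
    {g h : Gq} (hg : g ∈ K.fixingSubgroup) (hh : h ∈ K.fixingSubgroup) :
    κ (g * h) = κ g + κ h := by
  have hgz : g z = z := hg ⟨z, hzK⟩
  have h1 : (g * h) β = z ^ (κ (g * h)).val * β := hκ _ (mul_mem hg hh)
  have h2 : (g * h) β = z ^ ((κ g).val + (κ h).val) * β := by
    rw [AlgEquiv.mul_apply, hκ h hh, map_mul, map_pow, hgz, hκ g hg, pow_add]
    ring
  exact eq_add_of_pow_eq hz (mul_right_cancel₀ hβ0 (h1.symm.trans h2))

/-- Kummer characters are additive in the element. -/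
theorem kummer_mul (K : IntermediateField ℚ Qb) {z : Qb} (hz : IsPrimitiveRoot z p) (hzK : z ∈ K)
    {β₁ β₂ β₃ : Qb} (h₁ : β₁ ≠ 0) (h₂ : β₂ ≠ 0) (h₃ : β₃ ^ p = β₁ ^ p * β₂ ^ p)
    {κ₁ κ₂ κ₃ : Gq → ZMod p}
    (hκ₁ : ∀ g ∈ K.fixingSubgroup, g β₁ = z ^ (κ₁ g).val * β₁)
    (hκ₂ : ∀ g ∈ K.fixingSubgroup, g β₂ = z ^ (κ₂ g).val * β₂)
    (hκ₃ : ∀ g ∈ K.fixingSubgroup, g β₃ = z ^ (κ₃ g).val * β₃)
    {g : Gq} (hg : g ∈ K.fixingSubgroup) : κ₃ g = κ₁ g + κ₂ g := by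
  have hgz : g z = z := hg ⟨z, hzK⟩
  have h12 : β₁ * β₂ ≠ 0 := mul_ne_zero h₁ h₂
  have h30 : β₃ ≠ 0 := by
    rintro rfl
    rw [zero_pow hp.out.ne_zero] at h₃
    exact pow_ne_zero p h12 (by rw [mul_pow]; exact h₃.symm)
  have hγ : (β₃ / (β₁ * β₂)) ^ p = 1 := by
    rw [div_pow, mul_pow, h₃, div_self]
    rw [← mul_pow]
    exact pow_ne_zero p h12
  obtain ⟨i, -, hzi⟩ := hz.eq_pow_of_pow_eq_one hγ
  have hβ₃ : β₃ = z ^ i * (β₁ * β₂) := by
    rw [hzi, div_mul_cancel₀ _ h12]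
  have e1 : g β₃ = z ^ ((κ₁ g).val + (κ₂ g).val) * β₃ := by
    conv_lhs => rw [hβ₃]
    rw [map_mul, map_pow, hgz, map_mul, hκ₁ g hg, hκ₂ g hg]
    conv_rhs => rw [hβ₃]
    rw [pow_add]
    ring
  have e2 : g β₃ = z ^ (κ₃ g).val * β₃ := hκ₃ g hg
  exact eq_add_of_pow_eq hz (mul_right_cancel₀ h30 (e2.symm.trans e1))

end Kummer

section Main

universe u

/-- **(BE), the K-side count against an abstract localisation map.** -/
theorem count_of_loc {p : ℕ} [hp : Fact p.Prime] (S : Finset Nat.Primes)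
    (hpS : ExtCitation.pPrime p ∈ S)
    (K M : IntermediateField ℚ Qb) [NumberField ↥K] (hK : K.IsUnramifiedOutside S)
    (hKM : K ≤ M) (hMS : M.IsUnramifiedOutside S)
    (χ : Gq → ZMod p)
    (hχadd : ∀ g ∈ K.fixingSubgroup, ∀ h ∈ K.fixingSubgroup, χ (g * h) = χ g + χ h)
    (hχM : ∀ g, ∀ s ∈ M.fixingSubgroup, χ (g * s) = χ g)
    (hχker : ∀ g ∈ K.fixingSubgroup, (χ g = 0 ↔ g ∈ M.fixingSubgroup))
    (s : Gq) (hsK : s ∈ K.fixingSubgroup) (hs : χ s = 1)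
    (hns : ∀ q ∈ S, ∀ A : ValuationSubring Qb, A.LiesOverPrime ((q : Nat.Primes) : ℕ) →
      ∃ σ ∈ A.decompositionSubgroup ℚ, σ ∈ K.fixingSubgroup ∧ χ σ ≠ 0)
    (ζ : ↥K) (hζ : IsPrimitiveRoot ζ p)
    (W : Type u) [AddCommGroup W] [Finite W]
    (Λ : (↥K.fixingSubgroup × ↥K.fixingSubgroup → ZMod p) → W)
    (hΛadd : ∀ y₁ y₂ y₃ : ↥K.fixingSubgroup × ↥K.fixingSubgroup → ZMod p,
      Good S K y₁ → Good S K y₂ → Good S K y₃ →
      ∀ w : ↥K.fixingSubgroup → ZMod p,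
        IsLevelConstant₁ (Subgroup.subtype K.fixingSubgroup) w →
        (∀ g h, y₃ (g, h) = y₁ (g, h) + y₂ (g, h) + (w g + w h - w (g * h))) →
        Λ y₃ = Λ y₁ + Λ y₂)
    (hΛker : ∀ y : ↥K.fixingSubgroup × ↥K.fixingSubgroup → ZMod p, Good S K y → Λ y = 0 →
      ∀ q ∈ S, ∀ A : ValuationSubring Qb, A.LiesOverPrime ((q : Nat.Primes) : ℕ) →
      ∃ t : ↥(A.decompositionSubgroup ℚ ⊓ K.fixingSubgroup) → ZMod p,
        IsLevelConstant₁ (Subgroup.subtype (A.decompositionSubgroup ℚ ⊓ K.fixingSubgroup)) t ∧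
        ∀ g h : ↥(A.decompositionSubgroup ℚ ⊓ K.fixingSubgroup),
          y (⟨g, g.2.2⟩, ⟨h, h.2.2⟩) = t h - t (g * h) + t g) :
    p ^ (CountV.SK S K).card ≤ p * Nat.card W := by
  classical
  let χ' : ↥K.fixingSubgroup → ZMod p := fun g => χ g
  have hadd' : ∀ g h, χ' (g * h) = χ' g + χ' h := fun g h => hχadd _ g.2 _ h.2
  have hker' : ∀ g, χ' g = 0 ↔ (g : Gq) ∈ M.fixingSubgroup := fun g => hχker _ g.2
  have hns' : ∀ q ∈ S, ∀ A : ValuationSubring Qb, A.LiesOverPrime ((q : Nat.Primes) : ℕ) →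
      ∃ σ : ↥K.fixingSubgroup, (σ : Gq) ∈ A.decompositionSubgroup ℚ ∧ χ' σ ≠ 0 := by
    intro q hq A hA
    obtain ⟨σ, hσD, hσK, hσ⟩ := hns q hq A hA
    exact ⟨⟨σ, hσK⟩, hσD, hσ⟩
  have hz : IsPrimitiveRoot ((ζ : ↥K) : Qb) p := hζ.map_of_injective K.val.injective
  have hzK : ((ζ : ↥K) : Qb) ∈ K := ζ.2
  obtain ⟨B, hB1, hB2⟩ := BECup.be_K_cup.{u} S K M hKM hMS χ' hadd' hker' ⟨s, hsK⟩ hs hns'
    (ζ : Qb) hz hzK
  have hbne : ∀ b : ↥B, ((((b : (↥K)ˣ) : ↥K)) : Qb) ≠ 0 := by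
    intro b h
    have : (((b : (↥K)ˣ) : ↥K)) = 0 := by exact_mod_cast h
    exact Units.ne_zero _ this
  -- Kummer data
  have hdata : ∀ b : ↥B, ∃ (β : Qb) (κ : Gq → ZMod p),
      β ^ p = ((((b : (↥K)ˣ) : ↥K)) : Qb) ∧
      ∀ g ∈ K.fixingSubgroup, g β = ((ζ : ↥K) : Qb) ^ (κ g).val * β :=
    fun b => exists_kummer_char K hz _ (SetLike.coe_mem _) (hbne b)
  choose β κ hβ hκ using hdata
  have hβ0 : ∀ b : ↥B, β b ≠ 0 := by
    intro b h
    have h1 := hβ b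
    rw [h, zero_pow hp.out.ne_zero] at h1
    exact hbne b h1.symm
  -- the descent cocycles
  have hbrS : ∀ b : ↥B, ∃ (y : Gq × Gq → ZMod p) (u : Gq → ZMod p),
      (∃ F' : IntermediateField ℚ Qb, F'.IsUnramifiedOutside S ∧ K ≤ F' ∧
        ∀ g₁ ∈ K.fixingSubgroup, ∀ g₂ ∈ K.fixingSubgroup,
        ∀ s₁ ∈ F'.fixingSubgroup, ∀ s₂ ∈ F'.fixingSubgroup,
          y (g₁ * s₁, g₂ * s₂) = y (g₁, g₂)) ∧
      (∃ F'' : IntermediateField ℚ Qb, FiniteDimensional ℚ F'' ∧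
        ∀ g s, s ∈ F''.fixingSubgroup → u (g * s) = u g) ∧
      ∀ g ∈ K.fixingSubgroup, ∀ h ∈ K.fixingSubgroup,
        y (g, h) = κ b g * χ h + (u g + u h - u (g * h)) := by
    intro b
    refine BrS.brS S hpS K hK ζ hζ χ hχadd M hMS hχM ((b : (↥K)ˣ) : ↥K) (Units.ne_zero _)
      (β b) (hβ b) (κ b) (hκ b) ?_
    intro q hq A hA
    exact (hB1 b b.2 q hq A hA).imp id (fun h s hsD hsK => h ⟨s, hsK⟩ hsD)
  choose y u hyS hu hy using hbrS
  let yU : ↥B → (↥K.fixingSubgroup × ↥K.fixingSubgroup → ZMod p) :=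
    fun b x => y b ((x.1 : Gq), (x.2 : Gq))
  have hgood : ∀ b, Good S K (yU b) := by
    intro b
    refine ⟨?_, ?_⟩
    · obtain ⟨F', hF', -, hinv⟩ := hyS b
      exact ⟨F', hF', fun g g' s s' hs hs' => hinv g g.2 g' g'.2 s hs s' hs'⟩
    · intro g h j
      show y b (((g * h : ↥K.fixingSubgroup) : Gq), (j : Gq)) + y b ((g : Gq), (h : Gq))
        = y b ((h : Gq), (j : Gq)) + y b ((g : Gq), ((h * j : ↥K.fixingSubgroup) : Gq))
      rw [Subgroup.coe_mul, Subgroup.coe_mul,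
        hy b _ (mul_mem g.2 h.2) _ j.2, hy b _ g.2 _ h.2, hy b _ h.2 _ j.2,
        hy b _ g.2 _ (mul_mem h.2 j.2),
        kummer_add K hz hzK (hβ0 b) (hκ b) g.2 h.2, hχadd _ h.2 _ j.2, mul_assoc]
      ring
  refine hB2 W (fun b => Λ (yU b)) ?_ ?_
  · -- additivity
    intro b b'
    obtain ⟨F₁, hF₁, hu₁⟩ := hu b
    obtain ⟨F₂, hF₂, hu₂⟩ := hu b'
    obtain ⟨F₃, hF₃, hu₃⟩ := hu (b * b')
    refine hΛadd (yU b) (yU b') (yU (b * b')) (hgood _) (hgood _) (hgood _)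
      (fun g => u (b * b') (g : Gq) - u b (g : Gq) - u b' (g : Gq)) ?_ ?_
    · refine ⟨F₁ ⊔ F₂ ⊔ F₃, inferInstance, ?_⟩
      intro g t ht
      have ht' : ((t : ↥K.fixingSubgroup) : Gq) ∈ (F₁ ⊔ F₂ ⊔ F₃).fixingSubgroup := ht
      have e1 := hu₁ (g : Gq) (t : Gq)
        (IntermediateField.fixingSubgroup_antitone (le_sup_left.trans le_sup_left) ht')
      have e2 := hu₂ (g : Gq) (t : Gq)
        (IntermediateField.fixingSubgroup_antitone (le_sup_right.trans le_sup_left) ht')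
      have e3 := hu₃ (g : Gq) (t : Gq)
        (IntermediateField.fixingSubgroup_antitone le_sup_right ht')
      show u (b * b') (((g * t : ↥K.fixingSubgroup)) : Gq) - u b (((g * t : ↥K.fixingSubgroup)) : Gq)
          - u b' (((g * t : ↥K.fixingSubgroup)) : Gq)
        = u (b * b') (g : Gq) - u b (g : Gq) - u b' (g : Gq)
      rw [Subgroup.coe_mul, e1, e2, e3]
    · intro g h
      have hβ3 : β (b * b') ^ p = β b ^ p * β b' ^ p := by
        rw [hβ, hβ, hβ]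
        push_cast
        rfl
      have hk : κ (b * b') (g : Gq) = κ b (g : Gq) + κ b' (g : Gq) :=
        kummer_mul K hz hzK (hβ0 b) (hβ0 b') hβ3 (hκ b) (hκ b') (hκ (b * b')) g.2
      show y (b * b') ((g : Gq), (h : Gq)) = y b ((g : Gq), (h : Gq)) + y b' ((g : Gq), (h : Gq))
        + ((u (b * b') (g : Gq) - u b (g : Gq) - u b' (g : Gq))
          + (u (b * b') (h : Gq) - u b (h : Gq) - u b' (h : Gq))
          - (u (b * b') (((g * h : ↥K.fixingSubgroup)) : Gq)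
            - u b (((g * h : ↥K.fixingSubgroup)) : Gq)
            - u b' (((g * h : ↥K.fixingSubgroup)) : Gq)))
      rw [Subgroup.coe_mul, hy (b * b') _ g.2 _ h.2, hy b _ g.2 _ h.2, hy b' _ g.2 _ h.2, hk]
      ring
  · -- the kernel
    intro b hb0 q hqS A hA
    obtain ⟨t, ht, hyt⟩ := hΛker (yU b) (hgood b) hb0 q hqS A hA
    obtain ⟨c, hc, hcup⟩ := BECup.cup_of_brS K χ' (κ b) A (y b) (u b) (hu b)
      (fun g hg h hh => hy b g hg h hh) t ht (fun g h => hyt g h)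
    exact ⟨β b, κ b, c, hβ b, hκ b, hc, hcup⟩

end Main

end Fermat.Agent.CFT.Count.BECount
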