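import Fermat.Agent.CFT.Count.BEK
import Fermat.Agent.CFT.Cyclic.Kummer
import Fermat.Agent.CFT.Global.HP.LocalNormDiv

/-!
# (BE): from the cup identity `κ ∪ χ = d c` to the carry cocycle, and the K-side count

The descent cocycle (BrS) and the local triviality of Shapiro cochains give, on
`D(A) ⊓ Fix K`, an identity `κ g * χ h = c g + c h - c (g * h)` of `ZMod p`-valued cochains
(`κ` the Kummer character of `b`, `χ` the character of `M / K`, `c` level-constant).  The adapter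
(CA) (`LN.exists_norm_approx_div'`) wants the `Qbˣ`-valued carry cocycle of `b` to be a level
coboundary.  This file is the seam:

* `carry_eq_dOne_of_cup` : the abstract identity (`Cyclic.kummerCup_eq` + symmetry of the cup);
* `carry_cob_of_cup` : the statement on `D(A) ⊓ Fix K` in the literal shape of (CA);
* `approx_of_cup` : composition with (CA);
* `be_K_cup` : `BEK.be_K` with the hypothesis on `Ψ` in the cup shape.
-/

set_option autoImplicit false
set_option linter.unusedSectionVars false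

namespace Fermat.Agent.CFT.Count.BECup

open Fermat.Agent.CFT.Cyclic groupCohomology

local notation "Qb" => AlgebraicClosure ℚ
local notation "Gq" => (AlgebraicClosure ℚ ≃ₐ[ℚ] AlgebraicClosure ℚ)

attribute [local instance] Fermat.Agent.Lib.FrobProfinite.isAlgebraic_Qb

section Abstract

variable {G : Type*} [Group G] {A : Type*} [CommGroup A] [MulDistribMulAction G A]
variable {n : ℕ} [NeZero n]

/-- `x ↦ z ^ x.val`. -/
def zpw (z : A) (x : ZMod n) : A := z ^ x.val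

theorem zpw_add {z : A} (hz : z ^ n = 1) (x y : ZMod n) :
    zpw z (x + y) = zpw z x * zpw z y := by
  unfold zpw
  rw [← pow_add, val_add_val_eq, pow_add, pow_mul, hz, one_pow, mul_one]

theorem zpw_zero (z : A) : zpw z (0 : ZMod n) = 1 := by
  unfold zpw
  rw [ZMod.val_zero, pow_zero]

theorem zpw_neg {z : A} (hz : z ^ n = 1) (x : ZMod n) : zpw z (-x) = (zpw z x)⁻¹ := by
  have h := zpw_add hz (-x) x
  rw [neg_add_cancel, zpw_zero] at h
  exact eq_inv_of_mul_eq_one_left h.symm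

theorem zpw_sub {z : A} (hz : z ^ n = 1) (x y : ZMod n) :
    zpw z (x - y) = zpw z x / zpw z y := by
  rw [sub_eq_add_neg, zpw_add hz, zpw_neg hz, div_eq_mul_inv]

theorem zpw_mul {z : A} (hz : z ^ n = 1) (x y : ZMod n) :
    zpw z (x * y) = z ^ (x.val * y.val) := by
  unfold zpw
  rw [ZMod.val_mul]
  conv_rhs => rw [← Nat.mod_add_div (x.val * y.val) n, pow_add, pow_mul, hz, one_pow, mul_one]

theorem comm_aux (a b c X Y Z : A) :
    a * b / c * (X / Y * Z) = b * X / (c * Y) * (a * Z) := by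
  simp only [div_eq_mul_inv, mul_inv]
  ac_rfl

/-- The carry cocycle of `β ^ n` is the coboundary of an explicit cochain as soon as the cup of
the Kummer character `κ` of `β ^ n` with `χ` is the (additive) coboundary of `c`. -/
theorem carry_eq_dOne_of_cup {χ κ : G → ZMod n} (hχ : ∀ σ τ, χ (σ * τ) = χ σ + χ τ)
    (hκadd : ∀ σ τ, κ (σ * τ) = κ σ + κ τ)
    {z β : A} (hz : z ^ n = 1) (hzfix : ∀ σ : G, σ • z = z)
    (hκ : ∀ σ : G, σ • β = z ^ (κ σ).val * β)
    {c : G → ZMod n} (hcup : ∀ σ τ, κ σ * χ τ = c σ + c τ - c (σ * τ)) (σ τ : G) :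
    carry χ (β ^ n) (σ, τ) =
      dOne (fun g => zpw z (-c g - κ g * χ g) * kummerAux χ β g) (σ, τ) := by
  have hb : ∀ σ : G, σ • β ^ n = β ^ n := by
    intro σ
    rw [smul_pow', hκ, mul_pow, ← pow_mul, mul_comm _ n, pow_mul, hz, one_pow, one_mul]
  have h1 := kummerCup_eq hχ hb σ τ
  have h2 : kummerCup χ β (σ, τ) = zpw z (κ τ * χ σ) := by
    rw [kummerCup_apply, hκ τ, mul_div_cancel_right, smul_pow', hzfix, ← pow_mul, zpw_mul hz]
  have h3 : κ τ * χ σ = (-c σ - κ σ * χ σ) + (-c τ - κ τ * χ τ)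
      - (-c (σ * τ) - κ (σ * τ) * χ (σ * τ)) := by
    rw [hκadd, hχ]
    linear_combination (-1 : ZMod n) * hcup σ τ
  have h4 : carry χ (β ^ n) (σ, τ) = kummerCup χ β (σ, τ) * dOne (kummerAux χ β) (σ, τ) := by
    rw [h1, div_mul_cancel]
  have hzs : ∀ (σ : G) (x : ZMod n), σ • zpw z x = zpw z x := by
    intro σ x
    unfold zpw
    rw [smul_pow', hzfix]
  rw [h4, h2, h3, zpw_sub hz, zpw_add hz, dOne_apply, dOne_apply]
  rw [smul_mul', hzs]
  exact comm_aux _ _ _ _ _ _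

end Abstract

section Concrete

variable {p : ℕ} [hp : Fact p.Prime]

/-- **Cup to carry.**  On `D(A) ⊓ Fix K`: if the `ZMod p`-valued cup `κ ∪ χ` of the Kummer
character of `b = β ^ p` with `χ` is the coboundary of a level-constant cochain, then the carry
cocycle of `b` is the coboundary of a level-constant `Qbˣ`-valued cochain (the hypothesis of
`LN.exists_norm_approx_div'`). -/
theorem carry_cob_of_cup (K L : IntermediateField ℚ Qb) [FiniteDimensional ℚ L]
    (χ : ↥K.fixingSubgroup → ZMod p) (hadd : ∀ g h, χ (g * h) = χ g + χ h)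
    (hker : ∀ g, χ g = 0 ↔ (g : Gq) ∈ L.fixingSubgroup)
    (z : Qb) (hz : IsPrimitiveRoot z p) (hzK : z ∈ K)
    (b : Qb) (hb : b ≠ 0) (β : Qb) (hβ : β ^ p = b)
    (κ : Gq → ZMod p) (hκ : ∀ g ∈ K.fixingSubgroup, g β = z ^ (κ g).val * β)
    (A : ValuationSubring Qb)
    (c : ↥(A.decompositionSubgroup ℚ ⊓ K.fixingSubgroup) → ZMod p)
    (hc : IsLevelConstant₁ (Subgroup.subtype (A.decompositionSubgroup ℚ ⊓ K.fixingSubgroup)) c)
    (hcup : ∀ g h : ↥(A.decompositionSubgroup ℚ ⊓ K.fixingSubgroup),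
      κ (g : Gq) * χ ⟨h, h.2.2⟩ = c g + c h - c (g * h)) :
    ∃ u : ↥(A.decompositionSubgroup ℚ ⊓ K.fixingSubgroup) → Qbˣ,
      IsLevelConstant₁ (Subgroup.subtype (A.decompositionSubgroup ℚ ⊓ K.fixingSubgroup)) u ∧
      ∀ g h : ↥(A.decompositionSubgroup ℚ ⊓ K.fixingSubgroup),
        carry χ (Units.mk0 b hb) (⟨g, g.2.2⟩, ⟨h, h.2.2⟩) =
          (g : Gq) • u h / u (g * h) * u g := by
  classical
  have hp0 : p ≠ 0 := hp.out.ne_zero
  have hz0 : z ≠ 0 := hz.ne_zero hp0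
  have hβ0 : β ≠ 0 := by
    rintro rfl
    rw [zero_pow hp0] at hβ
    exact hb hβ.symm
  have hfixK : ∀ g : Gq, g ∈ K.fixingSubgroup → ∀ x ∈ K, g x = x := fun g hg x hx => hg ⟨x, hx⟩
  -- the restricted characters
  let χ' : ↥(A.decompositionSubgroup ℚ ⊓ K.fixingSubgroup) → ZMod p := fun g => χ ⟨g, g.2.2⟩
  let κ' : ↥(A.decompositionSubgroup ℚ ⊓ K.fixingSubgroup) → ZMod p := fun g => κ (g : Gq)
  have hχ' : ∀ σ τ : ↥(A.decompositionSubgroup ℚ ⊓ K.fixingSubgroup),
      χ' (σ * τ) = χ' σ + χ' τ := fun σ τ => hadd ⟨σ, σ.2.2⟩ ⟨τ, τ.2.2⟩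
  have hval0 : ∀ m : ℕ, m < p → z ^ m = 1 → m = 0 := by
    intro m hm h
    have := (hz.pow_eq_one_iff_dvd m).mp h
    exact Nat.eq_zero_of_dvd_of_lt this hm
  have hκadd : ∀ g h : Gq, g ∈ K.fixingSubgroup → h ∈ K.fixingSubgroup →
      κ (g * h) = κ g + κ h := by
    intro g h hg hh
    have h1 : (g * h) β = z ^ (κ (g * h)).val * β := hκ _ (mul_mem hg hh)
    have h2 : (g * h) β = z ^ ((κ g).val + (κ h).val) * β := by
      rw [AlgEquiv.mul_apply, hκ h hh, map_mul, map_pow, hfixK g hg z hzK, hκ g hg, pow_add]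
      ring
    have h3 : z ^ (κ (g * h)).val = z ^ ((κ g).val + (κ h).val) :=
      mul_right_cancel₀ hβ0 (h1.symm.trans h2)
    have h4 : z ^ (κ (g * h)).val = z ^ (κ g + κ h).val := by
      rw [h3, val_add_val_eq, pow_add, pow_mul, hz.pow_eq_one, one_pow, mul_one]
    have h5 := hz.pow_inj (ZMod.val_lt _) (ZMod.val_lt _) h4
    exact ZMod.val_injective p h5
  have hκ'add : ∀ σ τ : ↥(A.decompositionSubgroup ℚ ⊓ K.fixingSubgroup),
      κ' (σ * τ) = κ' σ + κ' τ := fun σ τ => hκadd _ _ σ.2.2 τ.2.2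
  -- units
  let z' : Qbˣ := Units.mk0 z hz0
  let β' : Qbˣ := Units.mk0 β hβ0
  have hz'p : z' ^ p = 1 := by
    apply Units.ext
    simp only [Units.val_pow_eq_pow_val, Units.val_one, z', Units.val_mk0]
    exact hz.pow_eq_one
  have hz'fix : ∀ σ : ↥(A.decompositionSubgroup ℚ ⊓ K.fixingSubgroup), σ • z' = z' := by
    intro σ
    apply Units.ext
    exact hfixK _ σ.2.2 z hzK
  have hκ' : ∀ σ : ↥(A.decompositionSubgroup ℚ ⊓ K.fixingSubgroup),
      σ • β' = z' ^ (κ' σ).val * β' := by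
    intro σ
    apply Units.ext
    simp only [Units.val_mul, Units.val_pow_eq_pow_val, z', β', Units.val_mk0]
    exact hκ _ σ.2.2
  have hβ'p : β' ^ p = Units.mk0 b hb := by
    apply Units.ext
    simp only [Units.val_pow_eq_pow_val, β', Units.val_mk0]
    exact hβ
  refine ⟨fun g => zpw z' (-c g - κ' g * χ' g) * kummerAux χ' β' g, ?_, ?_⟩
  · -- level-constancy
    obtain ⟨Fc, hFc, hcF⟩ := hc
    have hβint : IsIntegral ℚ β := Algebra.IsIntegral.isIntegral β
    have hfdβ : FiniteDimensional ℚ ↥(IntermediateField.adjoin ℚ {β}) :=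
      IntermediateField.adjoin.finiteDimensional hβint
    refine ⟨Fc ⊔ L ⊔ IntermediateField.adjoin ℚ {β}, inferInstance, ?_⟩
    intro g s hs
    have hsFc : ((s : ↥(A.decompositionSubgroup ℚ ⊓ K.fixingSubgroup)) : Gq) ∈
        Fc.fixingSubgroup :=
      IntermediateField.fixingSubgroup_antitone (le_sup_left.trans le_sup_left) hs
    have hsL : ((s : ↥(A.decompositionSubgroup ℚ ⊓ K.fixingSubgroup)) : Gq) ∈
        L.fixingSubgroup :=
      IntermediateField.fixingSubgroup_antitone (le_sup_right.trans le_sup_left) hs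
    have hsβ : ((s : ↥(A.decompositionSubgroup ℚ ⊓ K.fixingSubgroup)) : Gq) β = β :=
      (IntermediateField.fixingSubgroup_antitone le_sup_right hs)
        ⟨β, IntermediateField.mem_adjoin_simple_self ℚ β⟩
    have e1 : c (g * s) = c g := hcF g s hsFc
    have e2 : χ' s = 0 := (hker ⟨s, s.2.2⟩).mpr hsL
    have e3 : κ' s = 0 := by
      have h1 : ((s : ↥(A.decompositionSubgroup ℚ ⊓ K.fixingSubgroup)) : Gq) β
          = z ^ (κ' s).val * β := hκ _ s.2.2
      rw [hsβ] at h1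
      have h2 : z ^ (κ' s).val = 1 := by
        have : z ^ (κ' s).val * β = 1 * β := by rw [one_mul]; exact h1.symm
        exact mul_right_cancel₀ hβ0 this
      have h3 := hval0 _ (ZMod.val_lt _) h2
      exact (ZMod.val_eq_zero _).mp h3
    have e4 : (g * s) • β' = g • β' := by
      rw [mul_smul]
      congr 1
      apply Units.ext
      exact hsβ
    show zpw z' (-c (g * s) - κ' (g * s) * χ' (g * s)) * kummerAux χ' β' (g * s)
      = zpw z' (-c g - κ' g * χ' g) * kummerAux χ' β' g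
    rw [kummerAux_apply, kummerAux_apply, e4, hχ', hκ'add, e1, e2, e3, add_zero, add_zero]
  · intro g h
    have key := carry_eq_dOne_of_cup hχ' hκ'add hz'p hz'fix hκ' hcup g h
    rw [hβ'p] at key
    exact key

/-- **Cup identity implies approximate local norm** (composition with (CA)). -/
theorem approx_of_cup {q : ℕ} (hq : q.Prime) (A : ValuationSubring Qb) (hA : A.LiesOverPrime q)
    (K L : IntermediateField ℚ Qb) [FiniteDimensional ℚ L] (hKL : K ≤ L)
    (χ : ↥K.fixingSubgroup → ZMod p) (hadd : ∀ g h, χ (g * h) = χ g + χ h)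
    (hker : ∀ g, χ g = 0 ↔ (g : Gq) ∈ L.fixingSubgroup) (s : ↥K.fixingSubgroup) (hs : χ s = 1)
    (z : Qb) (hz : IsPrimitiveRoot z p) (hzK : z ∈ K)
    (b : Qb) (hbK : b ∈ K) (hb : b ≠ 0) (β : Qb) (hβ : β ^ p = b)
    (κ : Gq → ZMod p) (hκ : ∀ g ∈ K.fixingSubgroup, g β = z ^ (κ g).val * β)
    (c : ↥(A.decompositionSubgroup ℚ ⊓ K.fixingSubgroup) → ZMod p)
    (hc : IsLevelConstant₁ (Subgroup.subtype (A.decompositionSubgroup ℚ ⊓ K.fixingSubgroup)) c)
    (hcup : ∀ g h : ↥(A.decompositionSubgroup ℚ ⊓ K.fixingSubgroup),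
      κ (g : Gq) * χ ⟨h, h.2.2⟩ = c g + c h - c (g * h)) (N : ℕ) :
    ∃ y ∈ L, y ≠ 0 ∧ (b - ∏ k ∈ Finset.range p, ((s : Gq) ^ k) y) / (q : Qb) ^ N ∈ A :=
  Fermat.Agent.CFT.Global.HP.LN.exists_norm_approx_div' hq hA K L hKL χ hadd hker s hs b hbK hb
    (carry_cob_of_cup K L χ hadd hker z hz hzK b hb β hβ κ hκ A c hc hcup) N

/-- The combination of the descent cocycle `(y, u)` of (BrS) with a local primitive `t` of `y`
on `D(A) ⊓ Fix K` (Shapiro) is a cup identity. -/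
theorem cup_of_brS (K : IntermediateField ℚ Qb) (χ : ↥K.fixingSubgroup → ZMod p)
    (κ : Gq → ZMod p) (A : ValuationSubring Qb)
    (y : Gq × Gq → ZMod p) (u : Gq → ZMod p)
    (hu : ∃ F : IntermediateField ℚ Qb, FiniteDimensional ℚ F ∧
      ∀ g s : Gq, s ∈ F.fixingSubgroup → u (g * s) = u g)
    (hy : ∀ g : Gq, g ∈ K.fixingSubgroup → ∀ h : Gq, ∀ hh : h ∈ K.fixingSubgroup,
      y (g, h) = κ g * χ ⟨h, hh⟩ + (u g + u h - u (g * h)))
    (t : ↥(A.decompositionSubgroup ℚ ⊓ K.fixingSubgroup) → ZMod p)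
    (ht : IsLevelConstant₁ (Subgroup.subtype (A.decompositionSubgroup ℚ ⊓ K.fixingSubgroup)) t)
    (hyt : ∀ g h : ↥(A.decompositionSubgroup ℚ ⊓ K.fixingSubgroup),
      y ((g : Gq), (h : Gq)) = t h - t (g * h) + t g) :
    ∃ c : ↥(A.decompositionSubgroup ℚ ⊓ K.fixingSubgroup) → ZMod p,
      IsLevelConstant₁ (Subgroup.subtype (A.decompositionSubgroup ℚ ⊓ K.fixingSubgroup)) c ∧
      ∀ g h : ↥(A.decompositionSubgroup ℚ ⊓ K.fixingSubgroup),
        κ (g : Gq) * χ ⟨h, h.2.2⟩ = c g + c h - c (g * h) := by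
  obtain ⟨Fu, hFu, huF⟩ := hu
  obtain ⟨Ft, hFt, htF⟩ := ht
  refine ⟨fun g => t g - u (g : Gq), ⟨Fu ⊔ Ft, inferInstance, ?_⟩, ?_⟩
  · intro g s hs
    have h1 : t (g * s) = t g :=
      htF g s (IntermediateField.fixingSubgroup_antitone le_sup_right hs)
    have h2 : u ((g : Gq) * (s : Gq)) = u (g : Gq) :=
      huF _ _ (IntermediateField.fixingSubgroup_antitone le_sup_left hs)
    show t (g * s) - u ((g : Gq) * (s : Gq)) = t g - u (g : Gq)
    rw [h1, h2]
  · intro g h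
    have h1 := hy (g : Gq) g.2.2 (h : Gq) h.2.2
    have h2 := hyt g h
    show κ (g : Gq) * χ ⟨h, h.2.2⟩ = (t g - u (g : Gq)) + (t h - u (h : Gq))
      - (t (g * h) - u ((g : Gq) * (h : Gq)))
    linear_combination h2 - h1

end Concrete

section Main

universe u

open Fermat.Agent.CFT.Global

/-- **(BE), `K`-side count in cup form.**  As `BEK.be_K`, with `μ_p ⊆ K`, and with the hypothesis
on the kernel of `Ψ` in the shape produced by (BrS) + Shapiro: for `b` in the kernel, at every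
valuation subring `A` over a prime of `S`, the cup of the Kummer character of `b` with `χ` is, on
`D(A) ⊓ Fix K`, the coboundary of a level-constant `ZMod p`-valued cochain. -/
theorem be_K_cup {p : ℕ} [hp : Fact p.Prime] (S : Finset Nat.Primes)
    (K M : IntermediateField ℚ Qb) [NumberField ↥K] (hKM : K ≤ M)
    (hMS : M.IsUnramifiedOutside S)
    (χ : ↥K.fixingSubgroup → ZMod p) (hadd : ∀ g h, χ (g * h) = χ g + χ h)
    (hker : ∀ g, χ g = 0 ↔ (g : Gq) ∈ M.fixingSubgroup) (s : ↥K.fixingSubgroup) (hs : χ s = 1)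
    (hns : ∀ q ∈ S, ∀ A : ValuationSubring Qb, A.LiesOverPrime ((q : Nat.Primes) : ℕ) →
      ∃ σ : ↥K.fixingSubgroup, (σ : Gq) ∈ A.decompositionSubgroup ℚ ∧ χ σ ≠ 0)
    (z : Qb) (hz : IsPrimitiveRoot z p) (hzK : z ∈ K) :
    ∃ B : Subgroup (↥K)ˣ,
      (∀ b ∈ B, ∀ q : Nat.Primes, q ∉ S → ∀ A : ValuationSubring Qb,
        A.LiesOverPrime (q : ℕ) →
        (∃ x : ↥K, A.valuation ((((b : (↥K)ˣ) : ↥K) : Qb) * (x : Qb) ^ p) = 1) ∨
        (∀ σ : ↥K.fixingSubgroup, (σ : Gq) ∈ A.decompositionSubgroup ℚ → χ σ = 0)) ∧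
      (∀ (W : Type u) [AddCommGroup W] [Finite W] (Ψ : ↥B → W),
        (∀ b b' : ↥B, Ψ (b * b') = Ψ b + Ψ b') →
        (∀ b : ↥B, Ψ b = 0 → ∀ q ∈ S, ∀ A : ValuationSubring Qb,
          A.LiesOverPrime ((q : Nat.Primes) : ℕ) →
          ∃ (β : Qb) (κ : Gq → ZMod p)
            (c : ↥(A.decompositionSubgroup ℚ ⊓ K.fixingSubgroup) → ZMod p),
            β ^ p = ((((b : (↥K)ˣ) : ↥K)) : Qb) ∧
            (∀ g ∈ K.fixingSubgroup, g β = z ^ (κ g).val * β) ∧
            IsLevelConstant₁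
              (Subgroup.subtype (A.decompositionSubgroup ℚ ⊓ K.fixingSubgroup)) c ∧
            ∀ g h : ↥(A.decompositionSubgroup ℚ ⊓ K.fixingSubgroup),
              κ (g : Gq) * χ ⟨h, h.2.2⟩ = c g + c h - c (g * h)) →
        p ^ (CountV.SK S K).card ≤ p * Nat.card W) := by
  obtain ⟨B, h1, h2⟩ := BEK.be_K.{u} S K M hKM hMS χ hadd hker s hs hns
  refine ⟨B, h1, fun W _ _ Ψ hmul hΨ => h2 W Ψ hmul ?_⟩
  intro b hb0 q hqS A hA N
  obtain ⟨β, κ, c, hβ, hκ, hc, hcup⟩ := hΨ b hb0 q hqS A hA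
  have hfd : FiniteDimensional ℚ ↥M := hMS.1
  have hbne : ((((b : (↥K)ˣ) : ↥K)) : Qb) ≠ 0 := by
    intro h
    have : (((b : (↥K)ˣ) : ↥K)) = 0 := by exact_mod_cast h
    exact Units.ne_zero _ this
  exact approx_of_cup q.2 A hA K M hKM χ hadd hker s hs z hz hzK _
    (SetLike.coe_mem _) hbne β hβ κ hκ c hc hcup N

end Main

end Fermat.Agent.CFT.Count.BECup
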