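import Fermat.Agent.CFT.Global.HasseNorm.Final

/-!
# Route COUNT, brick (BE)(i): the `T`-unit hyperplane

`M/K` a Galois extension of number fields of prime degree `p`, `T` a finite set of primes of `K`
with `Cl_T(K) = Cl_T(M) = 0` containing the ramified primes, `S₀ ⊆ T` a set of non-split primes.
Let `B` be the group of `T`-units of `K` which are approximate local norms at every place of
`T \ S₀`.  Then the subgroup of `B` of elements which are approximate local norms at all places of
`S₀` has index at least `p ^ (|S₀| - 1)` in `B`: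

  `p ^ |S₀| ≤ p * [B : C]` for every `C ≤ B ∩ AN_{S₀}` of finite index in `B`.

This is pure bookkeeping on top of the bricks of the Hasse norm theorem:
the second inequality in `T`-unit form (`index_unit_sup_approxNormOn_le`), weak approximation
(`exists_approx`), and the local first inequality (`LocalFirstIneq`).
-/

set_option autoImplicit false

open scoped NumberField WithZero
open IsDedekindDomain

namespace Fermat.Agent.CFT.Count.BEHyperplane

open Fermat.Agent.CFT.Global.HasseNorm

/-- Index bookkeeping in a commutative group: if `U ⊔ (A' ⊓ A₀)` has index at most `p`, then the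
index of `A' ⊓ A₀` in `A'` is at most `p` times the index in `U ⊓ A'` of any subgroup of
`U ⊓ A' ⊓ A₀`. -/
theorem relIndex_le_mul_relIndex {G : Type*} [CommGroup G] (U A' A₀ C : Subgroup G) (p : ℕ)
    (h0 : (U ⊔ A' ⊓ A₀).index ≠ 0) (hp : (U ⊔ A' ⊓ A₀).index ≤ p)
    (hC : C ≤ U ⊓ A' ⊓ A₀) (hfin : C.relIndex (U ⊓ A') ≠ 0) :
    (A' ⊓ A₀).relIndex A' ≠ 0 ∧ (A' ⊓ A₀).relIndex A' ≤ p * C.relIndex (U ⊓ A') := by
  set A : Subgroup G := A' ⊓ A₀ with hA
  set B : Subgroup G := U ⊓ A' with hB
  -- the intermediate group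
  have hmod : (U ⊔ A) ⊓ A' = B ⊔ A := by
    have h1 : (A ⊔ U) ⊓ A' = A ⊔ U ⊓ A' := sup_inf_assoc_of_le U (inf_le_left : A ≤ A')
    rw [sup_comm U A, h1, sup_comm]
  have e1 : A.relIndex ((U ⊔ A) ⊓ A') * ((U ⊔ A) ⊓ A').relIndex A' = A.relIndex A' :=
    Subgroup.relIndex_mul_relIndex A ((U ⊔ A) ⊓ A') A' (le_inf le_sup_right inf_le_left)
      inf_le_right
  have e2 : ((U ⊔ A) ⊓ A').relIndex A' = (U ⊔ A).relIndex A' := Subgroup.inf_relIndex_right _ _
  have e3 : A.relIndex ((U ⊔ A) ⊓ A') = A.relIndex B := by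
    rw [hmod]; exact Subgroup.relIndex_sup_right B A
  have e4 : (U ⊔ A).relIndex A' ∣ (U ⊔ A).index := Subgroup.relIndex_dvd_index_of_normal _ _
  have hCA : C ≤ A ⊓ B := by
    refine le_inf (le_inf ?_ ?_) (le_inf ?_ ?_)
    · exact hC.trans (inf_le_left.trans inf_le_right)
    · exact hC.trans inf_le_right
    · exact hC.trans (inf_le_left.trans inf_le_left)
    · exact hC.trans (inf_le_left.trans inf_le_right)
  have e5 : C.relIndex (A ⊓ B) * (A ⊓ B).relIndex B = C.relIndex B :=
    Subgroup.relIndex_mul_relIndex C (A ⊓ B) B hCA inf_le_right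
  have e6 : (A ⊓ B).relIndex B = A.relIndex B := Subgroup.inf_relIndex_right _ _
  have hAB0 : A.relIndex B ≠ 0 := by
    intro h
    apply hfin
    rw [← e5, e6, h, mul_zero]
  have hABle : A.relIndex B ≤ C.relIndex B := by
    rw [← e5, e6]
    exact Nat.le_mul_of_pos_left _ (Nat.pos_of_ne_zero (fun h => hfin (by rw [← e5, h, zero_mul])))
  have hX0 : (U ⊔ A).relIndex A' ≠ 0 := fun h => h0 (by
    rw [h, zero_dvd_iff] at e4; exact e4)
  have hXle : (U ⊔ A).relIndex A' ≤ p :=
    (Nat.le_of_dvd (Nat.pos_of_ne_zero h0) e4).trans hp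
  rw [← e1, e2, e3]
  refine ⟨mul_ne_zero hAB0 hX0, ?_⟩
  calc A.relIndex B * (U ⊔ A).relIndex A' ≤ C.relIndex B * p := Nat.mul_le_mul hABle hXle
    _ = p * C.relIndex B := mul_comm _ _

/-- The kernel of a homomorphism out of a subgroup `B`, viewed as a subgroup of the ambient
group, has relative index in `B` equal to the order of the image. -/
theorem relIndex_map_ker {G W : Type*} [Group G] [Group W] (B : Subgroup G) (Ψ : ↥B →* W) :
    (Ψ.ker.map B.subtype).relIndex B = Nat.card Ψ.range := by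
  rw [← Subgroup.index_ker Ψ, Subgroup.relIndex]
  congr 1
  ext b
  simp only [Subgroup.mem_subgroupOf, Subgroup.mem_map, Subgroup.coe_subtype, MonoidHom.mem_ker]
  constructor
  · rintro ⟨b', hb', hbb'⟩
    have : b' = b := Subtype.ext hbb'
    rw [← this]; exact hb'
  · intro hb
    exact ⟨b, hb, rfl⟩

universe u v

variable (K : Type u) (L : Type v) [Field K] [NumberField K] [Field L] [NumberField L]
  [Algebra K L]

/-- The approximate norms on a union. -/
theorem approxNormOn_union (S₁ S₂ : Set (HeightOneSpectrum (𝓞 K))) :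
    approxNormOn K L (S₁ ∪ S₂) = approxNormOn K L S₁ ⊓ approxNormOn K L S₂ := by
  ext x
  simp only [Subgroup.mem_inf, mem_approxNormOn, Set.mem_union]
  constructor
  · intro h
    exact ⟨fun v hv => h v (Or.inl hv), fun v hv => h v (Or.inr hv)⟩
  · rintro ⟨h1, h2⟩ v (hv | hv)
    · exact h1 v hv
    · exact h2 v hv

/-- Weak approximation in subgroup form for two disjoint finite sets of places. -/
theorem approxNormOn_sup_eq_top {p : ℕ} (hp : p.Prime) (hdeg : Module.finrank K L = p)
    (S₁ S₂ : Finset (HeightOneSpectrum (𝓞 K))) (hdisj : Disjoint S₁ S₂) :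
    approxNormOn K L (S₁ : Set (HeightOneSpectrum (𝓞 K))) ⊔
      approxNormOn K L (S₂ : Set (HeightOneSpectrum (𝓞 K))) = ⊤ := by
  classical
  rw [eq_top_iff]
  intro x _
  obtain ⟨n, hn⟩ := exists_exp_lt_valuation_sq K p hp.ne_zero (S₁ ∪ S₂)
  obtain ⟨a, ha0, ha⟩ := exists_approx K (S₁ ∪ S₂) (fun w => if w ∈ S₂ then (x : K) else 1)
    (fun w _ => by split_ifs <;> simp) n
  -- `a / x` is an approximate norm on `S₂`, `a` on `S₁`
  have h2 : ∀ w ∈ S₂, ApproxNorm K L w (a / (x : K)) := by
    intro w hw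
    apply approxNorm_of_close_one L w p hp hdeg
    have := ha w (Finset.mem_union_right _ hw)
    simp only [if_pos hw] at this
    exact lt_of_le_of_lt this (hn w (Finset.mem_union_right _ hw))
  have h1 : ∀ w ∈ S₁, ApproxNorm K L w a := by
    intro w hw
    have hw2 : w ∉ S₂ := fun h => (Finset.disjoint_left.mp hdisj hw) h
    apply approxNorm_of_close_one L w p hp hdeg
    have := ha w (Finset.mem_union_left _ hw)
    simp only [if_neg hw2, div_one] at this
    exact lt_of_le_of_lt this (hn w (Finset.mem_union_left _ hw))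
  let au : Kˣ := Units.mk0 a ha0
  have m1 : au ∈ approxNormOn K L (S₁ : Set (HeightOneSpectrum (𝓞 K))) := by
    rw [mem_approxNormOn]
    intro w hw
    exact h1 w (Finset.mem_coe.mp hw)
  have m2 : x * au⁻¹ ∈ approxNormOn K L (S₂ : Set (HeightOneSpectrum (𝓞 K))) := by
    have : (x * au⁻¹)⁻¹ ∈ approxNormOn K L (S₂ : Set (HeightOneSpectrum (𝓞 K))) := by
      rw [mem_approxNormOn]
      intro w hw
      have e : (((x * au⁻¹)⁻¹ : Kˣ) : K) = a / (x : K) := by
        simp [au, div_eq_mul_inv, mul_comm]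
      rw [e]
      exact h2 w (Finset.mem_coe.mp hw)
    simpa using Subgroup.inv_mem _ this
  have : x = au * (x * au⁻¹) := by
    rw [mul_comm x, ← mul_assoc, mul_inv_cancel, one_mul]
  rw [this]
  exact Subgroup.mul_mem_sup m1 m2

/-- **(BE)(i), the `T`-unit hyperplane.**  `L/K` Galois of prime degree `p`, `T = S₁ ⊔ S₀` a
finite set of primes of `K` with `Cl_T(K) = Cl_T(L) = 0` outside of which `L/K` is unramified,
all primes of `S₀` non-split, `B` the group of `T`-units which are approximate norms at every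
place of `S₁`.  Every subgroup `C` of `B` of finite index consisting of approximate norms at all
places of `S₀` satisfies `p ^ |S₀| ≤ p * [B : C]`. -/
theorem pow_card_le_mul_relIndex [IsGalois K L] {p : ℕ} (hp : p.Prime)
    (hdeg : Module.finrank K L = p) (T : Finset (HeightOneSpectrum (𝓞 K)))
    (hTK : PrincipalOutside K (T : Set (HeightOneSpectrum (𝓞 K))))
    (hTL : PrincipalOutside L (above K L (T : Set (HeightOneSpectrum (𝓞 K)))))
    (hR : ValCompatOutside K L (T : Set (HeightOneSpectrum (𝓞 K))))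
    (S₁ S₀ : Finset (HeightOneSpectrum (𝓞 K))) (hdisj : Disjoint S₁ S₀)
    (hT : (T : Set (HeightOneSpectrum (𝓞 K))) = (S₁ : Set (HeightOneSpectrum (𝓞 K))) ∪ S₀)
    (hns : ∀ v ∈ S₀, Nonsplit K L v) (C : Subgroup Kˣ)
    (hC : C ≤ (T : Set (HeightOneSpectrum (𝓞 K))).unit K ⊓
        approxNormOn K L (S₁ : Set (HeightOneSpectrum (𝓞 K))) ⊓
        approxNormOn K L (S₀ : Set (HeightOneSpectrum (𝓞 K))))
    (hfin : C.relIndex ((T : Set (HeightOneSpectrum (𝓞 K))).unit K ⊓
        approxNormOn K L (S₁ : Set (HeightOneSpectrum (𝓞 K)))) ≠ 0) :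
    p ^ S₀.card ≤ p * C.relIndex ((T : Set (HeightOneSpectrum (𝓞 K))).unit K ⊓
        approxNormOn K L (S₁ : Set (HeightOneSpectrum (𝓞 K)))) := by
  set U : Subgroup Kˣ := (T : Set (HeightOneSpectrum (𝓞 K))).unit K with hU
  set A' : Subgroup Kˣ := approxNormOn K L (S₁ : Set (HeightOneSpectrum (𝓞 K))) with hA'
  set A₀ : Subgroup Kˣ := approxNormOn K L (S₀ : Set (HeightOneSpectrum (𝓞 K))) with hA₀
  have hAT : approxNormOn K L (T : Set (HeightOneSpectrum (𝓞 K))) = A' ⊓ A₀ := by
    rw [hA', hA₀, ← approxNormOn_union, hT]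
  obtain ⟨h0, hle⟩ := index_unit_sup_approxNormOn_le K L hp hdeg (normIndexIneq_holds K L) T
    hTK hTL hR
  rw [hAT] at h0 hle
  obtain ⟨hr0, hrle⟩ := relIndex_le_mul_relIndex U A' A₀ C p h0 hle hC hfin
  -- `[A' : A' ⊓ A₀] = [Kˣ : A₀]`
  have hsup : A₀ ⊔ A' = ⊤ := by
    rw [hA', hA₀]
    exact approxNormOn_sup_eq_top K L hp hdeg S₀ S₁ hdisj.symm
  have hidx : (A' ⊓ A₀).relIndex A' = A₀.index := by
    rw [inf_comm, Subgroup.inf_relIndex_right, ← Subgroup.relIndex_sup_left A' A₀, hsup,
      Subgroup.relIndex_top_right]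
  rw [hidx] at hr0 hrle
  -- the local first inequality at the places of `S₀`
  have hcard : Nat.card (L ≃ₐ[K] L) = p := by
    rw [IsGalois.card_aut_eq_finrank, hdeg]
  have hcyc : IsCyclic (L ≃ₐ[K] L) := by
    have : Fact p.Prime := ⟨hp⟩
    exact isCyclic_of_prime_card hcard
  have hKL : 1 < Module.finrank K L := hdeg ▸ hp.one_lt
  have hloc : ∀ v ∈ S₀, ∃ b : K, b ≠ 0 ∧ ¬ ApproxNorm K L v b := fun v hv =>
    Fermat.Agent.CFT.Global.LocalFirstIneq.exists_ne_zero_not_approxNorm hKL v (hns v hv)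
  have hlow : p ^ S₀.card ≤ A₀.index :=
    pow_card_le_index_approxNormOn K L hp hdeg S₀ S₀ (Finset.Subset.refl _) hloc hr0
  exact hlow.trans hrle

/-- **(BE)(i), consumer form.**  With the notation of `pow_card_le_mul_relIndex`: a homomorphism
`Ψ` from `B` (the `T`-units which are approximate norms on `S₁`) to a finite group `W` whose kernel
consists of approximate norms at all places of `S₀` has `p ^ |S₀| ≤ p * |W|`.  (Apply it to
`Ψ b = (class of χ_w ∪ κ_w(b))_{w ∈ S₀}`: the image of the localisation map has codimension at most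
one.) -/
theorem pow_card_le_mul_card [IsGalois K L] {p : ℕ} (hp : p.Prime)
    (hdeg : Module.finrank K L = p) (T : Finset (HeightOneSpectrum (𝓞 K)))
    (hTK : PrincipalOutside K (T : Set (HeightOneSpectrum (𝓞 K))))
    (hTL : PrincipalOutside L (above K L (T : Set (HeightOneSpectrum (𝓞 K)))))
    (hR : ValCompatOutside K L (T : Set (HeightOneSpectrum (𝓞 K))))
    (S₁ S₀ : Finset (HeightOneSpectrum (𝓞 K))) (hdisj : Disjoint S₁ S₀)
    (hT : (T : Set (HeightOneSpectrum (𝓞 K))) = (S₁ : Set (HeightOneSpectrum (𝓞 K))) ∪ S₀)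
    (hns : ∀ v ∈ S₀, Nonsplit K L v) {W : Type*} [Group W] [Finite W]
    (Ψ : ↥((T : Set (HeightOneSpectrum (𝓞 K))).unit K ⊓
        approxNormOn K L (S₁ : Set (HeightOneSpectrum (𝓞 K)))) →* W)
    (hΨ : ∀ b, Ψ b = 1 → ∀ v ∈ S₀, ApproxNorm K L v ((b : Kˣ) : K)) :
    p ^ S₀.card ≤ p * Nat.card W := by
  have hC : Ψ.ker.map (Subgroup.subtype _) ≤ (T : Set (HeightOneSpectrum (𝓞 K))).unit K ⊓
      approxNormOn K L (S₁ : Set (HeightOneSpectrum (𝓞 K))) ⊓
      approxNormOn K L (S₀ : Set (HeightOneSpectrum (𝓞 K))) := by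
    refine le_inf ?_ ?_
    · rintro _ ⟨b, -, rfl⟩
      exact b.2
    · rintro _ ⟨b, hb, rfl⟩
      rw [mem_approxNormOn]
      intro v hv
      exact hΨ b (MonoidHom.mem_ker.mp hb) v (Finset.mem_coe.mp hv)
  have hrel := relIndex_map_ker _ Ψ
  have hle : Nat.card Ψ.range ≤ Nat.card W := Nat.card_le_card_of_injective _
    (Subgroup.subtype_injective _)
  have hpos : Nat.card Ψ.range ≠ 0 := Nat.card_pos.ne'
  have := pow_card_le_mul_relIndex K L hp hdeg T hTK hTL hR S₁ S₀ hdisj hT hns _ hC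
    (by rw [hrel]; exact hpos)
  rw [hrel] at this
  exact this.trans (Nat.mul_le_mul_left p hle)

/-- Inert-place dictionary: at a non-split unramified place of a Galois extension of degree `p`,
the valuation of an approximate norm is a `p`-th power in the value group. -/
theorem exists_valuation_eq_exp_mul [IsGalois K L] {p : ℕ}
    (hdeg : Module.finrank K L = p) (v : HeightOneSpectrum (𝓞 K)) (hv : Nonsplit K L v)
    (hun : UnramAt K L v) (b : K) (hb : ApproxNorm K L v b) :
    ∃ m : ℤ, v.valuation K b = WithZero.exp ((p : ℤ) * m) := by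
  obtain ⟨y, hy0, hy⟩ := hb 1
  have hN0 : Algebra.norm K y ≠ 0 := Algebra.norm_ne_zero_iff.mpr hy0
  have hlt : v.valuation K (b / Algebra.norm K y - 1) < 1 := by
    refine lt_of_le_of_lt hy ?_
    rw [← WithZero.exp_zero]
    exact WithZero.exp_lt_exp.mpr (by norm_num)
  have h1 : v.valuation K (b / Algebra.norm K y) = 1 := by
    have h2 := Valuation.map_one_add_of_lt (v.valuation K) hlt
    simpa using h2
  have hvN : v.valuation K b = v.valuation K (Algebra.norm K y) := by
    rw [map_div₀, div_eq_one_iff_eq ((Valuation.ne_zero_iff _).mpr hN0)] at h1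
    exact h1
  obtain ⟨w, hw⟩ := exists_under_eq K L v
  have hwN : w.valuation L (algebraMap K L (Algebra.norm K y)) = v.valuation K b := by
    rw [hun w hw, hvN]
  rw [valuation_norm K L w y] at hwN
  have hconst : ∀ τ : L ≃ₐ[K] L, (galSmul K L τ w).valuation L y = w.valuation L y := by
    intro τ
    have : galSmul K L τ w = w := hv _ _ ((under_galSmul K L τ w).trans hw) hw
    rw [this]
  rw [Finset.prod_congr rfl (fun τ _ => hconst τ), Finset.prod_const, Finset.card_univ,
    ← Nat.card_eq_fintype_card, IsGalois.card_aut_eq_finrank, hdeg] at hwN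
  have hwy : w.valuation L y ≠ 0 := (Valuation.ne_zero_iff _).mpr hy0
  refine ⟨WithZero.log (w.valuation L y), ?_⟩
  rw [← hwN]
  conv_lhs => rw [← WithZero.exp_log hwy]
  rw [← WithZero.exp_nsmul]
  simp

/-- A good set of places exists above any given finite set: `Cl_T(K) = Cl_T(L) = 0` and `L/K` is
unramified outside `T`. -/
theorem exists_good_finset (S : Finset (HeightOneSpectrum (𝓞 K))) :
    ∃ T : Finset (HeightOneSpectrum (𝓞 K)), S ⊆ T ∧
      PrincipalOutside K (T : Set (HeightOneSpectrum (𝓞 K))) ∧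
      PrincipalOutside L (above K L (T : Set (HeightOneSpectrum (𝓞 K)))) ∧
      ValCompatOutside K L (T : Set (HeightOneSpectrum (𝓞 K))) := by
  classical
  obtain ⟨T₁, hT₁⟩ := exists_finset_principalOutside K
  obtain ⟨T₂, hT₂⟩ := exists_finset_principalOutside L
  obtain ⟨T₃, hT₃⟩ := exists_finset_valCompatOutside K L
  refine ⟨T₁ ∪ T₂.image (fun w => w.under (𝓞 K)) ∪ T₃ ∪ S, Finset.subset_union_right, ?_, ?_, ?_⟩
  · apply hT₁
    intro v hv
    simp only [Finset.coe_union, Set.mem_union, Finset.mem_coe] at hv ⊢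
    exact Or.inl (Or.inl (Or.inl hv))
  · apply hT₂
    intro w hw
    show w.under (𝓞 K) ∈ ((T₁ ∪ T₂.image (fun w => w.under (𝓞 K)) ∪ T₃ ∪ S :
      Finset (HeightOneSpectrum (𝓞 K))) : Set (HeightOneSpectrum (𝓞 K)))
    simp only [Finset.coe_union, Set.mem_union, Finset.mem_coe]
    exact Or.inl (Or.inl (Or.inr (Finset.mem_image_of_mem _ hw)))
  · apply hT₃
    intro v hv
    simp only [Finset.coe_union, Set.mem_union, Finset.mem_coe] at hv ⊢
    exact Or.inl (Or.inr hv)

end Fermat.Agent.CFT.Count.BEHyperplane
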