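import Fermat.Agent.CFT.Count.BEHyperplane
import Fermat.Agent.CFT.Global.HP.NormQb
import Fermat.Agent.CFT.Global.HNT.LIBridge
import Fermat.Agent.CFT.Global.HNT.LIFacts
import Fermat.Agent.CFT.Global.CountV
import Fermat.Agent.Lib.DecompLift
import Fermat.Agent.CFT.Global.HP.Density

/-!
# (BE), K-side assembly in the language of valuation subrings of `Qb`

`K ≤ M` number fields inside `Qb`, `M/K` cyclic of prime degree `p` cut out by an additive
character `χ` of `Gal(Qb/K)`, `M` unramified outside `S`, every place over `S` non-split.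

* `wPlace`, `wPlace_under`, `galSmul_resL_wPlace` : the place of `M/K` under a valuation
  subring of `Qb`, and its behaviour under restriction of automorphisms;
* `nonsplit_of_decomp` : a decomposition element of `A` in `Gal(Qb/K)` with `χ ≠ 0` makes the
  place of `K` under `A` non-split in `M/K`;
* `unramAt_of_inertia` : inertia of `A` inside `Gal(Qb/M)` plus non-split gives `UnramAt`;
* `approxNorm_of_forall_lvl` : the output of the adapter (CA) gives `ApproxNorm`;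
* `be_K` : the subgroup `B ≤ Kˣ` with the (BrS) local conditions outside `S` and the
  hyperplane count `p ^ #(places of K over S) ≤ p * |W|`.
-/

set_option autoImplicit false
set_option linter.unusedSectionVars false

open scoped NumberField WithZero Pointwise
open IsDedekindDomain

namespace Fermat.Agent.CFT.Count.BEK

open Fermat.Agent.CFT.Global.HasseNorm Fermat.Agent.CFT.Global.HP.NormQb
open Fermat.Agent.S14.Wiring

local notation "Qb" => AlgebraicClosure ℚ
local notation "Gq" => (AlgebraicClosure ℚ ≃ₐ[ℚ] AlgebraicClosure ℚ)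

section PrimeUnder

variable {K M : IntermediateField ℚ Qb} (hKM : K ≤ M)

/-- Integers of `M/K` lie in every valuation subring of `Qb`. -/
theorem coe_mem_LK (A : ValuationSubring Qb) (x : 𝓞 ↥(LK hKM)) :
    (((x : ↥(LK hKM)) : Qb)) ∈ A := by
  have hx : IsIntegral ℤ (x : ↥(LK hKM)) := NumberField.RingOfIntegers.isIntegral_coe x
  have h2 : IsIntegral ℤ (((x : ↥(LK hKM)) : Qb)) := map_isIntegral_int (LK hKM).val hx
  exact ValRing.mem_of_isIntegral A h2

theorem valuation_coe_LK_le (A : ValuationSubring Qb) (x : 𝓞 ↥(LK hKM)) :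
    A.valuation (((x : ↥(LK hKM)) : Qb)) ≤ 1 :=
  (A.valuation_le_one_iff _).mpr (coe_mem_LK hKM A x)

/-- The prime of the integers of `M/K` cut out by the valuation subring `A`. -/
noncomputable def wIdeal (A : ValuationSubring Qb) : Ideal (𝓞 ↥(LK hKM)) where
  carrier := {x | A.valuation (((x : ↥(LK hKM)) : Qb)) < 1}
  add_mem' := by
    intro x y hx hy
    show A.valuation ((((x + y : 𝓞 ↥(LK hKM)) : ↥(LK hKM)) : Qb)) < 1
    have : ((((x + y : 𝓞 ↥(LK hKM)) : ↥(LK hKM)) : Qb)) =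
        ((x : ↥(LK hKM)) : Qb) + ((y : ↥(LK hKM)) : Qb) := by
      push_cast; rfl
    rw [this]
    exact A.valuation.map_add_lt hx hy
  zero_mem' := by
    show A.valuation ((((0 : 𝓞 ↥(LK hKM)) : ↥(LK hKM)) : Qb)) < 1
    simp
  smul_mem' := by
    intro c x hx
    show A.valuation ((((c * x : 𝓞 ↥(LK hKM)) : ↥(LK hKM)) : Qb)) < 1
    have : ((((c * x : 𝓞 ↥(LK hKM)) : ↥(LK hKM)) : Qb)) =
        ((c : ↥(LK hKM)) : Qb) * ((x : ↥(LK hKM)) : Qb) := by
      push_cast; rfl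
    rw [this, map_mul]
    calc A.valuation ((c : ↥(LK hKM)) : Qb) * A.valuation ((x : ↥(LK hKM)) : Qb)
        ≤ 1 * A.valuation ((x : ↥(LK hKM)) : Qb) :=
          mul_le_mul_left (valuation_coe_LK_le hKM A c) _
      _ < 1 := by rw [one_mul]; exact hx

theorem mem_wIdeal (A : ValuationSubring Qb) (x : 𝓞 ↥(LK hKM)) :
    x ∈ wIdeal hKM A ↔ A.valuation (((x : ↥(LK hKM)) : Qb)) < 1 := Iff.rfl

theorem wIdeal_isPrime (A : ValuationSubring Qb) : (wIdeal hKM A).IsPrime := by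
  refine ⟨?_, ?_⟩
  · intro h
    have h1 : (1 : 𝓞 ↥(LK hKM)) ∈ wIdeal hKM A := h ▸ Submodule.mem_top
    rw [mem_wIdeal] at h1
    simp at h1
  · intro x y hxy
    rw [mem_wIdeal] at hxy
    have : ((((x * y : 𝓞 ↥(LK hKM)) : ↥(LK hKM)) : Qb)) =
        ((x : ↥(LK hKM)) : Qb) * ((y : ↥(LK hKM)) : Qb) := by
      push_cast; rfl
    rw [this, map_mul] at hxy
    by_contra hcon
    push Not at hcon
    obtain ⟨hx, hy⟩ := hcon
    rw [mem_wIdeal, not_lt] at hx hy
    have hx1 := le_antisymm (valuation_coe_LK_le hKM A x) hx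
    have hy1 := le_antisymm (valuation_coe_LK_le hKM A y) hy
    rw [hx1, hy1, one_mul] at hxy
    exact lt_irrefl _ hxy

theorem wIdeal_ne_bot (A : ValuationSubring Qb) {ℓ : ℕ} (hℓ : ℓ.Prime)
    (hA : A.LiesOverPrime ℓ) : wIdeal hKM A ≠ ⊥ := by
  intro h
  have h1 : ((ℓ : ℕ) : 𝓞 ↥(LK hKM)) ∈ wIdeal hKM A := by
    rw [mem_wIdeal]
    have : ((((ℓ : ℕ) : 𝓞 ↥(LK hKM)) : ↥(LK hKM)) : Qb) = (ℓ : Qb) := by
      simp
    rw [this]
    exact A.mem_nonunits_iff.mp hA
  rw [h, Ideal.mem_bot] at h1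
  exact hℓ.ne_zero (by exact_mod_cast h1)

/-- The place of `M/K` cut out by a valuation subring of `Qb` over a prime number. -/
noncomputable def wPlace (A : ValuationSubring Qb) {ℓ : ℕ} (hℓ : ℓ.Prime)
    (hA : A.LiesOverPrime ℓ) : HeightOneSpectrum (𝓞 ↥(LK hKM)) :=
  ⟨wIdeal hKM A, wIdeal_isPrime hKM A, wIdeal_ne_bot hKM A hℓ hA⟩

variable [NumberField ↥K] [NumberField ↥(LK hKM)]

/-- The place of `M/K` below `A` lies over the place of `K` below `A`. -/
theorem wPlace_under (A : ValuationSubring Qb) {ℓ : ℕ} (hℓ : ℓ.Prime)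
    (hA : A.LiesOverPrime ℓ) (v : HeightOneSpectrum (𝓞 ↥K))
    (hv : v.asIdeal = ValRing.primeUnder K A) :
    (wPlace hKM A hℓ hA).under (𝓞 ↥K) = v := by
  apply HeightOneSpectrum.ext
  ext x
  rw [hv, ValRing.mem_primeUnder]
  simp only [HeightOneSpectrum.under_asIdeal, Ideal.under_def, Ideal.mem_comap]
  show A.valuation ((((algebraMap (𝓞 ↥K) (𝓞 ↥(LK hKM)) x : 𝓞 ↥(LK hKM)) : ↥(LK hKM)) : Qb)) < 1 ↔ _
  rfl

variable [IsGalois ↥K ↥(LK hKM)]

/-- Elements of the decomposition group of `A` fixing `K` fix the place of `M/K` below `A`. -/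
theorem galSmul_resL_wPlace (A : ValuationSubring Qb) {ℓ : ℕ} (hℓ : ℓ.Prime)
    (hA : A.LiesOverPrime ℓ) (g : ↥K.fixingSubgroup)
    (hg : (g : Gq) ∈ A.decompositionSubgroup ℚ) :
    galSmul ↥K ↥(LK hKM) (resL hKM g) (wPlace hKM A hℓ hA) = wPlace hKM A hℓ hA := by
  apply HeightOneSpectrum.ext
  ext x
  rw [galSmul_asIdeal, Ideal.mem_pointwise_smul_iff_inv_smul_mem]
  show A.valuation (((((resL hKM g)⁻¹ • x : 𝓞 ↥(LK hKM)) : ↥(LK hKM)) : Qb)) < 1 ↔
    A.valuation (((x : ↥(LK hKM)) : Qb)) < 1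
  rw [coe_galSmul_int, ← map_inv, resL_apply]
  have hstab : (g : Gq) • A = A := MulAction.mem_stabilizer_iff.mp hg
  have h1 := Fermat.Agent.S55.Glue.PlacesAbove.mem_nonunits_smul_iff A (g : Gq)
    (((x : ↥(LK hKM)) : Qb))
  rw [hstab, A.mem_nonunits_iff, A.mem_nonunits_iff] at h1
  exact h1.symm

end PrimeUnder


section Places

variable {p : ℕ} [hp : Fact p.Prime] {K M : IntermediateField ℚ Qb} (hKM : K ≤ M)
  [NumberField ↥K] [NumberField ↥(LK hKM)] [IsGalois ↥K ↥(LK hKM)]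
  (χ : ↥K.fixingSubgroup → ZMod p) (hadd : ∀ g h, χ (g * h) = χ g + χ h)
  (hker : ∀ g, χ g = 0 ↔ (g : Gq) ∈ M.fixingSubgroup) (s : ↥K.fixingSubgroup) (hs : χ s = 1)

include hadd hker hs

/-- **Place form of non-splitting.**  If some element of `D_A ∩ Gal(Qb/K)` acts non-trivially on
`M`, then the place of `K` below `A` has a single place of `M` above it. -/
theorem nonsplit_of_decomp (A : ValuationSubring Qb) {ℓ : ℕ} (hℓ : ℓ.Prime)
    (hA : A.LiesOverPrime ℓ) (v : HeightOneSpectrum (𝓞 ↥K))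
    (hv : v.asIdeal = ValRing.primeUnder K A) (σ : ↥K.fixingSubgroup)
    (hσD : (σ : Gq) ∈ A.decompositionSubgroup ℚ) (hσ : χ σ ≠ 0) :
    Nonsplit ↥K ↥(LK hKM) v := by
  have key : ∀ w : HeightOneSpectrum (𝓞 ↥(LK hKM)), w.under (𝓞 ↥K) = v →
      w = wPlace hKM A hℓ hA := by
    intro w hw
    obtain ⟨τ, hτ⟩ := exists_galSmul_eq ↥K ↥(LK hKM) (wPlace hKM A hℓ hA) w
      (by rw [wPlace_under hKM A hℓ hA v hv, hw])
    obtain ⟨k, -, rfl⟩ := exists_pow_eq hKM χ hadd hker s hs τ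
    set j : ℕ := ((χ σ)⁻¹).val with hj
    have hpow : resL hKM (σ ^ (j * k)) = (resL hKM s) ^ k := by
      rw [← map_pow (resL hKM) s k, resL_eq_iff hKM χ hadd hker, chi_pow χ hadd,
        chi_pow χ hadd, hs, mul_one]
      push_cast
      rw [hj, ZMod.natCast_zmod_val, mul_comm ((χ σ)⁻¹) (k : ZMod p), mul_assoc,
        inv_mul_cancel₀ hσ, mul_one]
    rw [← hpow] at hτ
    rw [← hτ]
    have hmem : ((σ ^ (j * k) : ↥K.fixingSubgroup) : Gq) ∈ A.decompositionSubgroup ℚ := by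
      have : ((σ ^ (j * k) : ↥K.fixingSubgroup) : Gq) = (σ : Gq) ^ (j * k) := rfl
      rw [this]
      exact Subgroup.pow_mem _ hσD _
    exact galSmul_resL_wPlace hKM A hℓ hA (σ ^ (j * k)) hmem
  intro w w' hw hw'
  rw [key w hw, key w' hw']

/-- **Unramifiedness in valuation form.**  If the inertia group of `A` fixes `M` and the place
of `K` below `A` is non-split in `M`, then `M/K` is unramified at that place. -/
theorem unramAt_of_inertia (A : ValuationSubring Qb) {ℓ : ℕ} (hℓ : ℓ.Prime)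
    (hA : A.LiesOverPrime ℓ) (v : HeightOneSpectrum (𝓞 ↥K))
    (hv : v.asIdeal = ValRing.primeUnder K A)
    (hI : A.inertiaSubgroupIn ℚ ≤ M.fixingSubgroup)
    (hns : Nonsplit ↥K ↥(LK hKM) v) : UnramAt ↥K ↥(LK hKM) v := by
  have hdeg : Module.finrank ↥K ↥(LK hKM) = p := finrank_eq hKM χ hadd hker s hs
  intro w hw x
  rw [Fermat.Agent.CFT.Global.HNT.LIFacts.valuation_algebraMap_eq_pow_ramificationIdx hw x]
  have hef := Fermat.Agent.CFT.Global.HNT.LocalIndex.ramificationIdx_mul_inertiaDeg_of_nonsplit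
    ↥K ↥(LK hKM) hdeg w (hw ▸ hns)
  have hdvd : w.asIdeal.ramificationIdx (𝓞 ↥K) ∣ p := ⟨_, hef.symm⟩
  rcases (Nat.dvd_prime hp.out).mp hdvd with h1 | hep
  · rw [h1, pow_one]
  · exfalso
    have hf : w.asIdeal.inertiaDeg (𝓞 ↥K) = 1 := by
      rw [hep] at hef
      exact Nat.eq_of_mul_eq_mul_left hp.out.pos (by rw [hef, mul_one])
    have hwA : w = wPlace hKM A hℓ hA := hns _ _ hw (wPlace_under hKM A hℓ hA v hv)
    have hsw : galSmul ↥K ↥(LK hKM) (resL hKM s) w = w :=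
      hns _ _ ((under_galSmul ↥K ↥(LK hKM) (resL hKM s) w).trans hw) hw
    have hτM : ∀ x ∈ M, IsIntegral ℤ x → (s : Gq) x - x ∈ A.nonunits := by
      intro x hxM hxi
      have hxi' : IsIntegral ℤ (⟨x, hxM⟩ : ↥(LK hKM)) :=
        (isIntegral_algHom_iff ((LK hKM).val.toRingHom.toIntAlgHom)
          (LK hKM).val.injective).mp hxi
      set x' : 𝓞 ↥(LK hKM) := ⟨⟨x, hxM⟩, hxi'⟩ with hx'
      obtain ⟨a, ha⟩ :=
        Fermat.Agent.CFT.Global.HNT.LocalIndex.exists_algebraMap_sub_mem_of_inertiaDeg_eq_one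
          ↥K ↥(LK hKM) w hf x'
      set m : 𝓞 ↥(LK hKM) := x' - algebraMap (𝓞 ↥K) (𝓞 ↥(LK hKM)) a with hm
      have hm1 : A.valuation (((m : ↥(LK hKM)) : Qb)) < 1 := by
        rw [hwA] at ha
        exact ha
      have hm2 : A.valuation ((s : Gq) (((m : ↥(LK hKM)) : Qb))) < 1 := by
        have h1 : (resL hKM s) • m ∈ (resL hKM s) • w.asIdeal :=
          Ideal.smul_mem_pointwise_smul (resL hKM s) m w.asIdeal ha
        have h2 : (resL hKM s) • m ∈ w.asIdeal := by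
          have := congrArg HeightOneSpectrum.asIdeal hsw
          rw [galSmul_asIdeal] at this
          rw [this] at h1
          exact h1
        rw [hwA] at h2
        have h3 : A.valuation (((((resL hKM s) • m : 𝓞 ↥(LK hKM)) : ↥(LK hKM)) : Qb)) < 1 := h2
        rw [coe_galSmul_int, resL_apply] at h3
        exact h3
      have hxm : x = ((m : ↥(LK hKM)) : Qb) + ((a : ↥K) : Qb) := by
        have h1 : ((m : ↥(LK hKM)) : Qb) = x - ((a : ↥K) : Qb) := by
          rw [hm]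
          push_cast
          rfl
        rw [h1]
        ring
      have hsa : (s : Gq) ((a : ↥K) : Qb) = ((a : ↥K) : Qb) := s.2 ⟨_, (a : ↥K).2⟩
      have hdiff : (s : Gq) x - x =
          (s : Gq) (((m : ↥(LK hKM)) : Qb)) - ((m : ↥(LK hKM)) : Qb) := by
        conv_lhs => rw [hxm]
        rw [map_add, hsa]
        ring
      rw [hdiff, A.mem_nonunits_iff]
      exact A.valuation.map_sub_lt hm2 hm1
    obtain ⟨σ, hσI, hσM⟩ :=
      Fermat.Agent.Lib.DecompLift.exists_inertia_lift M A hℓ hA (s : Gq) hτM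
    have hsM : (s : Gq) ∈ M.fixingSubgroup := by
      rw [IntermediateField.mem_fixingSubgroup_iff]
      intro x hx
      rw [← hσM x hx]
      exact (IntermediateField.mem_fixingSubgroup_iff M σ).mp (hI hσI) x hx
    have := (hker s).mpr hsM
    rw [hs] at this
    exact one_ne_zero this

end Places

section Approx

variable {p : ℕ} [hp : Fact p.Prime] {K M : IntermediateField ℚ Qb} (hKM : K ≤ M)
  [NumberField ↥K] [NumberField ↥(LK hKM)] [IsGalois ↥K ↥(LK hKM)]
  (χ : ↥K.fixingSubgroup → ZMod p) (hadd : ∀ g h, χ (g * h) = χ g + χ h)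
  (hker : ∀ g, χ g = 0 ↔ (g : Gq) ∈ M.fixingSubgroup) (s : ↥K.fixingSubgroup) (hs : χ s = 1)

include hadd hker hs

/-- From approximation modulo `ℓ ^ N • A` by norms (the output shape of the adapter (CA),
`HP.LN.exists_norm_approx_div'`) to `ApproxNorm` at the place of `K` below `A`. -/
theorem approxNorm_of_forall_lvl (v : HeightOneSpectrum (𝓞 ↥K)) (A : ValuationSubring Qb) {ℓ : ℕ}
    (hℓ : ℓ.Prime) (hℓv : ((ℓ : ℕ) : 𝓞 ↥K) ∈ v.asIdeal)
    (hdict : ∀ x : ↥K, ((x : ↥K) : Qb) ∈ A ↔ v.valuation ↥K x ≤ 1)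
    (b : ↥K) (hb : b ≠ 0)
    (happ : ∀ N : ℕ, ∃ y ∈ M, y ≠ 0 ∧
      ((b : Qb) - ∏ k ∈ Finset.range p, ((s : Gq) ^ k) y) / (ℓ : Qb) ^ N ∈ A) :
    ApproxNorm ↥K ↥(LK hKM) v b := by
  intro n
  have hβ : v.valuation ↥K b ≠ 0 := by
    rw [Ne, map_eq_zero]
    exact hb
  obtain ⟨N, hN1, hN2⟩ := exists_level _ hβ n
  obtain ⟨y, hyM, hy0, hyA⟩ := happ N
  have hy0' : (⟨y, hyM⟩ : ↥(LK hKM)) ≠ 0 := fun h => hy0 (congrArg Subtype.val h)
  refine ⟨⟨y, hyM⟩, hy0', ?_⟩
  apply valuation_div_sub_one_le v n hN1 hN2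
  have hmem : (((b - Algebra.norm ↥K (⟨y, hyM⟩ : ↥(LK hKM))) / (ℓ : ↥K) ^ N : ↥K) : Qb) ∈ A := by
    have h1 : (((b - Algebra.norm ↥K (⟨y, hyM⟩ : ↥(LK hKM))) / (ℓ : ↥K) ^ N : ↥K) : Qb) =
        ((b : Qb) - ∏ k ∈ Finset.range p, ((s : Gq) ^ k) y) / (ℓ : Qb) ^ N := by
      rw [← coe_norm hKM χ hadd hker s hs (⟨y, hyM⟩ : ↥(LK hKM))]
      simp
    rw [h1]
    exact hyA
  have h2 := (hdict _).mp hmem
  rw [map_div₀, map_pow, div_le_one₀ (by
    rw [zero_lt_iff]
    refine pow_ne_zero _ ?_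
    rw [Ne, map_eq_zero]
    exact_mod_cast hℓ.ne_zero)] at h2
  refine h2.trans ?_
  calc v.valuation ↥K (ℓ : ↥K) ^ N ≤ WithZero.exp (-1 : ℤ) ^ N :=
        pow_le_pow_left₀ zero_le (valuation_natCast_le v ℓ hℓv) N
    _ = WithZero.exp (-(N : ℤ)) := by
        rw [← WithZero.exp_nsmul]
        simp

end Approx

section Main

universe u

open Fermat.Agent.CFT.Count.BEHyperplane Fermat.Agent.CFT.Global

/-- **(BE), `K`-side assembly.**  `K ≤ M` finite subfields of `Qb`, `M/K` cyclic of prime degree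
`p` cut out by the additive character `χ` of `Gal(Qb/K)` (`s` with `χ s = 1`), `M` unramified
outside `S`, and every valuation subring over a prime of `S` non-split in `M/K` (its decomposition
group meets `Gal(Qb/K)` outside `ker χ`).  Then there is a subgroup `B ≤ Kˣ` such that

* every `b ∈ B` satisfies, at every valuation subring `A` over a prime outside `S`:
  `p ∣ ord_A b` (witness in `K`), or `A` splits in `M/K` — the hypothesis of the descent
  cocycle (BrS);
* every additive map `Ψ` from `B` to a finite group whose kernel consists of elements which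
  are, at every `A` over a prime of `S`, approximated by norms from `M` (the output of the
  adapter (CA) applied to a locally trivial class `κ_b ∪ χ`) satisfies
  `p ^ (number of places of K above S) ≤ p * |W|`. -/
theorem be_K {p : ℕ} [hp : Fact p.Prime] (S : Finset Nat.Primes)
    (K M : IntermediateField ℚ Qb) [NumberField ↥K] (hKM : K ≤ M)
    (hMS : M.IsUnramifiedOutside S)
    (χ : ↥K.fixingSubgroup → ZMod p) (hadd : ∀ g h, χ (g * h) = χ g + χ h)
    (hker : ∀ g, χ g = 0 ↔ (g : Gq) ∈ M.fixingSubgroup) (s : ↥K.fixingSubgroup) (hs : χ s = 1)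
    (hns : ∀ q ∈ S, ∀ A : ValuationSubring Qb, A.LiesOverPrime ((q : Nat.Primes) : ℕ) →
      ∃ σ : ↥K.fixingSubgroup, (σ : Gq) ∈ A.decompositionSubgroup ℚ ∧ χ σ ≠ 0) :
    ∃ B : Subgroup (↥K)ˣ,
      (∀ b ∈ B, ∀ q : Nat.Primes, q ∉ S → ∀ A : ValuationSubring Qb,
        A.LiesOverPrime (q : ℕ) →
        (∃ x : ↥K, A.valuation ((((b : (↥K)ˣ) : ↥K) : Qb) * (x : Qb) ^ p) = 1) ∨
        (∀ σ : ↥K.fixingSubgroup, (σ : Gq) ∈ A.decompositionSubgroup ℚ → χ σ = 0)) ∧
      (∀ (W : Type u) [AddCommGroup W] [Finite W] (Ψ : ↥B → W),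
        (∀ b b' : ↥B, Ψ (b * b') = Ψ b + Ψ b') →
        (∀ b : ↥B, Ψ b = 0 → ∀ q ∈ S, ∀ A : ValuationSubring Qb,
          A.LiesOverPrime ((q : Nat.Primes) : ℕ) → ∀ N : ℕ, ∃ y ∈ M, y ≠ 0 ∧
            ((((b : (↥K)ˣ) : ↥K) : Qb) - ∏ k ∈ Finset.range p, ((s : Gq) ^ k) y) /
              (((q : Nat.Primes) : ℕ) : Qb) ^ N ∈ A) →
        p ^ (CountV.SK S K).card ≤ p * Nat.card W) := by
  classical
  have hfdM : FiniteDimensional ℚ ↥M := hMS.1
  have hnfM : NumberField ↥M := ⟨⟩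
  have hnfLK : NumberField ↥(LK hKM) := NumberField.of_ringEquiv ↥M ↥(LK hKM) (eLK hKM)
  have hnorm : Normal ↥K ↥(LK hKM) := normal_LK hKM χ hadd hker
  have hgal : IsGalois ↥K ↥(LK hKM) := ⟨⟩
  have hdeg : Module.finrank ↥K ↥(LK hKM) = p := finrank_eq hKM χ hadd hker s hs
  obtain ⟨T, hST, hTK, hTL, hR⟩ := exists_good_finset ↥K ↥(LK hKM) (CountV.SK S K)
  set S₁ : Finset (HeightOneSpectrum (𝓞 ↥K)) := T.filter (fun v => v ∉ CountV.SK S K) with hS₁
  have hdisj : Disjoint S₁ (CountV.SK S K) := by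
    rw [Finset.disjoint_left]
    intro v hv
    exact (Finset.mem_filter.mp hv).2
  have hT : (T : Set (HeightOneSpectrum (𝓞 ↥K))) =
      (S₁ : Set (HeightOneSpectrum (𝓞 ↥K))) ∪ (CountV.SK S K) := by
    ext v
    simp only [Set.mem_union, Finset.mem_coe, hS₁, Finset.mem_filter]
    constructor
    · intro hv
      by_cases h : v ∈ CountV.SK S K
      · exact Or.inr h
      · exact Or.inl ⟨hv, h⟩
    · rintro (⟨hv, -⟩ | hv)
      · exact hv
      · exact hST hv
  -- non-splitting at the places above `S`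
  have hnsS : ∀ v ∈ CountV.SK S K, ∃ (q : Nat.Primes) (A : ValuationSubring Qb), q ∈ S ∧
      A.LiesOverPrime (q : ℕ) ∧ ((((q : Nat.Primes) : ℕ) : ℕ) : 𝓞 ↥K) ∈ v.asIdeal ∧
      v.asIdeal = ValRing.primeUnder K A ∧
      (∀ x : ↥K, ((x : ↥K) : Qb) ∈ A ↔ v.valuation ↥K x ≤ 1) := by
    intro v hv
    rw [CountV.mem_SK_iff] at hv
    obtain ⟨q, hqS, hqv⟩ := hv
    obtain ⟨ℓ, A, -, -, -, hvA, hdict, -, -⟩ := ValRing.exists_valuationSubring_full K v
    exact ⟨q, A, hqS, ValRing.liesOverPrime_of_natCast_mem hvA hqv, hqv, hvA, hdict⟩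
  refine ⟨(T : Set (HeightOneSpectrum (𝓞 ↥K))).unit ↥K ⊓
    approxNormOn ↥K ↥(LK hKM) (S₁ : Set (HeightOneSpectrum (𝓞 ↥K))), ?_, ?_⟩
  · -- the local conditions outside `S`
    intro b hb q hqS A hA
    set v : HeightOneSpectrum (𝓞 ↥K) := ValRing.placeUnder K A q.2 hA with hvdef
    have hv : v.asIdeal = ValRing.primeUnder K A := rfl
    by_cases hvT : v ∈ T
    · have hvS : v ∉ CountV.SK S K := by
        rw [CountV.mem_SK_iff]
        rintro ⟨q', hq'S, hq'v⟩
        have hAq' : A.LiesOverPrime (q' : ℕ) := ValRing.liesOverPrime_of_natCast_mem hv hq'v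
        have h1 := (Fermat.Agent.S55.Glue.PlacesAbove.intCast_mem_nonunits_iff q.2 hA
          ((q' : ℕ) : ℤ)).mp (by exact_mod_cast hAq')
        have h2 : (q : ℕ) ∣ (q' : ℕ) := by exact_mod_cast h1
        have h3 : (q : ℕ) = (q' : ℕ) := (Nat.prime_dvd_prime_iff_eq q.2 q'.2).mp h2
        exact hqS ((Subtype.ext h3 : q = q') ▸ hq'S)
      have hvS₁ : v ∈ S₁ := Finset.mem_filter.mpr ⟨hvT, hvS⟩
      have hAN : ApproxNorm ↥K ↥(LK hKM) v ((b : (↥K)ˣ) : ↥K) :=
        (mem_approxNormOn.mp hb.2) v (Finset.mem_coe.mpr hvS₁)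
      by_cases hχ : ∀ σ : ↥K.fixingSubgroup, (σ : Gq) ∈ A.decompositionSubgroup ℚ → χ σ = 0
      · exact Or.inr hχ
      · left
        push Not at hχ
        obtain ⟨σ, hσD, hσ⟩ := hχ
        have hnsv := nonsplit_of_decomp hKM χ hadd hker s hs A q.2 hA v hv σ hσD hσ
        have hun := unramAt_of_inertia hKM χ hadd hker s hs A q.2 hA v hv (hMS.2 q hqS A hA) hnsv
        obtain ⟨m, hm⟩ := exists_valuation_eq_exp_mul ↥K ↥(LK hKM) hdeg v hnsv hun _ hAN
        obtain ⟨π, hπ⟩ := v.valuation_exists_uniformizer ↥K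
        refine ⟨π ^ m, ?_⟩
        have h1 : v.valuation ↥K (((b : (↥K)ˣ) : ↥K) * (π ^ m) ^ p) = 1 := by
          rw [map_mul, map_pow, map_zpow₀, hπ, hm, ← WithZero.exp_zsmul, ← WithZero.exp_nsmul,
            ← WithZero.exp_add, ← WithZero.exp_zero]
          congr 1
          simp only [smul_eq_mul, nsmul_eq_mul]
          ring
        have h2 := (ValRing.valuation_eq_one_iff hv _).mp h1
        have h3 : (((((b : (↥K)ˣ) : ↥K) * (π ^ m) ^ p : ↥K)) : Qb) =
            (((b : (↥K)ˣ) : ↥K) : Qb) * (((π ^ m : ↥K)) : Qb) ^ p := by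
          push_cast
          rfl
        rw [h3] at h2
        exact h2
    · left
      refine ⟨1, ?_⟩
      have h1 : v.valuation ↥K ((b : (↥K)ˣ) : ↥K) = 1 := hb.1 v hvT
      have h2 := (ValRing.valuation_eq_one_iff hv _).mp h1
      simpa using h2
  · -- the count
    intro W _ _ Ψ hmul hΨ
    have hone : Ψ 1 = 0 := by
      have := hmul 1 1
      rw [mul_one] at this
      exact left_eq_add.mp this
    let Ψ' : ↥((T : Set (HeightOneSpectrum (𝓞 ↥K))).unit ↥K ⊓
        approxNormOn ↥K ↥(LK hKM) (S₁ : Set (HeightOneSpectrum (𝓞 ↥K)))) →* Multiplicative W :=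
      { toFun := fun b => Multiplicative.ofAdd (Ψ b)
        map_one' := by rw [hone]; rfl
        map_mul' := fun b b' => by rw [hmul]; rfl }
    have hns' : ∀ v ∈ CountV.SK S K, Nonsplit ↥K ↥(LK hKM) v := by
      intro v hv
      obtain ⟨q, A, hqS, hAq, -, hvA, -⟩ := hnsS v hv
      obtain ⟨σ, hσD, hσ⟩ := hns q hqS A hAq
      exact nonsplit_of_decomp hKM χ hadd hker s hs A q.2 hAq v hvA σ hσD hσ
    have hΨ' : ∀ b, Ψ' b = 1 → ∀ v ∈ CountV.SK S K,
        ApproxNorm ↥K ↥(LK hKM) v (((b : (↥K)ˣ)) : ↥K) := by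
      intro b hb v hv
      obtain ⟨q, A, hqS, hAq, hqv, -, hdict⟩ := hnsS v hv
      have hb0 : Ψ b = 0 := hb
      exact approxNorm_of_forall_lvl hKM χ hadd hker s hs v A q.2 hqv hdict _
        (Units.ne_zero _) (hΨ b hb0 q hqS A hAq)
    have key := pow_card_le_mul_card ↥K ↥(LK hKM) hp.out hdeg T hTK hTL hR S₁ (CountV.SK S K)
      hdisj hT hns' Ψ' hΨ'
    have hcard : Nat.card (Multiplicative W) = Nat.card W :=
      Nat.card_congr Multiplicative.toAdd
    rw [hcard] at key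
    exact key

end Main

end Fermat.Agent.CFT.Count.BEK
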