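import Fermat.Agent.CFT.Count.ClassQuot
import Fermat.Agent.CFT.Global.CountV
import Fermat.Agent.S55.Base.Capit
import Fermat.Agent.S14.Wiring.ValRing

/-!
# COUNT (c4): the divisor package and the Kummer-divisor lemma (KD), K-side

`K ≤ Qb` a number field, `S` a finite set of primes, `S_K = CountV.SK S K`.

* `P0 p S K := Outside (SK S K) →₀ ZMod p` : divisors outside `S_K` modulo `p`;
* `dv p S K a : P0 p S K` : the divisor of `a ∈ Kˣ` modulo `p` (`dv_apply`,
  `dv_eq_of_valuation : v(a) = exp (-n) → dv a w = n`);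
* `divSub p S K : Submodule (ZMod p) (P0 p S K)` : the principal divisors, `ordP` its inclusion
  (`exists_dv_eq_ordP`, `dv_mem_divSub`, `range_ordP`);
* `finrank_P0_quot` : `P0 ⧸ range ordP` is finite-dimensional of dimension `ρ` when
  `[Cl_S : p] = p ^ ρ` (the `ρ` of `CountV.finrank_VS` / `CountQ.finrank_continuousH1S`);
* `kummer_divisor` (KD, K-side): for `γ ∈ Kˣ` with `v₀(γ) = exp (-n)`, a Kummer character `χ` of
  `γ` and a Kummer character `κ` of a uniformiser `π` at `v₀ ∉ S_K`: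
  `χ = t + n • κ` on `G_K` with `t` unramified at every `A` over `v₀` (the literal shape of
  `CapitPlace.capit_place`, item 3); `kummer_divisor_dv` : the same with `n = dv p S K a v₀`.
-/

set_option autoImplicit false

open scoped NumberField IntermediateField
open IsDedekindDomain

namespace Fermat.Agent.CFT.Count.C4K

local notation "Qb" => AlgebraicClosure ℚ
local notation "Gq" => (AlgebraicClosure ℚ ≃ₐ[ℚ] AlgebraicClosure ℚ)

open Fermat.Agent.CFT.Global.CountV Fermat.Agent.CFT.Kummer Fermat.Agent.S14.Wiring.ValRing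
  Fermat.Agent.CFT.Global.SelmerCount Fermat.Agent.CFT.Count Fermat.Agent.S55.Base.Capit

section Divisors

variable (p : ℕ) (S : Finset Nat.Primes) (K : IntermediateField ℚ Qb) [NumberField K]

/-- Divisors of `K` outside `S_K`, modulo `p`. -/
abbrev P0 : Type := Outside (SK S K) →₀ ZMod p

/-- The divisor of `a ∈ Kˣ` modulo `p` outside `S_K`. -/
noncomputable def dv (a : Kˣ) : P0 p S K :=
  Multiplicative.toAdd (divModHom (R := 𝓞 K) K p (SK S K) a)

variable {p S K}

theorem dv_apply (a : Kˣ) (w : Outside (SK S K)) :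
    dv p S K a w = ((-Multiplicative.toAdd (w.1.valuationOfNeZero a) : ℤ) : ZMod p) :=
  toAdd_divModHom_apply' K p (SK S K) a w

theorem valuation_eq_exp (w : HeightOneSpectrum (𝓞 K)) (a : Kˣ) :
    w.valuation K (a : K) = WithZero.exp (Multiplicative.toAdd (w.valuationOfNeZero a)) :=
  (w.valuationOfNeZero_eq a).symm

/-- `dv a w = ord_w a mod p`, valuation form. -/
theorem dv_eq_of_valuation (a : Kˣ) (w : Outside (SK S K)) (n : ℤ)
    (hn : w.1.valuation K (a : K) = WithZero.exp (-n)) : dv p S K a w = (n : ZMod p) := by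
  rw [dv_apply]
  rw [valuation_eq_exp] at hn
  have h := WithZero.exp_injective hn
  rw [h, neg_neg]

theorem valuation_eq_exp_neg (a : Kˣ) (w : HeightOneSpectrum (𝓞 K)) :
    w.valuation K (a : K) =
      WithZero.exp (-(-Multiplicative.toAdd (w.valuationOfNeZero a))) := by
  rw [neg_neg, valuation_eq_exp]

theorem dv_mul (a b : Kˣ) : dv p S K (a * b) = dv p S K a + dv p S K b := by
  unfold dv
  rw [map_mul, toAdd_mul]

variable (p S K)

/-- The principal divisors modulo `p` outside `S_K`, as a `ZMod p`-submodule. -/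
noncomputable def divSub [Fact p.Prime] : Submodule (ZMod p) (P0 p S K) :=
  AddSubgroup.toZModSubmodule p (divRange (R := 𝓞 K) K p (SK S K))

/-- The inclusion of the principal divisors (the map `ord` of `(c4)`). -/
noncomputable def ordP [Fact p.Prime] : ↥(divSub p S K) →ₗ[ZMod p] P0 p S K :=
  (divSub p S K).subtype

variable {p S K}

theorem mem_divSub_iff [Fact p.Prime] (d : P0 p S K) :
    d ∈ divSub p S K ↔ ∃ a : Kˣ, dv p S K a = d :=
  mem_divRange_iff K p (SK S K) d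

theorem dv_mem_divSub [Fact p.Prime] (a : Kˣ) : dv p S K a ∈ divSub p S K :=
  (mem_divSub_iff _).2 ⟨a, rfl⟩

theorem exists_dv_eq_ordP [Fact p.Prime] (γ : ↥(divSub p S K)) :
    ∃ a : Kˣ, ordP p S K γ = dv p S K a := by
  obtain ⟨a, ha⟩ := (mem_divSub_iff γ.1).1 γ.2
  exact ⟨a, ha.symm⟩

theorem range_ordP [Fact p.Prime] : LinearMap.range (ordP p S K) = divSub p S K :=
  Submodule.range_subtype _

theorem mem_range_ordP_iff [Fact p.Prime] (d : P0 p S K) :
    d ∈ LinearMap.range (ordP p S K) ↔ ∃ a : Kˣ, dv p S K a = d := by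
  rw [range_ordP]
  exact mem_divSub_iff d

/-- **(c4), numerical part.**  `dim P0 ⧸ (principal divisors) = ρ` when `[Cl_S : p] = p ^ ρ`. -/
theorem finrank_P0_quot [Fact p.Prime] {ρ : ℕ}
    (hρ : (clS (𝓞 K) p (SK S K)).index = p ^ ρ) :
    FiniteDimensional (ZMod p) (P0 p S K ⧸ LinearMap.range (ordP p S K)) ∧
      Module.finrank (ZMod p) (P0 p S K ⧸ LinearMap.range (ordP p S K)) = ρ := by
  have hord : ∀ d, d ∈ LinearMap.range (ordP p S K) ↔
      ∃ a : Kˣ, Multiplicative.toAdd (divModHom (R := 𝓞 K) K p (SK S K) a) = d :=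
    fun d => mem_range_ordP_iff d
  exact finrank_quotient_range_ord (R := 𝓞 K) K p (SK S K)
    (Γ := ↥(divSub p S K)) (ordP p S K) hord hρ

end Divisors

section KD

variable {p : ℕ} [Fact p.Prime]

/-- Integer powers of a `p`-th root of unity only depend on the exponent modulo `p`. -/
theorem zpow_eq_pow_val {z : Qb} (hz : z ^ p = 1) (m : ℤ) : z ^ m = z ^ ((m : ZMod p)).val := by
  have hp : p.Prime := Fact.out
  have : NeZero p := ⟨hp.ne_zero⟩
  have hz0 : z ≠ 0 := by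
    rintro rfl
    rw [zero_pow hp.ne_zero] at hz
    exact zero_ne_one hz
  have h1 : (((m : ZMod p).val : ℕ) : ℤ) = m % (p : ℤ) := ZMod.val_intCast m
  have h2 : m = (p : ℤ) * (m / (p : ℤ)) + m % (p : ℤ) := (Int.mul_ediv_add_emod m p).symm
  have hzp : z ^ (p : ℤ) = 1 := by rw [zpow_natCast, hz]
  conv_lhs => rw [h2]
  rw [zpow_add₀ hz0, zpow_mul, hzp, one_zpow, one_mul, ← h1, zpow_natCast]

/-- **(KD), K-side.**  Let `K` be unramified outside `S ∋ p` with `ζ_p ∈ K`, `γ ∈ Kˣ`, `χ` a Kummer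
character of `γ`, and `A` a valuation subring over `q ∉ S` lying over the place `v₀` of `K`.  If
`κ` is a Kummer character of a uniformiser `π` at `v₀` and `v₀(γ) = exp (-n)`, then on `G_K`
`χ = t + n • κ` with `t` unramified at `A`. -/
theorem kummer_divisor (S : Finset Nat.Primes) (hpS : ExtCitation.pPrime p ∈ S)
    (K : IntermediateField ℚ Qb) (hK : K.IsUnramifiedOutside S) [NumberField K] (ζ : K)
    (hζ : IsPrimitiveRoot ζ p) (γ : K) (ϑ : Qb) (hϑ : ϑ ^ p = (γ : Qb))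
    (χ : Gq → ZMod p) (hχ : ∀ s ∈ K.fixingSubgroup, s ϑ = (ζ : Qb) ^ (χ s).val * ϑ)
    (q : Nat.Primes) (hq : q ∉ S) (A : ValuationSubring Qb) (hA : A.LiesOverPrime (q : ℕ))
    (v₀ : HeightOneSpectrum (𝓞 K)) (hv₀ : primeUnder K A = v₀.asIdeal)
    (π : K) (ϖ : Qb) (hπ : v₀.valuation K π = WithZero.exp (-1 : ℤ)) (hϖ : ϖ ^ p = (π : Qb))
    (κ : Gq → ZMod p) (hκ : ∀ s ∈ K.fixingSubgroup, s ϖ = (ζ : Qb) ^ (κ s).val * ϖ)
    (n : ℤ) (hn : v₀.valuation K γ = WithZero.exp (-n)) :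
    ∃ t : Gq → ZMod p,
      (∃ F_A : IntermediateField ℚ Qb, FiniteDimensional ℚ F_A ∧
        A.inertiaSubgroupIn ℚ ≤ F_A.fixingSubgroup ∧
        ∀ g s, s ∈ F_A.fixingSubgroup → t (g * s) = t g) ∧
      ∀ s ∈ K.fixingSubgroup, χ s = t s + (n : ZMod p) * κ s := by
  classical
  have hp : p.Prime := Fact.out
  have : NeZero p := ⟨hp.ne_zero⟩
  have := hK.1
  set z : Qb := (ζ : Qb) with hz
  have hzprim : IsPrimitiveRoot z p := hζ.map_of_injective (f := K.val) K.val.injective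
  have hzp : z ^ p = 1 := hzprim.pow_eq_one
  have hz0 : z ≠ 0 := hzprim.ne_zero hp.ne_zero
  have hπ0 : π ≠ 0 := by
    rintro rfl
    rw [map_zero] at hπ
    exact WithZero.exp_ne_zero hπ.symm
  have hγ0 : γ ≠ 0 := by
    rintro rfl
    rw [map_zero] at hn
    exact WithZero.exp_ne_zero hn.symm
  have hϖ0 : ϖ ≠ 0 := by
    rintro rfl
    rw [zero_pow hp.ne_zero] at hϖ
    have : ((π : K) : Qb) = ((0 : K) : Qb) := hϖ.symm
    exact hπ0 (Subtype.ext this)
  have hϑ0 : ϑ ≠ 0 := by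
    rintro rfl
    rw [zero_pow hp.ne_zero] at hϑ
    have : ((γ : K) : Qb) = ((0 : K) : Qb) := hϑ.symm
    exact hγ0 (Subtype.ext this)
  -- the unit `b = γ π ^ (-n)` and its root `β`
  set b : K := γ * π ^ (-n) with hb
  set β : Qb := ϑ * ϖ ^ (-n) with hβ
  have hβ0 : β ≠ 0 := mul_ne_zero hϑ0 (zpow_ne_zero _ hϖ0)
  have hβp : β ^ p = ((b : K) : Qb) := by
    have h1 : ((b : K) : Qb) = (γ : Qb) * (π : Qb) ^ (-n) := by
      rw [hb]
      push_cast
      rfl
    rw [h1, hβ, mul_pow, hϑ, ← zpow_natCast (ϖ ^ (-n)) p, ← zpow_mul, mul_comm (-n) (p : ℤ),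
      zpow_mul, zpow_natCast, hϖ]
  have hvb : v₀.valuation K b = 1 := by
    rw [hb, map_mul, map_zpow₀, hπ, hn, ← WithZero.exp_zsmul, ← WithZero.exp_add,
      ← WithZero.exp_zero]
    congr 1
    simp
  have hvbA : A.valuation (((b : K) : Qb) * ((1 : K) : Qb) ^ p) = 1 := by
    have h := (valuation_eq_one_iff hv₀.symm b).1 hvb
    simpa using h
  have hcop : Nat.Coprime (q : ℕ) p := by
    rw [Nat.coprime_primes q.2 hp]
    intro hqp
    apply hq
    have : q = ExtCitation.pPrime p := Subtype.ext hqp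
    rw [this]
    exact hpS
  refine ⟨fun g => dlog p z (g β / β), ⟨(K⟮β⟯).restrictScalars ℚ,
    finiteDimensional_adjoin_simple K β, ?_, ?_⟩, ?_⟩
  · intro σ hσ
    have hσK : σ ∈ K.fixingSubgroup := hK.2 q hq A hA hσ
    exact mem_fixingSubgroup_adjoin_simple K β σ hσK
      (inertia_fixes_root K β b p hp.ne_zero hβp A (q : ℕ) hcop hA 1 hvbA σ hσ hσK)
  · intro g s hs
    have hsβ : s β = β := apply_eq_of_mem_fixingSubgroup_adjoin_simple K β s hs
    show dlog p z ((g * s) β / β) = dlog p z (g β / β)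
    rw [AlgEquiv.mul_apply, hsβ]
  · intro s hs
    have h1 : s β = z ^ (χ s).val * ϑ * (z ^ (κ s).val * ϖ) ^ (-n) := by
      rw [hβ, map_mul, map_zpow₀, hχ s hs, hκ s hs]
    have h2 : s β / β = z ^ ((χ s - (n : ZMod p) * κ s)).val := by
      rw [h1, hβ, mul_zpow]
      have h3 : z ^ (χ s).val * ϑ * ((z ^ (κ s).val) ^ (-n) * ϖ ^ (-n)) / (ϑ * ϖ ^ (-n)) =
          z ^ (χ s).val * (z ^ (κ s).val) ^ (-n) := by
        field_simp
      rw [h3, ← zpow_natCast z (χ s).val, ← zpow_natCast z (κ s).val, ← zpow_mul, ← zpow_add₀ hz0,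
        zpow_eq_pow_val hzp]
      congr 2
      push_cast
      rw [ZMod.natCast_zmod_val, ZMod.natCast_zmod_val]
      ring
    have h4 : dlog p z (s β / β) = χ s - (n : ZMod p) * κ s := dlog_eq hzprim _ h2
    show χ s = dlog p z (s β / β) + (n : ZMod p) * κ s
    rw [h4]
    ring

/-- (KD) with the coefficient written as the divisor `dv p S K a`. -/
theorem kummer_divisor_dv (S : Finset Nat.Primes) (hpS : ExtCitation.pPrime p ∈ S)
    (K : IntermediateField ℚ Qb) (hK : K.IsUnramifiedOutside S) [NumberField K] (ζ : K)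
    (hζ : IsPrimitiveRoot ζ p) (a : Kˣ) (ϑ : Qb) (hϑ : ϑ ^ p = ((a : K) : Qb))
    (χ : Gq → ZMod p) (hχ : ∀ s ∈ K.fixingSubgroup, s ϑ = (ζ : Qb) ^ (χ s).val * ϑ)
    (q : Nat.Primes) (hq : q ∉ S) (A : ValuationSubring Qb) (hA : A.LiesOverPrime (q : ℕ))
    (w : Outside (SK S K)) (hw : primeUnder K A = w.1.asIdeal)
    (π : K) (ϖ : Qb) (hπ : w.1.valuation K π = WithZero.exp (-1 : ℤ)) (hϖ : ϖ ^ p = (π : Qb))
    (κ : Gq → ZMod p) (hκ : ∀ s ∈ K.fixingSubgroup, s ϖ = (ζ : Qb) ^ (κ s).val * ϖ) :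
    ∃ t : Gq → ZMod p,
      (∃ F_A : IntermediateField ℚ Qb, FiniteDimensional ℚ F_A ∧
        A.inertiaSubgroupIn ℚ ≤ F_A.fixingSubgroup ∧
        ∀ g s, s ∈ F_A.fixingSubgroup → t (g * s) = t g) ∧
      ∀ s ∈ K.fixingSubgroup, χ s = t s + dv p S K a w * κ s := by
  have h := kummer_divisor S hpS K hK ζ hζ (a : K) ϑ hϑ χ hχ q hq A hA w.1 hw π ϖ hπ hϖ κ hκ
    (-Multiplicative.toAdd (w.1.valuationOfNeZero a)) (valuation_eq_exp_neg a w.1)
  rw [← dv_apply] at h
  exact h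

end KD

end Fermat.Agent.CFT.Count.C4K
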