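import Fermat.Agent.CFT.Count.C4Gen
import Fermat.Agent.CFT.Count.C4K

/-!
# COUNT (c4), cone form, for `ctxS p S hpS lam`: `dim ker loc² ≤ ρ`

`K` a number field, `W = Outside (SK S K)` the places of `K` outside `S_K`, `N` any
`𝔽_p[G_ℚ]`-module, `cw : W → (G_ℚ → N)` a family of `1`-cochains ("capitulation cochains") with

* (A) `cw w` of level `S ∪ {pl w}`;
* (a) `d (cw w)` of level `S`;
* (GEN) every level-`S` `2`-cocycle which is a local coboundary at the places of `S` is
  `Σ_w f_w • d (cw w)` modulo level-`S` coboundaries;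
* (PRIN) `Σ_w ord_w(a) • d (cw w)` is a level-`S` coboundary for every `a ∈ Kˣ`.

Then `ker loc²` of the Poitou–Tate context `ctxS p S hpS lam` has dimension `≤ ρ`, where
`p ^ ρ = [Cl_K : Cl_K^p ⊔ ⟨S_K⟩]` (`c4_of_family`); the same bound holds for every module
isomorphic to `N` (`c4_of_family_iso`), e.g. the twisted dual when `N = M0(K)`, `μ_p ⊂ K`.
-/

set_option autoImplicit false

open scoped NumberField
open IsDedekindDomain groupCohomology ExtCitation CategoryTheory

namespace Fermat.Agent.CFT.Count.C4Bound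

open Fermat.Agent.S55.Abs Fermat.Agent.S55.Abs.TopGlue Module
open Fermat.Agent.CFT.Global.CountV Fermat.Agent.CFT.Count.C4K Fermat.Agent.CFT.Count.C4Gen
open Fermat.Agent.CFT.Global.SelmerCount

variable {p : ℕ} [Fact p.Prime] (S : Finset Nat.Primes) (hpS : pPrime p ∈ S) (lam : LamS p S)
  (K : IntermediateField ℚ (AlgebraicClosure ℚ)) [NumberField K]
  {N : Rep.{0} (ZMod p) GQ}
  (pl : Outside (SK S K) → Nat.Primes) (cw : Outside (SK S K) → GQ → N)

/-- (A) gives: `d (cw w)` is a local level coboundary at every place of `S`. -/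
theorem res_d_mem_B2 (hA : ∀ w, cw w ∈ C1 (globalLevel (insert (pl w) S)) N)
    (w : Outside (SK S K)) (v : (ctxS p S hpS lam).ι) :
    res₂ (ctxS p S hpS lam).loc N v ((d₁₂ N).hom (cw w)) ∈
      B2 ((ctxS p S hpS lam).𝒰v v) (Rep.res ((ctxS p S hpS lam).loc v) N) :=
  res₂_mem_B2 (globalLevel (insert (pl w) S)) (fun q : ↥S => primeLocalToGlobal q.1)
    (fun q : ↥S => localLevel (primeLocalToGlobal q.1))
    (fun q => isLevelMap_localLevel (primeLocalToGlobal q.1) (insert (pl w) S)) N v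
    ⟨cw w, hA w, rfl⟩

/-- The generation hypothesis (c4-a), for the family `cw`. -/
def Generation : Prop :=
  ∀ a ∈ Z2 (globalLevel S) N,
    (∀ v : ↥S, res₂ (fun q : ↥S => primeLocalToGlobal q.1) N v a ∈
        B2 (localLevel (primeLocalToGlobal v.1)) (Rep.res (primeLocalToGlobal v.1) N)) →
      ∃ f : Outside (SK S K) →₀ ZMod p,
        a - Finsupp.linearCombination (ZMod p) (fun w => (d₁₂ N).hom (cw w)) f ∈
          B2 (globalLevel S) N

/-- The principality hypothesis (c4-b), for the family `cw`. -/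
def Principal : Prop :=
  ∀ a : Kˣ, ((dv p S K a).sum fun w n => n • (d₁₂ N).hom (cw w)) ∈ B2 (globalLevel S) N

variable {S K pl cw}

/-- **(c4), cone form**, for `ctxS p S hpS lam` and any module carrying a family with (A), (a),
(GEN), (PRIN). -/
theorem c4_of_family
    (hA : ∀ w, cw w ∈ C1 (globalLevel (insert (pl w) S)) N)
    (ha : ∀ w, (d₁₂ N).hom (cw w) ∈ C2 (globalLevel S) N)
    (hgen : Generation S K cw) (hprin : Principal S K cw)
    {ρ : ℕ} (hρ : (clS (𝓞 K) p (SK S K)).index = p ^ ρ) :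
    FiniteDimensional (ZMod p) ↥(LinearMap.ker (loc2 (ctxS p S hpS lam) N)) ∧
      finrank (ZMod p) ↥(LinearMap.ker (loc2 (ctxS p S hpS lam) N)) ≤ ρ := by
  obtain ⟨hfd, hrk⟩ := finrank_P0_quot (p := p) (S := S) (K := K) hρ
  have key := finrank_ker_loc2_le (ctxS p S hpS lam) (N := N) (c := cw) ha
    (res_d_mem_B2 S hpS lam K pl cw hA) (ordP p S K)
    (fun a ha hloc => hgen a ha hloc)
    (fun γ => by
      obtain ⟨a, ha⟩ := exists_dv_eq_ordP γ
      rw [ha]
      exact hprin a)
  rw [hrk] at key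
  exact key

/-- **(c4), cone form, for a module isomorphic to `N`** (e.g. the twisted dual). -/
theorem c4_of_family_iso {N' : Rep.{0} (ZMod p) GQ} (φ : N ⟶ N') (ψ : N' ⟶ N)
    (hφψ : ∀ y : N', φ.hom (ψ.hom y) = y)
    (hA : ∀ w, cw w ∈ C1 (globalLevel (insert (pl w) S)) N)
    (ha : ∀ w, (d₁₂ N).hom (cw w) ∈ C2 (globalLevel S) N)
    (hgen : Generation S K cw) (hprin : Principal S K cw)
    {ρ : ℕ} (hρ : (clS (𝓞 K) p (SK S K)).index = p ^ ρ) :
    FiniteDimensional (ZMod p) ↥(LinearMap.ker (loc2 (ctxS p S hpS lam) N')) ∧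
      finrank (ZMod p) ↥(LinearMap.ker (loc2 (ctxS p S hpS lam) N')) ≤ ρ := by
  obtain ⟨hfd, hrk⟩ := finrank_P0_quot (p := p) (S := S) (K := K) hρ
  have key := finrank_ker_loc2_le_of_iso (ctxS p S hpS lam) φ ψ hφψ (c := cw) ha
    (res_d_mem_B2 S hpS lam K pl cw hA) (ordP p S K)
    (fun a ha hloc => hgen a ha hloc)
    (fun γ => by
      obtain ⟨a, ha⟩ := exists_dv_eq_ordP γ
      rw [ha]
      exact hprin a)
  rw [hrk] at key
  exact key

end Fermat.Agent.CFT.Count.C4Bound
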