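import Fermat.Agent.CFT.Count.C4Bound
import Fermat.Agent.CFT.Global.CountAbs

/-!
# COUNT (c4) and (c4') for `M0(K)`, in the shapes of `AsmCone.base_of_arith`

`N = M0 (ZMod p) K.fixingSubgroup`, `μ_p ⊂ K`.  The self-duality `N ≅ N^∨(1)`
(`CountAbs.dualEquiv`) as a pair of morphisms of representations (`toDual`, `ofDual`), and the
bound `dim ker loc² ≤ ρ` for `N` and for `N' = D.dual N` from ONE family of capitulation
cochains of `N` with (A), (a), (GEN), (PRIN) (`c4_M0`): nothing has to be transported by the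
producers of (GEN) and (PRIN).
-/

set_option autoImplicit false

open scoped NumberField
open IsDedekindDomain groupCohomology ExtCitation CategoryTheory

namespace Fermat.Agent.CFT.Count.C4Dual

open Fermat.Agent.S55.Abs Fermat.Agent.S55.Abs.TopGlue Module
open Fermat.Agent.CFT.Global.CountV Fermat.Agent.CFT.Count.C4K Fermat.Agent.CFT.Count.C4Bound
open Fermat.Agent.CFT.Global.SelmerCount Fermat.Agent.CFT.Global.CountAbs

variable {p : ℕ} [Fact p.Prime] (K : IntermediateField ℚ (AlgebraicClosure ℚ))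
  [FiniteDimensional ℚ K] (hcyc : Fermat.Agent.S55.Glue.cycloField p ≤ K)

/-- `M0(K) ⟶ M0(K)^∨(1)`, the self-duality as a morphism of representations. -/
noncomputable def toDual :
    M0 (ZMod p) K.fixingSubgroup ⟶ (M0 (ZMod p) K.fixingSubgroup).dualTwist (cycloChar p) :=
  Rep.ofHom (LinearMap.intertwiningMap_of_isIntertwiningMap
    (M0 (ZMod p) K.fixingSubgroup).ρ ((M0 (ZMod p) K.fixingSubgroup).dualTwist (cycloChar p)).ρ
    (dualEquiv K hcyc).toLinearMap (fun g m => dualEquiv_ρ K hcyc g m))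

/-- `M0(K)^∨(1) ⟶ M0(K)`, the inverse of `toDual`. -/
noncomputable def ofDual :
    (M0 (ZMod p) K.fixingSubgroup).dualTwist (cycloChar p) ⟶ M0 (ZMod p) K.fixingSubgroup :=
  Rep.ofHom (LinearMap.intertwiningMap_of_isIntertwiningMap
    ((M0 (ZMod p) K.fixingSubgroup).dualTwist (cycloChar p)).ρ (M0 (ZMod p) K.fixingSubgroup).ρ
    (dualEquiv K hcyc).symm.toLinearMap (fun g m => by
      apply (dualEquiv K hcyc).injective
      have h := dualEquiv_ρ K hcyc g ((dualEquiv K hcyc).symm m)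
      rw [LinearEquiv.apply_symm_apply] at h
      show dualEquiv K hcyc ((dualEquiv K hcyc).symm _) = dualEquiv K hcyc _
      rw [LinearEquiv.apply_symm_apply]
      exact h.symm))

theorem toDual_hom_apply (m : M0 (ZMod p) K.fixingSubgroup) :
    (toDual K hcyc).hom m = dualEquiv K hcyc m := rfl

theorem ofDual_hom_apply (y : (M0 (ZMod p) K.fixingSubgroup).dualTwist (cycloChar p)) :
    (ofDual K hcyc).hom y = (dualEquiv K hcyc).symm y := rfl

theorem toDual_ofDual (y : (M0 (ZMod p) K.fixingSubgroup).dualTwist (cycloChar p)) :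
    (toDual K hcyc).hom ((ofDual K hcyc).hom y) = y := by
  rw [toDual_hom_apply, ofDual_hom_apply]
  exact (dualEquiv K hcyc).apply_symm_apply y

theorem ofDual_toDual (m : M0 (ZMod p) K.fixingSubgroup) :
    (ofDual K hcyc).hom ((toDual K hcyc).hom m) = m := by
  rw [toDual_hom_apply, ofDual_hom_apply]
  exact (dualEquiv K hcyc).symm_apply_apply m

omit hcyc

variable {K} [NumberField K] (S : Finset Nat.Primes) (hpS : pPrime p ∈ S) (lam : LamS p S)
  {pl : Outside (SK S K) → Nat.Primes}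
  {cw : Outside (SK S K) → GQ → M0 (ZMod p) K.fixingSubgroup}

/-- **(c4) and (c4')** for `M0(K)`, `μ_p ⊂ K`, in the literal shapes of
`AsmCone.base_of_arith` (with `c = ρ`), from one capitulation family of `M0(K)`. -/
theorem c4_M0 (hcyc : Fermat.Agent.S55.Glue.cycloField p ≤ K)
    (hA : ∀ w, cw w ∈ C1 (globalLevel (insert (pl w) S)) (M0 (ZMod p) K.fixingSubgroup))
    (ha : ∀ w, (d₁₂ (M0 (ZMod p) K.fixingSubgroup)).hom (cw w) ∈
      C2 (globalLevel S) (M0 (ZMod p) K.fixingSubgroup))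
    (hgen : Generation S K cw) (hprin : Principal S K cw)
    {ρ : ℕ} (hρ : (clS (𝓞 K) p (SK S K)).index = p ^ ρ) :
    FiniteDimensional (ZMod p)
        ↥(LinearMap.ker (loc2 (ctxS p S hpS lam) (M0 (ZMod p) K.fixingSubgroup))) ∧
      FiniteDimensional (ZMod p)
        ↥(LinearMap.ker (loc2 (ctxS p S hpS lam)
          ((ctxS p S hpS lam).dual (M0 (ZMod p) K.fixingSubgroup)))) ∧
      finrank (ZMod p)
        ↥(LinearMap.ker (loc2 (ctxS p S hpS lam) (M0 (ZMod p) K.fixingSubgroup))) ≤ ρ ∧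
      finrank (ZMod p)
        ↥(LinearMap.ker (loc2 (ctxS p S hpS lam)
          ((ctxS p S hpS lam).dual (M0 (ZMod p) K.fixingSubgroup)))) ≤ ρ := by
  have h1 := c4_of_family hpS lam hA ha hgen hprin hρ
  have h2 := c4_of_family_iso hpS lam (toDual K hcyc) (ofDual K hcyc) (toDual_ofDual K hcyc)
    hA ha hgen hprin hρ
  exact ⟨h1.1, h2.1, h1.2, h2.2⟩

end Fermat.Agent.CFT.Count.C4Dual
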