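import Fermat.Agent.S55.Abs.TopGlue

/-!
# COUNT (c4), cone form: the generic bound `dim ker loc² ≤ dim coker ord`

`D` a Poitou–Tate context, `N` a module, `c : W → (G → N)` a family of `1`-cochains whose
coboundaries are level cochains and locally coboundaries (so `[d c_w] ∈ ker loc² ⊆ H²(G, N)`), and
`ord : Γ → (W →₀ k)` linear.  If

* (GEN)  every level `2`-cocycle `a` which is locally a coboundary is
  `Σ_w e_w • d c_w` modulo level coboundaries, for some `e : W →₀ k`;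
* (PRIN) `Σ_w (ord γ)_w • d c_w` is a level coboundary for every `γ`,

then `ker loc²` is finite-dimensional of dimension `≤ dim (W →₀ k) ⧸ range ord`
(`finrank_ker_loc2_le`).  Both properties are transported along an isomorphism of modules
(`gen_of_iso`, `prin_of_iso`, `loc_of_iso`), so the bound for the twisted dual follows from the
bound for `N ≅ N'`.
-/

set_option autoImplicit false

open CategoryTheory groupCohomology

namespace Fermat.Agent.CFT.Count.C4Gen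

open Fermat.Agent.S55.Abs Fermat.Agent.S55.Abs.TopGlue Module

variable {k G : Type} [Field k] [Group G] (D : PTContext k G) (N : Rep.{0} k G)
  {W : Type} (c : W → G → N)

/-- `Σ_w e_w • d c_w`. -/
noncomputable def dsum : (W →₀ k) →ₗ[k] (G × G → N) :=
  Finsupp.linearCombination k (fun w => (d₁₂ N).hom (c w))

theorem dsum_single (w : W) (x : k) :
    dsum N c (Finsupp.single w x) = x • (d₁₂ N).hom (c w) := by
  simp [dsum]

variable {N c}

theorem dsum_mem_Z2 (hc : ∀ w, (d₁₂ N).hom (c w) ∈ C2 D.𝒰 N) (e : W →₀ k) :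
    dsum N c e ∈ Z2 D.𝒰 N := by
  refine Submodule.finsuppSum_mem _ _ _ _ fun w _ => Submodule.smul_mem _ _ ⟨hc w, ?_⟩
  exact coboundaries₂_le_cocycles₂ N ⟨c w, rfl⟩

theorem res_dsum_mem_B2
    (hcl : ∀ w v, res₂ D.loc N v ((d₁₂ N).hom (c w)) ∈ B2 (D.𝒰v v) (Rep.res (D.loc v) N))
    (e : W →₀ k) (v : D.ι) :
    res₂ D.loc N v (dsum N c e) ∈ B2 (D.𝒰v v) (Rep.res (D.loc v) N) := by
  unfold dsum
  rw [Finsupp.linearCombination_apply, map_finsuppSum]
  refine Submodule.finsuppSum_mem _ _ _ _ fun w _ => ?_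
  rw [map_smul]
  exact Submodule.smul_mem _ _ (hcl w v)

/-- `loc² [a] = 0` iff `a` is locally a coboundary. -/
theorem loc2_mk_eq_zero_iff (a : ↥(Z2 D.𝒰 N)) :
    loc2 D N (Submodule.Quotient.mk a) = 0 ↔
      ∀ v, res₂ D.loc N v a.1 ∈ B2 (D.𝒰v v) (Rep.res (D.loc v) N) := by
  constructor
  · intro h v
    have h1 : H2res D.𝒰 D.loc D.𝒰v D.hloc N v (Submodule.Quotient.mk a) = 0 := congrFun h v
    rw [H2res, subquotMap_mk, Submodule.Quotient.mk_eq_zero] at h1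
    exact h1
  · intro h
    funext v
    show H2res D.𝒰 D.loc D.𝒰v D.hloc N v (Submodule.Quotient.mk a) = 0
    rw [H2res, subquotMap_mk, Submodule.Quotient.mk_eq_zero]
    exact h v

/-- **(c4), cone form, generic.** -/
theorem finrank_ker_loc2_le
    (hc : ∀ w, (d₁₂ N).hom (c w) ∈ C2 D.𝒰 N)
    (hcl : ∀ w v, res₂ D.loc N v ((d₁₂ N).hom (c w)) ∈ B2 (D.𝒰v v) (Rep.res (D.loc v) N))
    {Γ : Type*} [AddCommGroup Γ] [Module k Γ] (ord : Γ →ₗ[k] (W →₀ k))
    (hgen : ∀ a ∈ Z2 D.𝒰 N,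
      (∀ v, res₂ D.loc N v a ∈ B2 (D.𝒰v v) (Rep.res (D.loc v) N)) →
        ∃ e : W →₀ k, a - dsum N c e ∈ B2 D.𝒰 N)
    (hprin : ∀ γ : Γ, dsum N c (ord γ) ∈ B2 D.𝒰 N)
    [FiniteDimensional k ((W →₀ k) ⧸ LinearMap.range ord)] :
    FiniteDimensional k ↥(LinearMap.ker (loc2 D N)) ∧
      finrank k ↥(LinearMap.ker (loc2 D N)) ≤ finrank k ((W →₀ k) ⧸ LinearMap.range ord) := by
  classical
  -- the map `e ↦ [Σ e_w d c_w]`
  let ζ : (W →₀ k) →ₗ[k] ↥(Z2 D.𝒰 N) :=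
    LinearMap.codRestrict (Z2 D.𝒰 N) (dsum N c) (dsum_mem_Z2 D hc)
  let θ' : (W →₀ k) →ₗ[k] H2 D.𝒰 N := (Submodule.mkQ _).comp ζ
  have hθ' : ∀ e, θ' e ∈ LinearMap.ker (loc2 D N) := by
    intro e
    rw [LinearMap.mem_ker]
    exact (loc2_mk_eq_zero_iff D (ζ e)).2 (res_dsum_mem_B2 D hcl e)
  let θ : (W →₀ k) →ₗ[k] ↥(LinearMap.ker (loc2 D N)) :=
    LinearMap.codRestrict (LinearMap.ker (loc2 D N)) θ' hθ'
  have hle : LinearMap.range ord ≤ LinearMap.ker θ := by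
    rintro _ ⟨γ, rfl⟩
    rw [LinearMap.mem_ker]
    apply Subtype.ext
    show θ' (ord γ) = 0
    show Submodule.Quotient.mk (ζ (ord γ)) = 0
    rw [Submodule.Quotient.mk_eq_zero]
    exact hprin γ
  have hs : Function.Surjective ((LinearMap.range ord).liftQ θ hle) := by
    rintro ⟨x, hx⟩
    obtain ⟨a, rfl⟩ := Submodule.mkQ_surjective _ x
    have hloc := (loc2_mk_eq_zero_iff D a).1 (LinearMap.mem_ker.1 hx)
    obtain ⟨e, he⟩ := hgen a.1 a.2 hloc
    refine ⟨Submodule.Quotient.mk e, ?_⟩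
    apply Subtype.ext
    show θ' e = Submodule.Quotient.mk a
    show Submodule.Quotient.mk (ζ e) = Submodule.Quotient.mk a
    rw [eq_comm, Submodule.Quotient.eq]
    exact he
  exact ⟨Module.Finite.of_surjective _ hs, LinearMap.finrank_le_finrank_of_surjective hs⟩

/-! ### Transport along an isomorphism of modules -/

section Iso

variable {N' : Rep.{0} k G} (φ : N ⟶ N') (ψ : N' ⟶ N)

theorem dsum_cmap (c : W → G → N) (e : W →₀ k) :
    dsum N' (fun w => cmap₁ φ (c w)) e = cmap₂ φ (dsum N c e) := by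
  unfold dsum
  rw [Finsupp.linearCombination_apply, Finsupp.linearCombination_apply, map_finsuppSum]
  refine Finsupp.sum_congr fun w _ => ?_
  rw [map_smul, cmap₂_d₁₂]

/-- Local coboundaries are preserved by push-forward along a morphism. -/
theorem res_cmap₂_mem_B2 (v : D.ι) {x : G × G → N}
    (h : res₂ D.loc N v x ∈ B2 (D.𝒰v v) (Rep.res (D.loc v) N)) :
    res₂ D.loc N' v (cmap₂ φ x) ∈ B2 (D.𝒰v v) (Rep.res (D.loc v) N') := by
  obtain ⟨t, ht, hd⟩ := h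
  refine ⟨fun g => φ.hom (t g), ht.comp _, ?_⟩
  funext ⟨g, h⟩
  have h1 := congrFun hd (g, h)
  simp only [d₁₂_hom_apply, res₂_apply, cmap₂_apply] at h1 ⊢
  rw [← h1]
  simp [Rep.hom_comm_apply]

/-- **(c4), cone form, for a module isomorphic to `N`.** -/
theorem finrank_ker_loc2_le_of_iso
    (hφψ : ∀ y : N', φ.hom (ψ.hom y) = y)
    (hc : ∀ w, (d₁₂ N).hom (c w) ∈ C2 D.𝒰 N)
    (hcl : ∀ w v, res₂ D.loc N v ((d₁₂ N).hom (c w)) ∈ B2 (D.𝒰v v) (Rep.res (D.loc v) N))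
    {Γ : Type*} [AddCommGroup Γ] [Module k Γ] (ord : Γ →ₗ[k] (W →₀ k))
    (hgen : ∀ a ∈ Z2 D.𝒰 N,
      (∀ v, res₂ D.loc N v a ∈ B2 (D.𝒰v v) (Rep.res (D.loc v) N)) →
        ∃ e : W →₀ k, a - dsum N c e ∈ B2 D.𝒰 N)
    (hprin : ∀ γ : Γ, dsum N c (ord γ) ∈ B2 D.𝒰 N)
    [FiniteDimensional k ((W →₀ k) ⧸ LinearMap.range ord)] :
    FiniteDimensional k ↥(LinearMap.ker (loc2 D N')) ∧
      finrank k ↥(LinearMap.ker (loc2 D N')) ≤ finrank k ((W →₀ k) ⧸ LinearMap.range ord) := by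
  refine finrank_ker_loc2_le D (N := N') (c := fun w => cmap₁ φ (c w)) ?_ ?_ ord ?_ ?_
  · intro w
    rw [← cmap₂_d₁₂]
    exact (hc w).comp _
  · intro w v
    rw [← cmap₂_d₁₂]
    exact res_cmap₂_mem_B2 D φ v (hcl w v)
  · intro a' ha' hloc'
    obtain ⟨e, he⟩ := hgen (cmap₂ ψ a') (cmap₂_mem_Z2 ψ ha')
      (fun v => res_cmap₂_mem_B2 D ψ v (hloc' v))
    refine ⟨e, ?_⟩
    have h1 : a' - dsum N' (fun w => cmap₁ φ (c w)) e = cmap₂ φ (cmap₂ ψ a' - dsum N c e) := by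
      rw [dsum_cmap, map_sub]
      congr 1
      funext x
      simp [hφψ]
    rw [h1]
    exact cmap₂_mem_B2 φ he
  · intro γ
    rw [dsum_cmap]
    exact cmap₂_mem_B2 φ (hprin γ)

end Iso

end Fermat.Agent.CFT.Count.C4Gen
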