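import Fermat.Agent.CFT.Count.Unr3W
import Fermat.Agent.S55.Base.BaseCase
import Fermat.Agent.S55.Shapiro.AdapterHPQC4

/-!
# COUNT (c4) for `M0(K)`: the instance (row 286), and the base case without (c4) inputs

`K ≤ Qb` a number field unramified outside `S ∋ p`, `μ_p ⊂ K`, `p` odd,
`M = M0 (ZMod p) G_K`, `D = ctxS p S hpS I.lamS` for an arithmetic input `I`.

* `finrank_ker_loc2_M0` : `dim ker loc²(M) ≤ ρ`, where `p ^ ρ = [Cl_K : Cl_K^p ⊔ ⟨S_K⟩]`
  (the `hc4` of `AsmCone.base_of_arith` / `ConeSymmQ.base_of_counts_selfdual`).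
  Inputs, all landed: the cone form `BaseCase.finrank_ker_loc2_le` (helper185) with
  `Hasse` = `AdapterHPQ.c4_hasse_M0` (helper236), the family `C4Principal.thetaFam` with
  `Kill` = `C4Principal.kill` (helper257), `Gen` = `Unr3W.gen_thetaFam` (on helper196's (G*)),
  and `C4K.finrank_P0_quot`.
* `baseAt_of_local` : `BaseCase.baseAt_of_inputs` with the five (c4) inputs discharged.
-/

set_option autoImplicit false

open scoped NumberField
open CategoryTheory groupCohomology ExtCitation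

namespace Fermat.Agent.CFT.Count.C4Inst

open Fermat.Agent.S55 Fermat.Agent.S55.Abs Fermat.Agent.S55.Abs.TopGlue Fermat.Agent.S55.Shapiro
open Fermat.Agent.S55.Base Fermat.Agent.S55.Base.EvalQ Fermat.Agent.S55.Base.C4Principal
open Fermat.Agent.CFT.Global.CountV Fermat.Agent.CFT.Count.C4K Fermat.Agent.CFT.Count.Unr3W
open Fermat.Agent.CFT.Global.SelmerCount Module

variable {p : ℕ} [Fact p.Prime] {S : Finset Nat.Primes}

/-- **(c4) for `M0(K)`**: `dim ker loc² ≤ ρ`. -/
theorem finrank_ker_loc2_M0 (I : ArithInput p S) (hpS : pPrime p ∈ S) (hp2 : p ≠ 2)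
    (K : IntermediateField ℚ (AlgebraicClosure ℚ)) [NumberField K]
    (hK : K.IsUnramifiedOutside S) (hcyc : Glue.cycloField p ≤ K)
    {ρ : ℕ} (hρ : (clS (𝓞 K) p (SK S K)).index = p ^ ρ) :
    FiniteDimensional (ZMod p)
        (LinearMap.ker (loc2 (ctxS p S hpS I.lamS) (M0 (ZMod p) K.fixingSubgroup))) ∧
      finrank (ZMod p)
        (LinearMap.ker (loc2 (ctxS p S hpS I.lamS) (M0 (ZMod p) K.fixingSubgroup))) ≤ ρ := by
  obtain ⟨ζ, hζ⟩ := Fermat.Agent.CFT.Global.CountAbs.exists_primitiveRoot_of_cycloField_le K hcyc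
  obtain ⟨F⟩ := nonempty_ufam p S K ζ hζ
  obtain ⟨R⟩ := Retr.nonempty K.fixingSubgroup
  have hM := Wire.disc_M0 p hK
  obtain ⟨hfd, hrk⟩ := finrank_P0_quot (p := p) (S := S) (K := K) hρ
  have key := @BaseCase.finrank_ker_loc2_le p _ S I hpS _ hM
    (AdapterHPQ.c4_hasse_M0 I hp2 hpS K hK hcyc)
    (thetaFam I hpS hK hζ F R) (gen_thetaFam I hpS hK hζ F R) (LinearMap.range (ordP p S K))
    (kill I hpS hK hζ F R) hfd
  have h1 := key.1
  have h2 : finrank (ZMod p)
      (LinearMap.ker (loc2 (ctxS p S hpS I.lamS) (M0 (ZMod p) K.fixingSubgroup)))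
      ≤ finrank (ZMod p) (P0 p S K ⧸ LinearMap.range (ordP p S K)) := key.2
  exact ⟨h1, h2.trans hrk.le⟩

/-- **The base case for `M0(K)`** from the local-duality / capitulation / G4 inputs alone: the
(c4) inputs of `BaseCase.baseAt_of_inputs` are discharged. -/
theorem baseAt_of_local (I : ArithInput p S) (hpS : pPrime p ∈ S) (hp2 : p ≠ 2)
    (K : IntermediateField ℚ (AlgebraicClosure ℚ)) [NumberField K]
    (hK : K.IsUnramifiedOutside S) (hc : Glue.cycloField p ≤ K)
    (hLocR : ConeKer.LocRight I.datum (evPairing (cycloChar p) (M0 (ZMod p) K.fixingSubgroup)))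
    (hLoc2 : ConeKer.Loc2 I.datum (evPairing (cycloChar p) (M0 (ZMod p) K.fixingSubgroup)))
    (hCap : ConeKer.CapGen I.datum (M0 (ZMod p) K.fixingSubgroup))
    (hG4 : ConeKer.G4 I.datum ((M0 (ZMod p) K.fixingSubgroup).dualTwist (cycloChar p))) :
    Wire.BaseAt p S hpS I.lamS K := by
  obtain ⟨ζ, hζ⟩ := Fermat.Agent.CFT.Global.CountAbs.exists_primitiveRoot_of_cycloField_le K hc
  obtain ⟨F⟩ := nonempty_ufam p S K ζ hζ
  obtain ⟨R⟩ := Retr.nonempty K.fixingSubgroup
  exact BaseCase.baseAt_of_inputs I hpS hp2 K hK hc hLocR hLoc2 hCap hG4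
    (AdapterHPQ.c4_hasse_M0 I hp2 hpS K hK hc) (thetaFam I hpS hK hζ F R)
    (gen_thetaFam I hpS hK hζ F R) (LinearMap.range (ordP p S K)) (kill I hpS hK hζ F R)
    (fun ρ hρ => ⟨(finrank_P0_quot (p := p) (S := S) (K := K) hρ).1,
      (finrank_P0_quot (p := p) (S := S) (K := K) hρ).2.le⟩)

end Fermat.Agent.CFT.Count.C4Inst
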