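/-
COUNT (C-FR): `𝔽_p`-finrank forms of the counts of the base case.

* `finrank_eq_of_card_eq_pow`: a `ZMod p`-module of cardinality `p ^ n` has finrank `n`.
* `count_h5`: for a number field `K ∋ ζ_p`, `p` odd, `S` a finite set of primes of `𝓞 K`, and ANY
  `ZMod p`-modules `V`, `C`, `P` with `|V| = |K⟮S,p⟯|` (the Selmer/Kummer group `H¹(G_S, μ_p)`),
  `|C| = [Cl : Cl^p ⊔ ⟨S⟩]` (`Cl_S/p`) and `|P| = p ^ (2|S| + [K:ℚ])` (`⊕_{w ∈ S} K_w^×/p`):
  `finrank P + 2 * finrank C = 2 * finrank V` — the numeric hypothesis `h5` of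
  `Fermat.Agent.S55.Base.idele_la`.
-/
import Mathlib
import Fermat.Agent.CFT.Global.SelmerGroupCard

set_option autoImplicit false

namespace Fermat.Agent.CFT.Count

open Module IsDedekindDomain NumberField Fermat.Agent.CFT.Global.IndexLattice
  Fermat.Agent.CFT.Global.SelmerCount Fermat.Agent.CFT.Global.SelmerGroupCard

section Generic

variable {p : ℕ} [hp : Fact p.Prime]

theorem finite_of_card_eq_prime_pow {V : Type*} {n : ℕ} (h : Nat.card V = p ^ n) : Finite V :=
  Nat.finite_of_card_ne_zero (by rw [h]; exact pow_ne_zero _ hp.out.ne_zero)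

/-- A `ZMod p`-module with `p ^ n` elements has dimension `n`. -/
theorem finrank_eq_of_card_eq_pow {V : Type*} [AddCommGroup V] [Module (ZMod p) V] {n : ℕ}
    (h : Nat.card V = p ^ n) : finrank (ZMod p) V = n := by
  have := finite_of_card_eq_prime_pow h
  have h1 : Nat.card V = Nat.card (ZMod p) ^ finrank (ZMod p) V :=
    Module.natCard_eq_pow_finrank (K := ZMod p)
  rw [Nat.card_zmod, h] at h1
  exact (Nat.pow_right_injective hp.out.two_le h1).symm

theorem finiteDimensional_of_card_eq_pow {V : Type*} [AddCommGroup V] [Module (ZMod p) V] {n : ℕ}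
    (h : Nat.card V = p ^ n) : FiniteDimensional (ZMod p) V := by
  have := finite_of_card_eq_prime_pow h
  exact Module.Finite.of_finite

/-- A finite `ZMod p`-module has `p ^ finrank` elements (`Nat.card` form). -/
theorem card_eq_pow_finrank_zmod (V : Type*) [AddCommGroup V] [Module (ZMod p) V] [Finite V] :
    Nat.card V = p ^ finrank (ZMod p) V := by
  have h1 : Nat.card V = Nat.card (ZMod p) ^ finrank (ZMod p) V :=
    Module.natCard_eq_pow_finrank (K := ZMod p)
  rwa [Nat.card_zmod] at h1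

end Generic

section NumberField

variable (K : Type*) [Field K] [NumberField K]

/-- **The count of the base case, consumer form.**  `K ∋ ζ_p`, `p` odd, `S` a finite set of primes
of `𝓞 K`.  For `ZMod p`-modules `V`, `C`, `P` of the cardinalities of `H¹(G_S, μ_p) = K⟮S,p⟯`,
`Cl_S/p` and `⊕_{w ∈ S} K_w^×/p`:
`dim V = |S| + r₂ + dim C`, `dim P = 2|S| + 2 r₂`, hence `dim P + 2 dim C = 2 dim V`. -/
theorem count_h5 (p : ℕ) [hp : Fact p.Prime] (hp2 : p ≠ 2) {ζ : K} (hζ : IsPrimitiveRoot ζ p)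
    (S : Finset (HeightOneSpectrum (𝓞 K)))
    {V C P : Type*} [AddCommGroup V] [Module (ZMod p) V] [AddCommGroup C] [Module (ZMod p) C]
    [AddCommGroup P] [Module (ZMod p) P]
    (hV : Nat.card V = Nat.card (selmerGroup (R := 𝓞 K) (K := K)
      (S := (S : Set (HeightOneSpectrum (𝓞 K)))) (n := p)))
    (hC : Nat.card C = (clS (𝓞 K) p S).index)
    (hP : Nat.card P = p ^ (2 * S.card + Module.finrank ℚ K)) :
    FiniteDimensional (ZMod p) V ∧ FiniteDimensional (ZMod p) C ∧ FiniteDimensional (ZMod p) P ∧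
    finrank (ZMod p) V = S.card + InfinitePlace.nrComplexPlaces K + finrank (ZMod p) C ∧
    finrank (ZMod p) P = 2 * S.card + 2 * InfinitePlace.nrComplexPlaces K ∧
    finrank (ZMod p) P + 2 * finrank (ZMod p) C = 2 * finrank (ZMod p) V := by
  obtain ⟨ρ, hρ, hsel⟩ := exists_card_selmerGroup_eq_pow K p hp2 hζ S
  have h2 : 2 < p := lt_of_le_of_ne hp.out.two_le (Ne.symm hp2)
  have hdeg := (rank_add_one_eq_nrComplexPlaces K h2 hζ).2
  rw [hsel] at hV
  rw [hρ] at hC
  have fV := finrank_eq_of_card_eq_pow hV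
  have fC := finrank_eq_of_card_eq_pow hC
  have fP := finrank_eq_of_card_eq_pow hP
  refine ⟨finiteDimensional_of_card_eq_pow hV, finiteDimensional_of_card_eq_pow hC,
    finiteDimensional_of_card_eq_pow hP, ?_, ?_, ?_⟩
  · rw [fV, fC]; ring
  · rw [fP, hdeg]
  · rw [fP, fC, fV, hdeg]; ring

/-- The same with `V` counted against the subgroup `selS K p S ≤ Kˣ` of helper287's
`SelmerCount` (`Nat.card V = [selS : (Kˣ)^p]`). -/
theorem count_h5' (p : ℕ) [hp : Fact p.Prime] (hp2 : p ≠ 2) {ζ : K} (hζ : IsPrimitiveRoot ζ p)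
    (S : Finset (HeightOneSpectrum (𝓞 K)))
    {V C P : Type*} [AddCommGroup V] [Module (ZMod p) V] [AddCommGroup C] [Module (ZMod p) C]
    [AddCommGroup P] [Module (ZMod p) P]
    (hV : Nat.card V = (powSub Kˣ p).relIndex (selS K p S))
    (hC : Nat.card C = (clS (𝓞 K) p S).index)
    (hP : Nat.card P = p ^ (2 * S.card + Module.finrank ℚ K)) :
    FiniteDimensional (ZMod p) V ∧ FiniteDimensional (ZMod p) C ∧ FiniteDimensional (ZMod p) P ∧
    finrank (ZMod p) V = S.card + InfinitePlace.nrComplexPlaces K + finrank (ZMod p) C ∧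
    finrank (ZMod p) P = 2 * S.card + 2 * InfinitePlace.nrComplexPlaces K ∧
    finrank (ZMod p) P + 2 * finrank (ZMod p) C = 2 * finrank (ZMod p) V :=
  count_h5 K p hp2 hζ S (by rw [hV, card_selmerGroup K p hp.out.ne_zero S]) hC hP

end NumberField

end Fermat.Agent.CFT.Count
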