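/-
COUNT (C-CL): the `S`-class group modulo `p` as "divisors outside `S` modulo `p` modulo principal
divisors".

`R` a Dedekind domain with fraction field `K`, `S` a finite set of primes, `P := {v // v ∉ S}`.
The map `divModHom K p S : Kˣ → (P →₀ ZMod p)`, `a ↦ (ord_v a mod p)_{v ∉ S}`, has cokernel of
cardinality `[Cl : Cl^p ⊔ ⟨S⟩] = (clS R p S).index`.  Consumer form (`finrank_quotient_range_ord`):
for any `ZMod p`-linear `ord : Γ → (P →₀ ZMod p)` with the same range, the cokernel has
`finrank = ρ` where `p ^ ρ = (clS R p S).index`.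
-/
import Mathlib
import Fermat.Agent.CFT.Global.SelmerGroupCard
import Fermat.Agent.CFT.Count.Finrank

set_option autoImplicit false

namespace Fermat.Agent.CFT.Count

open IsDedekindDomain FractionalIdeal Module Fermat.Agent.CFT.Global.IndexLattice
  Fermat.Agent.CFT.Global.SelmerCount Fermat.Agent.CFT.Global.SelmerGroupCard
open scoped nonZeroDivisors

section ClassQuot

variable {R : Type*} [CommRing R] [IsDedekindDomain R] (K : Type*) [Field K] [Algebra R K]
  [IsFractionRing R K]

/-- The primes outside `S`. -/
abbrev Outside (S : Finset (HeightOneSpectrum R)) : Type _ :=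
  {v : HeightOneSpectrum R // v ∉ S}

theorem finite_support_countMod (p : ℕ) (S : Finset (HeightOneSpectrum R))
    (I : (FractionalIdeal R⁰ K)ˣ) :
    (Function.support fun v : Outside S =>
      ((count K v.1 (I : FractionalIdeal R⁰ K) : ℤ) : ZMod p)).Finite := by
  have h0 := finite_factors (I : FractionalIdeal R⁰ K)
  rw [Filter.eventually_cofinite] at h0
  refine Set.Finite.subset (h0.preimage Subtype.val_injective.injOn) ?_
  intro v hv
  simp only [Function.mem_support] at hv
  simp only [Set.mem_preimage, Set.mem_ofPred_eq]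
  intro h
  apply hv
  rw [h, Int.cast_zero]

/-- The multiplicities of an invertible fractional ideal at the primes outside `S`, modulo `p`. -/
noncomputable def countMod (p : ℕ) (S : Finset (HeightOneSpectrum R))
    (I : (FractionalIdeal R⁰ K)ˣ) : Outside S →₀ ZMod p :=
  Finsupp.ofSupportFinite _ (finite_support_countMod K p S I)

theorem countMod_apply (p : ℕ) (S : Finset (HeightOneSpectrum R))
    (I : (FractionalIdeal R⁰ K)ˣ) (v : Outside S) :
    countMod K p S I v = ((count K v.1 (I : FractionalIdeal R⁰ K) : ℤ) : ZMod p) := rfl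

/-- `I ↦ (count_v I mod p)_{v ∉ S}` as a group homomorphism. -/
noncomputable def countModHom (p : ℕ) (S : Finset (HeightOneSpectrum R)) :
    (FractionalIdeal R⁰ K)ˣ →* Multiplicative (Outside S →₀ ZMod p) where
  toFun I := Multiplicative.ofAdd (countMod K p S I)
  map_one' := by
    have h : countMod K p S (1 : (FractionalIdeal R⁰ K)ˣ) = 0 := by
      ext v
      rw [countMod_apply, count_units_one, Int.cast_zero, Finsupp.zero_apply]
    rw [h]; rfl
  map_mul' I J := by
    have h : countMod K p S (I * J) = countMod K p S I + countMod K p S J := by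
      ext v
      rw [Finsupp.add_apply, countMod_apply, countMod_apply, countMod_apply, count_units_mul,
        Int.cast_add]
    rw [h]; rfl

theorem toAdd_countModHom (p : ℕ) (S : Finset (HeightOneSpectrum R))
    (I : (FractionalIdeal R⁰ K)ˣ) :
    Multiplicative.toAdd (countModHom K p S I) = countMod K p S I := rfl

theorem countModHom_surjective (p : ℕ) [NeZero p] (S : Finset (HeightOneSpectrum R)) :
    Function.Surjective (countModHom K p S) := by
  classical
  intro d'
  obtain ⟨d, rfl⟩ := Multiplicative.ofAdd.surjective d'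
  refine ⟨∏ v ∈ d.support, primeUnit K v.1 ^ (d v).val, ?_⟩
  apply Multiplicative.toAdd.injective
  rw [toAdd_countModHom, toAdd_ofAdd]
  ext w
  rw [countMod_apply, count_units_prod]
  simp only [count_units_pow, count_primeUnit, mul_ite, mul_one, mul_zero]
  by_cases hw : w ∈ d.support
  · rw [Finset.sum_eq_single w]
    · rw [if_pos rfl]
      simp
    · intro v _ hv
      rw [if_neg]
      intro hvw
      exact hv (Subtype.ext hvw)
    · intro hh
      exact absurd hw hh
  · rw [Finset.sum_eq_zero]
    · rw [Int.cast_zero]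
      exact (Finsupp.notMem_support_iff.1 hw).symm
    · intro v hv
      rw [if_neg]
      intro hvw
      exact hw ((Subtype.ext hvw : v = w) ▸ hv)

theorem ker_countModHom (p : ℕ) [NeZero p] (S : Finset (HeightOneSpectrum R)) :
    (countModHom K p S).ker = powSub (FractionalIdeal R⁰ K)ˣ p ⊔ (sHom K S).range := by
  ext I
  rw [MonoidHom.mem_ker, mem_powSub_sup_range_sHom_iff K p (NeZero.ne p) S I]
  constructor
  · intro h v hv
    have h1 : countMod K p S I = 0 := congrArg Multiplicative.toAdd h
    have h2 : countMod K p S I ⟨v, hv⟩ = 0 := by rw [h1]; rfl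
    rw [countMod_apply] at h2
    exact (ZMod.intCast_zmod_eq_zero_iff_dvd _ _).1 h2
  · intro h
    have h1 : countMod K p S I = 0 := by
      ext v
      rw [countMod_apply, Finsupp.zero_apply]
      exact (ZMod.intCast_zmod_eq_zero_iff_dvd _ _).2 (h v.1 v.2)
    change Multiplicative.ofAdd (countMod K p S I) = 1
    rw [h1]; rfl

/-- `a ↦ (ord_v a mod p)_{v ∉ S}`. -/
noncomputable def divModHom (p : ℕ) (S : Finset (HeightOneSpectrum R)) :
    Kˣ →* Multiplicative (Outside S →₀ ZMod p) :=
  (countModHom K p S).comp (toPrincipalIdeal R K)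

theorem toAdd_divModHom_apply (p : ℕ) (S : Finset (HeightOneSpectrum R)) (a : Kˣ)
    (v : Outside S) :
    Multiplicative.toAdd (divModHom K p S a) v =
      ((count K v.1 (spanSingleton R⁰ (a : K)) : ℤ) : ZMod p) := by
  change countMod K p S (toPrincipalIdeal R K a) v = _
  rw [countMod_apply, coe_toPrincipalIdeal]

/-- Valuation form: the coordinate at `v` is `-log v(a)` modulo `p` (`= ord_v a mod p`). -/
theorem toAdd_divModHom_apply' (p : ℕ) (S : Finset (HeightOneSpectrum R)) (a : Kˣ)
    (v : Outside S) :
    Multiplicative.toAdd (divModHom K p S a) v =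
      ((-Multiplicative.toAdd (v.1.valuationOfNeZero a) : ℤ) : ZMod p) := by
  rw [toAdd_divModHom_apply, toAdd_valuationOfNeZero, neg_neg]

/-- **`Cl_S / p` as divisors outside `S` modulo `p` and principal divisors** (index form). -/
theorem index_range_divModHom (p : ℕ) [NeZero p] (S : Finset (HeightOneSpectrum R)) :
    (divModHom K p S).range.index = (clS R p S).index := by
  rw [divModHom, MonoidHom.range_comp,
    ← Subgroup.index_comap_of_surjective _ (countModHom_surjective K p S),
    Subgroup.comap_map_eq, ker_countModHom, ← index_sup_sup K p S]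
  congr 1
  rw [sup_comm]

/-- The additive subgroup of principal divisors modulo `p` outside `S`. -/
noncomputable def divRange (p : ℕ) (S : Finset (HeightOneSpectrum R)) :
    AddSubgroup (Outside S →₀ ZMod p) :=
  Subgroup.toAddSubgroup' (divModHom K p S).range

theorem mem_divRange_iff (p : ℕ) (S : Finset (HeightOneSpectrum R)) (d : Outside S →₀ ZMod p) :
    d ∈ divRange K p S ↔ ∃ a : Kˣ, Multiplicative.toAdd (divModHom K p S a) = d := by
  change Multiplicative.ofAdd d ∈ (divModHom K p S).range ↔ _
  rw [MonoidHom.mem_range]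
  exact exists_congr fun a => ⟨fun h => by rw [h]; rfl, fun h => by rw [← h]; rfl⟩

theorem index_divRange (p : ℕ) [NeZero p] (S : Finset (HeightOneSpectrum R)) :
    (divRange K p S).index = (clS R p S).index := by
  rw [← index_range_divModHom K p S, ← AddSubgroup.index_toSubgroup]
  rfl

/-- Cardinality form. -/
theorem card_quotient_divRange (p : ℕ) [NeZero p] (S : Finset (HeightOneSpectrum R)) :
    Nat.card ((Outside S →₀ ZMod p) ⧸ divRange K p S) = (clS R p S).index := by
  rw [← AddSubgroup.index_eq_card, index_divRange]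

/-- **Consumer form** (`JJ.assembly`): for a `ZMod p`-linear map `ord : Γ → (P →₀ ZMod p)` whose
range is the set of principal divisors mod `p`, the cokernel has dimension `ρ`, where
`p ^ ρ = [Cl : Cl^p ⊔ ⟨S⟩]`. -/
theorem finrank_quotient_range_ord (p : ℕ) [hp : Fact p.Prime] (S : Finset (HeightOneSpectrum R))
    {Γ : Type*} [AddCommGroup Γ] [Module (ZMod p) Γ]
    (ord : Γ →ₗ[ZMod p] (Outside S →₀ ZMod p))
    (hord : ∀ d, d ∈ LinearMap.range ord ↔
      ∃ a : Kˣ, Multiplicative.toAdd (divModHom K p S a) = d)
    {ρ : ℕ} (hρ : (clS R p S).index = p ^ ρ) :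
    FiniteDimensional (ZMod p) ((Outside S →₀ ZMod p) ⧸ LinearMap.range ord) ∧
    finrank (ZMod p) ((Outside S →₀ ZMod p) ⧸ LinearMap.range ord) = ρ := by
  have : NeZero p := ⟨hp.out.ne_zero⟩
  have heq : (LinearMap.range ord).toAddSubgroup = divRange K p S := by
    ext d
    rw [Submodule.mem_toAddSubgroup, hord, mem_divRange_iff]
  have hcard : Nat.card ((Outside S →₀ ZMod p) ⧸ LinearMap.range ord) = p ^ ρ := by
    rw [← hρ, ← index_divRange K p S, ← heq]
    exact (AddSubgroup.index_eq_card _).symm
  exact ⟨finiteDimensional_of_card_eq_pow hcard, finrank_eq_of_card_eq_pow hcard⟩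

end ClassQuot

end Fermat.Agent.CFT.Count
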