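import Mathlib

/-!
# Cyclotomic cofinality

For a number field `F`, an odd prime `p` and a rational prime `q`, the number of primes of
`F(ζ_{p^m})` above `q` is bounded independently of `m`.  Consequently, for `m` large, every prime
of `F(ζ_{p^m})` above a given finite set of rational primes has exactly one prime of
`F(ζ_{p^(m+1)})` above it, and the layer `F(ζ_{p^(m+1)}) / F(ζ_{p^m})` has degree `p`.
-/

namespace Fermat.Agent.CFT.Count.CycloCofinal

open NumberField IsDedekindDomain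

/-! ## Arithmetic: the order of `q` modulo `p ^ m` -/

lemma totient_le_mul_orderOf {p q : ℕ} [hp : Fact p.Prime] (hp2 : Odd p) (hq : q.Prime)
    (hqp : q ≠ p) (m : ℕ) :
    Nat.totient (p ^ m) ≤
      p ^ (padicValNat p (q ^ (p - 1) - 1)) * orderOf ((q : ZMod (p ^ m))) := by
  set a := padicValNat p (q ^ (p - 1) - 1) with ha
  set k := orderOf ((q : ZMod (p ^ m))) with hk
  have hp1 : 1 < p := hp.out.one_lt
  have hcop : Nat.Coprime q p := (Nat.coprime_primes hq hp.out).mpr hqp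
  have hcopm : Nat.Coprime q (p ^ m) := Nat.Coprime.pow_right m hcop
  have hk0 : 0 < k := by
    rw [hk, orderOf_pos_iff, isOfFinOrder_iff_pow_eq_one]
    refine ⟨Nat.totient (p ^ m), Nat.totient_pos.mpr (pow_pos hp.out.pos m), ?_⟩
    have h := (ZMod.natCast_eq_natCast_iff _ _ _).mpr (Nat.ModEq.pow_totient hcopm)
    push_cast at h
    exact h
  rcases le_or_gt m a with hma | ham
  · calc Nat.totient (p ^ m) ≤ p ^ m := Nat.totient_le _
      _ ≤ p ^ a := Nat.pow_le_pow_right hp.out.pos hma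
      _ ≤ p ^ a * k := Nat.le_mul_of_pos_right _ hk0
  · -- `p ^ m ∣ q ^ k - 1`
    have h1 : ((q ^ k : ℕ) : ZMod (p ^ m)) = ((1 : ℕ) : ZMod (p ^ m)) := by
      push_cast
      exact pow_orderOf_eq_one _
    have hqk1 : 1 ≤ q ^ k := Nat.one_le_pow _ _ hq.pos
    have h2 : p ^ m ∣ q ^ k - 1 := by
      have := (ZMod.natCast_eq_natCast_iff _ _ _).mp h1
      exact (Nat.modEq_iff_dvd' hqk1).mp this.symm
    set x := q ^ (p - 1) with hx
    have hx1 : 1 < x := by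
      rw [hx]
      exact Nat.one_lt_pow (by omega) hq.one_lt
    have h3 : q ^ k - 1 ∣ x ^ k - 1 ^ k := by
      have h := Nat.sub_dvd_pow_sub_pow (q ^ k) 1 (p - 1)
      have e : (q ^ k) ^ (p - 1) = x ^ k := by rw [hx, ← pow_mul, ← pow_mul, mul_comm]
      rw [e, one_pow] at h
      rw [one_pow]
      exact h
    have hxp : p ∣ x - 1 := by
      have := Nat.ModEq.pow_totient hcop
      rw [Nat.totient_prime hp.out] at this
      exact (Nat.modEq_iff_dvd' hx1.le).mp this.symm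
    have hxnd : ¬ p ∣ x := by
      intro h
      have := hp.out.dvd_of_dvd_pow h
      exact hqp ((Nat.prime_dvd_prime_iff_eq hp.out hq).mp this).symm
    have hlte := padicValNat.pow_sub_pow hp2 hx1 hxp hxnd hk0.ne'
    have hne : x ^ k - 1 ^ k ≠ 0 := by
      rw [one_pow]
      have : 1 < x ^ k := Nat.one_lt_pow hk0.ne' hx1
      omega
    have h4 : p ^ m ∣ x ^ k - 1 ^ k := h2.trans h3
    have h5 : m ≤ padicValNat p (x ^ k - 1 ^ k) := (padicValNat_dvd_iff_le hne).mp h4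
    rw [hlte] at h5
    have h6 : p ^ (m - a) ∣ k := by
      have hk' : k ≠ 0 := hk0.ne'
      exact (padicValNat_dvd_iff_le hk').mpr (by omega)
    have h7 : p ^ (m - a) ≤ k := Nat.le_of_dvd hk0 h6
    calc Nat.totient (p ^ m) ≤ p ^ m := Nat.totient_le _
      _ = p ^ a * p ^ (m - a) := by rw [← pow_add]; congr 1; omega
      _ ≤ p ^ a * k := Nat.mul_le_mul_left _ h7

/-! ## Primes of a `p`-power cyclotomic field above `q` -/

/-- The number of primes of `ℚ(ζ_{p^m})` above `q` is bounded independently of `m`. -/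
lemma ncard_primesOver_cyclo_le {p : ℕ} [hp : Fact p.Prime] (hp2 : Odd p) (q : ℕ)
    [hq : Fact q.Prime] (m : ℕ) (C : Type*) [Field C] [NumberField C]
    [hC : IsCyclotomicExtension {p ^ m} ℚ C] :
    ((Ideal.span {(q : ℤ)}).primesOver (𝓞 C)).ncard ≤
      p ^ (padicValNat p (q ^ (p - 1) - 1)) := by
  have hgal : IsGalois ℚ C := IsCyclotomicExtension.isGalois {p ^ m} ℚ C
  have h_main := Ideal.ncard_primesOver_mul_ramificationIdxIn_mul_inertiaDegIn
    (Ideal.span {(q : ℤ)}) (𝓞 C) (C ≃ₐ[ℚ] C)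
  have hcard : Nat.card (C ≃ₐ[ℚ] C) = Nat.totient (p ^ m) := by
    rw [IsGaloisGroup.card_eq_finrank (C ≃ₐ[ℚ] C) ℚ C, IsCyclotomicExtension.Rat.finrank (p ^ m) C]
  have hpos : 0 < p ^ (padicValNat p (q ^ (p - 1) - 1)) := pow_pos hp.out.pos _
  by_cases hqp : q = p
  · subst hqp
    rcases m with _ | k
    · rw [hcard] at h_main
      simp only [pow_zero, Nat.totient_one] at h_main
      have h1 : ((Ideal.span {(q : ℤ)}).primesOver (𝓞 C)).ncard = 1 :=
        Nat.eq_one_of_mul_eq_one_right h_main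
      rw [h1]
      exact hpos
    · rw [IsCyclotomicExtension.Rat.ncard_primesOver_of_prime_pow q k C]
      exact hpos
  · have hnd : ¬ q ∣ p ^ m := fun h =>
      hqp ((Nat.prime_dvd_prime_iff_eq hq.out hp.out).mp (hq.out.dvd_of_dvd_pow h))
    have : NeZero (p ^ m) := ⟨pow_ne_zero _ hp.out.ne_zero⟩
    rw [IsCyclotomicExtension.Rat.ramificationIdxIn_eq_of_not_dvd q C hnd,
      IsCyclotomicExtension.Rat.inertiaDegIn_eq_of_not_dvd q C hnd, one_mul, hcard] at h_main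
    have hle := totient_le_mul_orderOf hp2 hq.out hqp m
    rw [← h_main] at hle
    have hk0 : 0 < orderOf ((q : ZMod (p ^ m))) := by
      by_contra h0
      have h0' : orderOf ((q : ZMod (p ^ m))) = 0 := by omega
      rw [h0', mul_zero] at h_main
      exact (Nat.totient_pos.mpr (pow_pos hp.out.pos m)).ne' h_main.symm
    exact Nat.le_of_mul_le_mul_right hle hk0

/-! ## Primes above a rational prime in an extension of number fields -/

section Generic

/-- The primes of (the ring of integers of) `K` above the rational prime `q`. -/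
def primesAbove (K : Type*) [Field K] (q : ℕ) : Set (Ideal (𝓞 K)) :=
  (Ideal.span {(q : ℤ)}).primesOver (𝓞 K)

variable (K M : Type*) [Field K] [NumberField K] [Field M] [NumberField M] [Algebra K M]

lemma span_ne_bot {q : ℕ} (hq : q.Prime) : (Ideal.span {(q : ℤ)}) ≠ ⊥ := by
  rw [Ne, Ideal.span_singleton_eq_bot]
  exact_mod_cast hq.ne_zero

omit [NumberField K] in
lemma mem_primesAbove_iff {q : ℕ} (hq : q.Prime) (P : Ideal (𝓞 K)) :
    P ∈ primesAbove K q ↔ P.IsPrime ∧ (q : 𝓞 K) ∈ P := by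
  have : Fact q.Prime := ⟨hq⟩
  constructor
  · rintro ⟨hP, hl⟩
    refine ⟨hP, ?_⟩
    have h1 : (q : ℤ) ∈ P.under ℤ := by
      rw [← hl.over]
      exact Ideal.mem_span_singleton_self _
    have h2 := Ideal.mem_comap.mp h1
    simpa using h2
  · rintro ⟨hP, hq'⟩
    refine ⟨hP, ⟨?_⟩⟩
    have hle : Ideal.span {(q : ℤ)} ≤ P.under ℤ := by
      rw [Ideal.span_singleton_le_iff_mem]
      apply Ideal.mem_comap.mpr
      simpa using hq'
    have hmax : (Ideal.span {(q : ℤ)}).IsMaximal := inferInstance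
    have hne : P.under ℤ ≠ ⊤ := (Ideal.IsPrime.under ℤ P).ne_top
    exact hmax.eq_of_le hne hle

lemma isMaximal_of_mem_primesAbove {q : ℕ} (hq : q.Prime) {P : Ideal (𝓞 K)}
    (hP : P ∈ primesAbove K q) : P.IsMaximal := by
  obtain ⟨hPp, hPl⟩ := hP
  have hP0 : P ≠ ⊥ := Ideal.ne_bot_of_liesOver_of_ne_bot (span_ne_bot hq) P
  exact hPp.isMaximal hP0

lemma finite_primesAbove {q : ℕ} (hq : q.Prime) : (primesAbove K q).Finite := by
  have : Fact q.Prime := ⟨hq⟩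
  exact IsDedekindDomain.primesOver_finite (Ideal.span {(q : ℤ)}) (𝓞 K)

omit [NumberField K] [NumberField M] in
lemma under_mem_primesAbove {q : ℕ} {Q : Ideal (𝓞 M)} (hQ : Q ∈ primesAbove M q) :
    Q.under (𝓞 K) ∈ primesAbove K q := by
  obtain ⟨hQp, hQl⟩ := hQ
  exact ⟨Ideal.IsPrime.under _ Q, Ideal.LiesOver.tower_bot Q (Q.under (𝓞 K)) (Ideal.span {(q : ℤ)})⟩

omit [NumberField K] [NumberField M] in
lemma mem_primesAbove_of_under {q : ℕ} {Q : Ideal (𝓞 M)} (hQ : Q.IsPrime)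
    (h : Q.under (𝓞 K) ∈ primesAbove K q) : Q ∈ primesAbove M q := by
  obtain ⟨hPp, hPl⟩ := h
  exact ⟨hQ, Ideal.LiesOver.trans Q (Q.under (𝓞 K)) (Ideal.span {(q : ℤ)})⟩

omit [NumberField M] in
lemma exists_over_of_mem_primesAbove {q : ℕ} (hq : q.Prime) {P : Ideal (𝓞 K)}
    (hP : P ∈ primesAbove K q) : ∃ Q ∈ primesAbove M q, Q.under (𝓞 K) = P := by
  have hPm : P.IsMaximal := isMaximal_of_mem_primesAbove K hq hP
  obtain ⟨hPp, hPl⟩ := hP
  obtain ⟨Q, hQm, hQl⟩ := Ideal.exists_maximal_ideal_liesOver_of_isIntegral (S := 𝓞 M) P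
  exact ⟨Q, ⟨hQm.isPrime, Ideal.LiesOver.trans Q P _⟩, hQl.over.symm⟩

omit [NumberField M] in
lemma image_under_primesAbove {q : ℕ} (hq : q.Prime) :
    (fun Q : Ideal (𝓞 M) => Q.under (𝓞 K)) '' primesAbove M q = primesAbove K q := by
  ext P
  constructor
  · rintro ⟨Q, hQ, rfl⟩
    exact under_mem_primesAbove K M hQ
  · intro hP
    obtain ⟨Q, hQ, hQP⟩ := exists_over_of_mem_primesAbove K M hq hP
    exact ⟨Q, hQ, hQP⟩

/-- The number of primes above `q` can only grow in an extension. -/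
lemma ncard_primesAbove_le {q : ℕ} (hq : q.Prime) :
    (primesAbove K q).ncard ≤ (primesAbove M q).ncard := by
  rw [← image_under_primesAbove K M hq]
  exact Set.ncard_image_le (finite_primesAbove M hq)

/-- If `K` and `M` have the same number of primes above `q`, then every prime of `K` above `q`
has exactly one prime of `M` above it. -/
lemma nonsplit_of_ncard_eq {q : ℕ} (hq : q.Prime)
    (h : (primesAbove M q).ncard = (primesAbove K q).ncard)
    (v : HeightOneSpectrum (𝓞 K)) (hv : (q : 𝓞 K) ∈ v.asIdeal)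
    (w w' : HeightOneSpectrum (𝓞 M)) (hw : w.under (𝓞 K) = v) (hw' : w'.under (𝓞 K) = v) :
    w = w' := by
  have hinj : Set.InjOn (fun Q : Ideal (𝓞 M) => Q.under (𝓞 K)) (primesAbove M q) := by
    apply Set.injOn_of_ncard_image_eq _ (finite_primesAbove M hq)
    rw [image_under_primesAbove K M hq, h]
  have hvm : v.asIdeal ∈ primesAbove K q := (mem_primesAbove_iff K hq _).mpr ⟨v.isPrime, hv⟩
  have e1 : w.asIdeal.under (𝓞 K) = v.asIdeal := congrArg HeightOneSpectrum.asIdeal hw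
  have e2 : w'.asIdeal.under (𝓞 K) = v.asIdeal := congrArg HeightOneSpectrum.asIdeal hw'
  have m1 : w.asIdeal ∈ primesAbove M q :=
    mem_primesAbove_of_under K M w.isPrime (by rw [e1]; exact hvm)
  have m2 : w'.asIdeal ∈ primesAbove M q :=
    mem_primesAbove_of_under K M w'.isPrime (by rw [e2]; exact hvm)
  exact HeightOneSpectrum.ext (hinj m1 m2 (by simp only [e1, e2]))

/-- The tower law over `ℚ`. -/
lemma finrank_rat_mul_finrank (K M : Type*) [Field K] [CharZero K] [Field M] [CharZero M]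
    [Algebra K M] : Module.finrank ℚ K * Module.finrank K M = Module.finrank ℚ M :=
  Module.finrank_mul_finrank ℚ K M

/-- At most `[M : K]` primes of `M` lie above a nonzero prime of `K`. -/
lemma ncard_primesOver_le_finrank (P : Ideal (𝓞 K)) [P.IsMaximal] :
    (P.primesOver (𝓞 M)).ncard ≤ Module.finrank K M := by
  classical
  have h := Ideal.sum_ramification_inertia_eq_finrank P (𝓞 M)
  have h1 : (P.primesOver (𝓞 M)).ncard = Fintype.card (P.primesOver (𝓞 M)) := by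
    rw [Set.ncard_eq_toFinset_card', Set.toFinset_card]
  rw [IsFractionRing.finrank_eq (𝓞 K) K (𝓞 M) M, ← h, h1, Fintype.card_eq_sum_ones]
  refine Finset.sum_le_sum (fun Q _ => ?_)
  have : Q.1.IsPrime := Q.2.1
  exact Nat.mul_pos (Ideal.ramificationIdx_pos (R := 𝓞 K) (q := Q.1))
    (Ideal.inertiaDeg_pos (R := 𝓞 K) (q := Q.1))

/-- The number of primes of `M` above `q` is at most `[M : K]` times the number of primes of `K`
above `q`. -/
lemma ncard_primesAbove_le_mul_finrank {q : ℕ} (hq : q.Prime) :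
    (primesAbove M q).ncard ≤ (primesAbove K q).ncard * Module.finrank K M := by
  classical
  have hfin := finite_primesAbove M hq
  set s := hfin.toFinset with hs
  have hcard : (primesAbove M q).ncard = s.card := Set.ncard_eq_toFinset_card _ hfin
  have himg : (s.image (fun Q : Ideal (𝓞 M) => Q.under (𝓞 K))).card = (primesAbove K q).ncard := by
    rw [← image_under_primesAbove K M hq, ← Set.ncard_coe_finset]
    congr 1
    rw [Finset.coe_image, hs, Set.Finite.coe_toFinset]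
  rw [hcard, ← himg, mul_comm]
  apply Finset.card_le_mul_card_image
  intro P hP
  obtain ⟨Q0, hQ0, rfl⟩ := Finset.mem_image.mp hP
  have hQ0' : Q0 ∈ primesAbove M q := by rwa [hs, Set.Finite.mem_toFinset] at hQ0
  have hPm : (Q0.under (𝓞 K)).IsMaximal :=
    isMaximal_of_mem_primesAbove K hq (under_mem_primesAbove K M hQ0')
  have hP0 : Q0.under (𝓞 K) ≠ ⊥ := by
    have := under_mem_primesAbove K M hQ0'
    obtain ⟨_, hl⟩ := this
    exact Ideal.ne_bot_of_liesOver_of_ne_bot (span_ne_bot hq) _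
  refine le_trans ?_ (ncard_primesOver_le_finrank K M (Q0.under (𝓞 K)))
  rw [← Set.ncard_coe_finset]
  apply Set.ncard_le_ncard _ (IsDedekindDomain.primesOver_finite _ _)
  intro Q hQ
  simp only [Finset.coe_filter, Set.mem_ofPred_eq, hs, Set.Finite.mem_toFinset] at hQ
  exact ⟨hQ.1.1, ⟨hQ.2.symm⟩⟩

end Generic

section Seq

/-- A non-increasing sequence of natural numbers is eventually constant. -/
lemma eventually_const_of_antitone (t : ℕ → ℕ) (ht : ∀ m, t (m + 1) ≤ t m) :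
    ∃ m0, ∀ m, m0 ≤ m → t (m + 1) = t m := by
  induction hn : t 0 using Nat.strong_induction_on generalizing t with
  | _ n ih =>
    by_cases h : ∀ m, t (m + 1) = t m
    · exact ⟨0, fun m _ => h m⟩
    · push Not at h
      obtain ⟨m1, hm1⟩ := h
      have hlt : t (m1 + 1) < t m1 := lt_of_le_of_ne (ht m1) hm1
      have hanti : ∀ m, t m ≤ t 0 := by
        intro m
        induction m with
        | zero => exact le_rfl
        | succ k ihk => exact (ht k).trans ihk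
      obtain ⟨m0, hm0⟩ := ih (t (m1 + 1)) (by rw [← hn]; exact hlt.trans_le (hanti m1))
        (fun m => t (m + (m1 + 1))) (fun m => by
          have := ht (m + (m1 + 1))
          rwa [show m + (m1 + 1) + 1 = m + 1 + (m1 + 1) by ring] at this) (by simp)
      refine ⟨m0 + (m1 + 1), fun m hm => ?_⟩
      have := hm0 (m - (m1 + 1)) (by omega)
      rwa [show m - (m1 + 1) + 1 + (m1 + 1) = m + 1 by omega,
        show m - (m1 + 1) + (m1 + 1) = m by omega] at this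

/-- A bounded non-decreasing sequence of natural numbers is eventually constant. -/
lemma eventually_const_of_monotone_bdd (g : ℕ → ℕ) (B : ℕ) (hg : ∀ m, g m ≤ g (m + 1))
    (hB : ∀ m, g m ≤ B) : ∃ m0, ∀ m, m0 ≤ m → g (m + 1) = g m := by
  obtain ⟨m0, hm0⟩ := eventually_const_of_antitone (fun m => B - g m) (fun m => by
    have := hg m
    omega)
  refine ⟨m0, fun m hm => ?_⟩
  have h1 := hm0 m hm
  have h2 := hB m
  have h3 := hB (m + 1)
  omega

end Seq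

section Tower

open IntermediateField

variable {Ω : Type*} [Field Ω] [CharZero Ω]

/-- A finite-dimensional intermediate field of a characteristic zero field is a number field. -/
lemma numberField_of_finiteDimensional (E : IntermediateField ℚ Ω) [FiniteDimensional ℚ E] :
    NumberField E :=
  { to_charZero := inferInstance, to_finiteDimensional := inferInstance }

lemma isIntegral_of_isPrimitiveRoot {n : ℕ} (hn : 0 < n) {ζ : Ω} (hζ : IsPrimitiveRoot ζ n) :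
    IsIntegral ℚ ζ := (hζ.isIntegral hn).tower_top

lemma finiteDimensional_adjoin_root {n : ℕ} (hn : 0 < n) {ζ : Ω} (hζ : IsPrimitiveRoot ζ n) :
    FiniteDimensional ℚ ℚ⟮ζ⟯ :=
  IntermediateField.adjoin.finiteDimensional (isIntegral_of_isPrimitiveRoot hn hζ)

lemma finrank_adjoin_root {n : ℕ} (hn : 0 < n) {ζ : Ω} (hζ : IsPrimitiveRoot ζ n) :
    Module.finrank ℚ ℚ⟮ζ⟯ = Nat.totient n := by
  rw [IntermediateField.adjoin.finrank (isIntegral_of_isPrimitiveRoot hn hζ),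
    ← Polynomial.cyclotomic_eq_minpoly_rat hζ hn, Polynomial.natDegree_cyclotomic]

lemma isCyclotomicExtension_adjoin_root {n : ℕ} (hn : 0 < n) {ζ : Ω} (hζ : IsPrimitiveRoot ζ n) :
    IsCyclotomicExtension {n} ℚ ℚ⟮ζ⟯ := by
  have : NeZero n := ⟨hn.ne'⟩
  change IsCyclotomicExtension {n} ℚ (ℚ⟮ζ⟯).toSubalgebra
  rw [IntermediateField.adjoin_simple_toSubalgebra_of_isAlgebraic
    (isIntegral_of_isPrimitiveRoot hn hζ).isAlgebraic]
  exact hζ.adjoin_isCyclotomicExtension ℚ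

lemma pow_mem_adjoin_of_isPrimitiveRoot {p m : ℕ} (hp : 0 < p) {ζ ζ' : Ω}
    (hζ : IsPrimitiveRoot ζ (p ^ m)) (hζ' : IsPrimitiveRoot ζ' (p ^ (m + 1))) :
    ζ' ^ p ∈ ℚ⟮ζ⟯ := by
  have : NeZero (p ^ m) := ⟨(pow_pos hp m).ne'⟩
  have h1 : (ζ' ^ p) ^ (p ^ m) = 1 := by
    rw [← pow_mul, mul_comm, ← pow_succ]
    exact hζ'.pow_eq_one
  obtain ⟨i, -, hi⟩ := hζ.eq_pow_of_pow_eq_one h1
  rw [← hi]
  exact pow_mem (IntermediateField.mem_adjoin_simple_self ℚ ζ) _

lemma adjoin_le_adjoin_succ {p m : ℕ} (hp : 0 < p) {ζ ζ' : Ω}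
    (hζ : IsPrimitiveRoot ζ (p ^ m)) (hζ' : IsPrimitiveRoot ζ' (p ^ (m + 1))) :
    ℚ⟮ζ⟯ ≤ ℚ⟮ζ'⟯ := by
  rw [IntermediateField.adjoin_simple_le_iff]
  have : NeZero (p ^ m) := ⟨(pow_pos hp m).ne'⟩
  have h1 : IsPrimitiveRoot (ζ' ^ p) (p ^ m) :=
    hζ'.pow (pow_pos hp _) (by rw [pow_succ, mul_comm])
  obtain ⟨i, -, hi⟩ := h1.eq_pow_of_pow_eq_one hζ.pow_eq_one
  rw [← hi]
  exact pow_mem (pow_mem (IntermediateField.mem_adjoin_simple_self ℚ ζ') _) _

/-- Adjoining an `n`-th root of an element of `A` multiplies the degree by at most `n`. -/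
lemma finrank_sup_adjoin_le_of_pow_mem (A : IntermediateField ℚ Ω) [FiniteDimensional ℚ A]
    {n : ℕ} (hn : 0 < n) {x : Ω} (hx : x ^ n ∈ A) :
    Module.finrank ℚ ↥(A ⊔ ℚ⟮x⟯) ≤ n * Module.finrank ℚ A := by
  set E : IntermediateField A Ω := IntermediateField.adjoin A {x} with hE
  have hres : E.restrictScalars ℚ = A ⊔ ℚ⟮x⟯ :=
    IntermediateField.restrictScalars_adjoin_eq_sup ℚ A ({x} : Set Ω)
  set f : Polynomial A := Polynomial.X ^ n - Polynomial.C ⟨x ^ n, hx⟩ with hf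
  have hf0 : f ≠ 0 := Polynomial.X_pow_sub_C_ne_zero hn _
  have hfx : Polynomial.aeval x f = 0 := by
    simp [hf]
  have hint : IsIntegral A x := by
    refine ⟨f, Polynomial.monic_X_pow_sub_C _ hn.ne', ?_⟩
    simpa [Polynomial.aeval_def] using hfx
  have hdeg : Module.finrank A E ≤ n := by
    rw [hE, IntermediateField.adjoin.finrank hint]
    have := Polynomial.natDegree_le_of_dvd (minpoly.dvd A x hfx) hf0
    rwa [hf, Polynomial.natDegree_X_pow_sub_C] at this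
  have htower : Module.finrank ℚ A * Module.finrank A E = Module.finrank ℚ E :=
    Module.finrank_mul_finrank ℚ A E
  have heq : Module.finrank ℚ ↥(A ⊔ ℚ⟮x⟯) = Module.finrank ℚ E := by
    rw [← hres]
    rfl
  rw [heq, ← htower, mul_comm]
  exact Nat.mul_le_mul_right _ hdeg

/-- Adjoining a root of unity to an intermediate field gives a Galois extension. -/
lemma isGalois_adjoin_root (K : IntermediateField ℚ Ω) {n : ℕ} (hn : 0 < n) {ξ : Ω}
    (hξ : IsPrimitiveRoot ξ n) : IsGalois K (IntermediateField.adjoin K {ξ}) := by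
  have : NeZero n := ⟨hn.ne'⟩
  have halg : IsAlgebraic K ξ := ((hξ.isIntegral hn).tower_top).isAlgebraic
  have hc : IsCyclotomicExtension {n} K (IntermediateField.adjoin K {ξ}) := by
    change IsCyclotomicExtension {n} K (IntermediateField.adjoin K {ξ}).toSubalgebra
    rw [IntermediateField.adjoin_simple_toSubalgebra_of_isAlgebraic halg]
    exact hξ.adjoin_isCyclotomicExtension K
  exact IsCyclotomicExtension.isGalois {n} K _

end Tower

section Layers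

open IntermediateField

variable {Ω : Type*} [Field Ω] [CharZero Ω]
variable {p : ℕ} [hp : Fact p.Prime] (F : IntermediateField ℚ Ω) [FiniteDimensional ℚ F]
variable {ζ : ℕ → Ω} (hζ : ∀ m, IsPrimitiveRoot (ζ m) (p ^ m))

include hζ

lemma finiteDimensional_layer (m : ℕ) : FiniteDimensional ℚ ↥(F ⊔ ℚ⟮ζ m⟯) := by
  have := finiteDimensional_adjoin_root (pow_pos hp.out.pos m) (hζ m)
  exact IntermediateField.finiteDimensional_sup _ _

omit [FiniteDimensional ℚ F] in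
lemma layer_le_succ (m : ℕ) : F ⊔ ℚ⟮ζ m⟯ ≤ F ⊔ ℚ⟮ζ (m + 1)⟯ :=
  sup_le_sup_left (adjoin_le_adjoin_succ hp.out.pos (hζ m) (hζ (m + 1))) F

omit [FiniteDimensional ℚ F] in
lemma layer_sup_succ (m : ℕ) : (F ⊔ ℚ⟮ζ m⟯) ⊔ ℚ⟮ζ (m + 1)⟯ = F ⊔ ℚ⟮ζ (m + 1)⟯ := by
  rw [sup_assoc, sup_eq_right.mpr (adjoin_le_adjoin_succ hp.out.pos (hζ m) (hζ (m + 1)))]

lemma finrank_layer_succ_le (m : ℕ) :
    Module.finrank ℚ ↥(F ⊔ ℚ⟮ζ (m + 1)⟯) ≤ p * Module.finrank ℚ ↥(F ⊔ ℚ⟮ζ m⟯) := by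
  have := finiteDimensional_layer F hζ m
  have hmem : ζ (m + 1) ^ p ∈ F ⊔ ℚ⟮ζ m⟯ :=
    (le_sup_right : ℚ⟮ζ m⟯ ≤ F ⊔ ℚ⟮ζ m⟯)
      (pow_mem_adjoin_of_isPrimitiveRoot hp.out.pos (hζ m) (hζ (m + 1)))
  have h := finrank_sup_adjoin_le_of_pow_mem (F ⊔ ℚ⟮ζ m⟯) hp.out.pos hmem
  rwa [layer_sup_succ F hζ m] at h

omit [FiniteDimensional ℚ F] in
lemma totient_dvd_finrank_layer (m : ℕ) :
    Nat.totient (p ^ m) ∣ Module.finrank ℚ ↥(F ⊔ ℚ⟮ζ m⟯) := by
  rw [← finrank_adjoin_root (pow_pos hp.out.pos m) (hζ m)]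
  exact IntermediateField.finrank_dvd_of_le_right le_sup_right

omit [FiniteDimensional ℚ F] in
lemma finrank_layer_le (m : ℕ) :
    Module.finrank ℚ ↥(F ⊔ ℚ⟮ζ m⟯) ≤ Module.finrank ℚ F * Nat.totient (p ^ m) := by
  rw [← finrank_adjoin_root (pow_pos hp.out.pos m) (hζ m)]
  exact IntermediateField.finrank_sup_le F ℚ⟮ζ m⟯

lemma finrank_layer_pos (m : ℕ) : 0 < Module.finrank ℚ ↥(F ⊔ ℚ⟮ζ m⟯) := by
  have := finiteDimensional_layer F hζ m
  exact Module.finrank_pos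

/-- For `m` large, `[F(ζ_{p^(m+1)}) : ℚ] = p * [F(ζ_{p^m}) : ℚ]`. -/
lemma exists_finrank_layer_succ_eq :
    ∃ m0, ∀ m, m0 ≤ m →
      Module.finrank ℚ ↥(F ⊔ ℚ⟮ζ (m + 1)⟯) = p * Module.finrank ℚ ↥(F ⊔ ℚ⟮ζ m⟯) := by
  set a : ℕ → ℕ := fun m => Module.finrank ℚ ↥(F ⊔ ℚ⟮ζ m⟯) with ha
  set φ : ℕ → ℕ := fun m => Nat.totient (p ^ m) with hφ
  have hφpos : ∀ m, 0 < φ m := fun m => Nat.totient_pos.mpr (pow_pos hp.out.pos m)
  have hφsucc : ∀ m, φ (m + 2) = p * φ (m + 1) := by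
    intro m
    simp only [hφ]
    rw [Nat.totient_prime_pow_succ hp.out, Nat.totient_prime_pow_succ hp.out, pow_succ]
    ring
  have hdvd : ∀ m, φ m ∣ a m := fun m => totient_dvd_finrank_layer F hζ m
  have hle : ∀ m, a (m + 1) ≤ p * a m := fun m => finrank_layer_succ_le F hζ m
  set t : ℕ → ℕ := fun m => a (m + 1) / φ (m + 1) with ht
  have hat : ∀ m, a (m + 1) = t m * φ (m + 1) := fun m => (Nat.div_mul_cancel (hdvd (m + 1))).symm
  have hanti : ∀ m, t (m + 1) ≤ t m := by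
    intro m
    have h1 := hle (m + 1)
    rw [hat (m + 1), hat m, hφsucc m] at h1
    have h2 : t (m + 1) * (p * φ (m + 1)) ≤ t m * (p * φ (m + 1)) := by
      calc t (m + 1) * (p * φ (m + 1)) ≤ p * (t m * φ (m + 1)) := h1
        _ = t m * (p * φ (m + 1)) := by ring
    exact Nat.le_of_mul_le_mul_right h2 (Nat.mul_pos hp.out.pos (hφpos _))
  obtain ⟨m0, hm0⟩ := eventually_const_of_antitone t hanti
  refine ⟨m0 + 1, fun m hm => ?_⟩
  obtain ⟨k, rfl⟩ : ∃ k, m = k + 1 := ⟨m - 1, by omega⟩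
  have h1 := hm0 k (by omega)
  change a (k + 1 + 1) = p * a (k + 1)
  rw [hat (k + 1), hat k, hφsucc k, h1]
  ring

end Layers

section Primes

open IntermediateField

variable {Ω : Type*} [Field Ω] [CharZero Ω]
variable {p : ℕ} [hp : Fact p.Prime] (F : IntermediateField ℚ Ω) [FiniteDimensional ℚ F]
variable {ζ : ℕ → Ω} (hζ : ∀ m, IsPrimitiveRoot (ζ m) (p ^ m))

include hζ

/-- The number of primes of `F(ζ_{p^m})` above `q` is bounded independently of `m`. -/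
lemma ncard_primesAbove_layer_le (hp2 : Odd p) {q : ℕ} (hq : q.Prime) (m : ℕ) :
    (primesAbove ↥(F ⊔ ℚ⟮ζ m⟯) q).ncard ≤
      p ^ (padicValNat p (q ^ (p - 1) - 1)) * Module.finrank ℚ F := by
  have hpm : 0 < p ^ m := pow_pos hp.out.pos m
  have : Fact q.Prime := ⟨hq⟩
  have hfC : FiniteDimensional ℚ ℚ⟮ζ m⟯ := finiteDimensional_adjoin_root hpm (hζ m)
  have hfK : FiniteDimensional ℚ ↥(F ⊔ ℚ⟮ζ m⟯) := finiteDimensional_layer F hζ m
  have hnC : NumberField ℚ⟮ζ m⟯ := numberField_of_finiteDimensional _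
  have hnK : NumberField ↥(F ⊔ ℚ⟮ζ m⟯) := numberField_of_finiteDimensional _
  have hcyc : IsCyclotomicExtension {p ^ m} ℚ ℚ⟮ζ m⟯ := isCyclotomicExtension_adjoin_root hpm (hζ m)
  let _ : Algebra ℚ⟮ζ m⟯ ↥(F ⊔ ℚ⟮ζ m⟯) :=
    (IntermediateField.inclusion (le_sup_right : ℚ⟮ζ m⟯ ≤ F ⊔ ℚ⟮ζ m⟯)).toRingHom.toAlgebra
  have h1 := ncard_primesAbove_le_mul_finrank ℚ⟮ζ m⟯ ↥(F ⊔ ℚ⟮ζ m⟯) hq
  have h2 : (primesAbove ℚ⟮ζ m⟯ q).ncard ≤ p ^ (padicValNat p (q ^ (p - 1) - 1)) :=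
    ncard_primesOver_cyclo_le hp2 q m ℚ⟮ζ m⟯
  have h3 : Module.finrank ℚ⟮ζ m⟯ ↥(F ⊔ ℚ⟮ζ m⟯) ≤ Module.finrank ℚ F := by
    have htower := finrank_rat_mul_finrank ℚ⟮ζ m⟯ ↥(F ⊔ ℚ⟮ζ m⟯)
    have hsup := IntermediateField.finrank_sup_le F ℚ⟮ζ m⟯
    have hpos : 0 < Module.finrank ℚ ℚ⟮ζ m⟯ := Module.finrank_pos
    rw [← htower, mul_comm] at hsup
    exact Nat.le_of_mul_le_mul_right hsup hpos
  exact h1.trans (Nat.mul_le_mul h2 h3)

/-- The number of primes above `q` is non-decreasing along the tower. -/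
lemma ncard_primesAbove_layer_mono {q : ℕ} (hq : q.Prime) (m : ℕ) :
    (primesAbove ↥(F ⊔ ℚ⟮ζ m⟯) q).ncard ≤ (primesAbove ↥(F ⊔ ℚ⟮ζ (m + 1)⟯) q).ncard := by
  have hfK : FiniteDimensional ℚ ↥(F ⊔ ℚ⟮ζ m⟯) := finiteDimensional_layer F hζ m
  have hfM : FiniteDimensional ℚ ↥(F ⊔ ℚ⟮ζ (m + 1)⟯) := finiteDimensional_layer F hζ (m + 1)
  have hnK : NumberField ↥(F ⊔ ℚ⟮ζ m⟯) := numberField_of_finiteDimensional _
  have hnM : NumberField ↥(F ⊔ ℚ⟮ζ (m + 1)⟯) := numberField_of_finiteDimensional _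
  let _ : Algebra ↥(F ⊔ ℚ⟮ζ m⟯) ↥(F ⊔ ℚ⟮ζ (m + 1)⟯) :=
    (IntermediateField.inclusion (layer_le_succ F hζ m)).toRingHom.toAlgebra
  exact ncard_primesAbove_le ↥(F ⊔ ℚ⟮ζ m⟯) ↥(F ⊔ ℚ⟮ζ (m + 1)⟯) hq

/-- For `m` large, `F(ζ_{p^(m+1)})` and `F(ζ_{p^m})` have the same number of primes above `q`. -/
lemma exists_ncard_primesAbove_layer_succ_eq (hp2 : Odd p) {q : ℕ} (hq : q.Prime) :
    ∃ m0, ∀ m, m0 ≤ m →
      (primesAbove ↥(F ⊔ ℚ⟮ζ (m + 1)⟯) q).ncard = (primesAbove ↥(F ⊔ ℚ⟮ζ m⟯) q).ncard :=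
  eventually_const_of_monotone_bdd (fun m => (primesAbove ↥(F ⊔ ℚ⟮ζ m⟯) q).ncard) _
    (fun m => ncard_primesAbove_layer_mono F hζ hq m)
    (fun m => ncard_primesAbove_layer_le F hζ hp2 hq m)

/-- **Cyclotomic cofinality, numerical form.**  For `m` large, the layer
`F(ζ_{p^(m+1)}) / F(ζ_{p^m})` has degree `p` and the two fields have the same number of primes above
each `q ∈ S`. -/
theorem exists_stable (hp2 : Odd p) (S : Finset ℕ) (hS : ∀ q ∈ S, q.Prime) :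
    ∃ m0, ∀ m, m0 ≤ m →
      Module.finrank ℚ ↥(F ⊔ ℚ⟮ζ (m + 1)⟯) = p * Module.finrank ℚ ↥(F ⊔ ℚ⟮ζ m⟯) ∧
      ∀ q ∈ S, (primesAbove ↥(F ⊔ ℚ⟮ζ (m + 1)⟯) q).ncard =
        (primesAbove ↥(F ⊔ ℚ⟮ζ m⟯) q).ncard := by
  classical
  obtain ⟨m1, hm1⟩ := exists_finrank_layer_succ_eq F hζ
  have hq : ∀ q : S, ∃ m0, ∀ m, m0 ≤ m →
      (primesAbove ↥(F ⊔ ℚ⟮ζ (m + 1)⟯) (q : ℕ)).ncard =
        (primesAbove ↥(F ⊔ ℚ⟮ζ m⟯) (q : ℕ)).ncard :=
    fun q => exists_ncard_primesAbove_layer_succ_eq F hζ hp2 (hS q q.2)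
  choose f hf using hq
  refine ⟨max m1 (Finset.univ.sup f), fun m hm => ⟨hm1 m (le_trans (le_max_left _ _) hm), ?_⟩⟩
  intro q hqS
  refine hf ⟨q, hqS⟩ m (le_trans ?_ (le_trans (le_max_right _ _) hm))
  exact Finset.le_sup (f := f) (Finset.mem_univ (⟨q, hqS⟩ : S))

end Primes

/-! ## The main statements -/

section Invariance

/-- The number of primes above `q` only depends on the isomorphism class of the field. -/
lemma ncard_primesAbove_eq_of_ringEquiv {K K' : Type*} [Field K] [NumberField K] [Field K']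
    [NumberField K'] (e : K ≃+* K') {q : ℕ} (hq : q.Prime) :
    (primesAbove K q).ncard = (primesAbove K' q).ncard := by
  apply le_antisymm
  · let _ : Algebra K K' := e.toRingHom.toAlgebra
    exact ncard_primesAbove_le K K' hq
  · let _ : Algebra K' K := e.symm.toRingHom.toAlgebra
    exact ncard_primesAbove_le K' K hq

/-- The degree over `ℚ` only depends on the isomorphism class of the field. -/
lemma finrank_rat_eq_of_ringEquiv {K K' : Type*} [Field K] [CharZero K] [Field K'] [CharZero K']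
    (e : K ≃+* K') : Module.finrank ℚ K = Module.finrank ℚ K' :=
  (AlgEquiv.ofRingEquiv (f := e) (fun x => by simp)).toLinearEquiv.finrank_eq

end Invariance

section Main

open IntermediateField

universe u v

variable {Ω : Type*} [Field Ω] [CharZero Ω]
variable {p : ℕ} [hp : Fact p.Prime] (F : IntermediateField ℚ Ω) [FiniteDimensional ℚ F]
variable {ζ : ℕ → Ω} (hζ : ∀ m, IsPrimitiveRoot (ζ m) (p ^ m))

include hζ

/-- **Cyclotomic cofinality.**  Let `F` be a number field (inside `Ω`), `p` an odd prime, `ζ m`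
primitive `p ^ m`-th roots of unity and `S` a finite set of rational primes.  For `m` large, any
extension `M / K` of number fields with `K ≅ F(ζ_{p^m})` and `M ≅ F(ζ_{p^(m+1)})` has degree `p`,
and every prime of `K` above a prime in `S` has exactly one prime of `M` above it. -/
theorem exists_nonsplit_layers (hp2 : Odd p) (S : Finset ℕ) (hS : ∀ q ∈ S, q.Prime) :
    ∃ m0, ∀ m, m0 ≤ m →
      ∀ (K : Type u) (M : Type v) [Field K] [NumberField K] [Field M] [NumberField M]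
        [Algebra K M], (K ≃+* ↥(F ⊔ ℚ⟮ζ m⟯)) → (M ≃+* ↥(F ⊔ ℚ⟮ζ (m + 1)⟯)) →
        Module.finrank K M = p ∧
        ∀ q ∈ S, ∀ v : HeightOneSpectrum (𝓞 K), (q : 𝓞 K) ∈ v.asIdeal →
          ∀ w w' : HeightOneSpectrum (𝓞 M), w.under (𝓞 K) = v → w'.under (𝓞 K) = v → w = w' := by
  obtain ⟨m0, hm0⟩ := exists_stable F hζ hp2 S hS
  refine ⟨m0, fun m hm K M _ _ _ _ _ eK eM => ?_⟩
  obtain ⟨hdeg, hcard⟩ := hm0 m hm
  have hfK : FiniteDimensional ℚ ↥(F ⊔ ℚ⟮ζ m⟯) := finiteDimensional_layer F hζ m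
  have hfM : FiniteDimensional ℚ ↥(F ⊔ ℚ⟮ζ (m + 1)⟯) := finiteDimensional_layer F hζ (m + 1)
  have hnK : NumberField ↥(F ⊔ ℚ⟮ζ m⟯) := numberField_of_finiteDimensional _
  have hnM : NumberField ↥(F ⊔ ℚ⟮ζ (m + 1)⟯) := numberField_of_finiteDimensional _
  refine ⟨?_, fun q hq v hv w w' hw hw' => ?_⟩
  · have h1 := finrank_rat_mul_finrank K M
    rw [finrank_rat_eq_of_ringEquiv eK, finrank_rat_eq_of_ringEquiv eM, hdeg, mul_comm] at h1
    exact Nat.eq_of_mul_eq_mul_right (finrank_layer_pos F hζ m) h1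
  · refine nonsplit_of_ncard_eq K M (hS q hq) ?_ v hv w w' hw hw'
    rw [ncard_primesAbove_eq_of_ringEquiv eK (hS q hq),
      ncard_primesAbove_eq_of_ringEquiv eM (hS q hq)]
    exact hcard q hq

/-- `F(ζ_{p^m})` is a number field. -/
lemma numberField_layer (m : ℕ) : NumberField ↥(F ⊔ ℚ⟮ζ m⟯) := by
  have := finiteDimensional_layer F hζ m
  exact numberField_of_finiteDimensional _

/-- `F(ζ_{p^m})(ζ_{p^(m+1)})`, as an extension of `F(ζ_{p^m})`, is isomorphic to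
`F(ζ_{p^(m+1)})`. -/
noncomputable def adjoinEquivLayer (m : ℕ) :
    ↥(IntermediateField.adjoin ↥(F ⊔ ℚ⟮ζ m⟯) {ζ (m + 1)}) ≃+* ↥(F ⊔ ℚ⟮ζ (m + 1)⟯) :=
  (IntermediateField.equivOfEq
    ((IntermediateField.restrictScalars_adjoin_eq_sup ℚ (F ⊔ ℚ⟮ζ m⟯) ({ζ (m + 1)} : Set Ω)).trans
      (layer_sup_succ F hζ m))).toRingEquiv

/-- `F(ζ_{p^m})(ζ_{p^(m+1)})` is a number field. -/
lemma numberField_adjoin (m : ℕ) :
    NumberField ↥(IntermediateField.adjoin ↥(F ⊔ ℚ⟮ζ m⟯) {ζ (m + 1)}) := by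
  have := finiteDimensional_layer F hζ (m + 1)
  have e : ↥(IntermediateField.adjoin ↥(F ⊔ ℚ⟮ζ m⟯) {ζ (m + 1)}) ≃ₐ[ℚ] ↥(F ⊔ ℚ⟮ζ (m + 1)⟯) :=
    AlgEquiv.ofRingEquiv (f := adjoinEquivLayer F hζ m) (fun x => by simp)
  have : FiniteDimensional ℚ ↥(IntermediateField.adjoin ↥(F ⊔ ℚ⟮ζ m⟯) {ζ (m + 1)}) :=
    e.symm.toLinearEquiv.finiteDimensional
  exact { to_charZero := inferInstance, to_finiteDimensional := inferInstance }

/-- **Cyclotomic cofinality**, relative form.  With `K = F(ζ_{p^m})` and `M = K(ζ_{p^(m+1)})`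
(an intermediate field of `Ω / K`): for `m` large, `M / K` is Galois of degree `p` and every prime
of `K` above a prime in `S` has exactly one prime of `M` above it. -/
theorem exists_nonsplit_adjoin (hp2 : Odd p) (S : Finset ℕ) (hS : ∀ q ∈ S, q.Prime) :
    ∃ m0, ∀ m, m0 ≤ m →
      ∀ [NumberField ↥(F ⊔ ℚ⟮ζ m⟯)]
        [NumberField ↥(IntermediateField.adjoin ↥(F ⊔ ℚ⟮ζ m⟯) {ζ (m + 1)})],
        IsGalois ↥(F ⊔ ℚ⟮ζ m⟯) ↥(IntermediateField.adjoin ↥(F ⊔ ℚ⟮ζ m⟯) {ζ (m + 1)}) ∧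
        Module.finrank ↥(F ⊔ ℚ⟮ζ m⟯) ↥(IntermediateField.adjoin ↥(F ⊔ ℚ⟮ζ m⟯) {ζ (m + 1)}) = p ∧
        ∀ q ∈ S, ∀ v : HeightOneSpectrum (𝓞 ↥(F ⊔ ℚ⟮ζ m⟯)), (q : 𝓞 ↥(F ⊔ ℚ⟮ζ m⟯)) ∈ v.asIdeal →
          ∀ w w' : HeightOneSpectrum (𝓞 ↥(IntermediateField.adjoin ↥(F ⊔ ℚ⟮ζ m⟯) {ζ (m + 1)})),
            w.under (𝓞 ↥(F ⊔ ℚ⟮ζ m⟯)) = v → w'.under (𝓞 ↥(F ⊔ ℚ⟮ζ m⟯)) = v → w = w' := by
  obtain ⟨m0, hm0⟩ := exists_nonsplit_layers F hζ hp2 S hS
  refine ⟨m0, fun m hm _ _ => ?_⟩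
  obtain ⟨h1, h2⟩ := hm0 m hm ↥(F ⊔ ℚ⟮ζ m⟯) ↥(IntermediateField.adjoin ↥(F ⊔ ℚ⟮ζ m⟯) {ζ (m + 1)})
    (RingEquiv.refl _) (adjoinEquivLayer F hζ m)
  exact ⟨isGalois_adjoin_root _ (pow_pos hp.out.pos (m + 1)) (hζ (m + 1)), h1, h2⟩

end Main

end Fermat.Agent.CFT.Count.CycloCofinal
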