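import Fermat.Agent.S55.Base.Skeleton
import Fermat.Agent.CFT.Count.AbsCount
import Fermat.Agent.CFT.Count.ClassQuot

/-!
# COUNT, K-side: `finCl` and the class-group part of `count` for the concrete datum `kData`

`K ≤ Qb` a number field containing a primitive `p`-th root of unity `ζ`, unramified outside
`S ∋ p`, `X : KArith K (ZMod p) S` whose ramified characters `κ_w` (`w ∉ S_K`) are the Kummer
characters of uniformisers (`hκ`).  Then for every `a ∈ Kˣ` the pair
`((res_v kum a)_v, div(a) mod p)` is global (`isGlobal_kum`), hence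
`𝕁 ⧸ (Dgl ⊔ 𝕁_S)` is a quotient of `coker (div mod p) ≅ Cl_S / p`:
`finCl` and `finrank_quotient_le`.
-/

set_option autoImplicit false

open scoped NumberField IntermediateField
open IsDedekindDomain

namespace Fermat.Agent.CFT.Count.KSide

local notation "Qb" => AlgebraicClosure ℚ
local notation "Gq" => (AlgebraicClosure ℚ ≃ₐ[ℚ] AlgebraicClosure ℚ)

open Fermat.Agent.S55.Base Fermat.Agent.CFT.Global.CountV Fermat.Agent.CFT.Kummer
  Fermat.Agent.S14.Wiring.ValRing Fermat.Agent.CFT.Global.SelmerCount Fermat.Agent.CFT.Count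

variable {p : ℕ} [Fact p.Prime] {S : Finset Nat.Primes} {K : IntermediateField ℚ Qb}
  [NumberField K] (ζ : K) (hζ : IsPrimitiveRoot ζ p)

/-- The level field `K(a^{1/p})` of the Kummer character of `a`. -/
noncomputable abbrev kumField (p : ℕ) [Fact p.Prime] (a : Kˣ) : IntermediateField ℚ Qb :=
  (K⟮root p K a⟯).restrictScalars ℚ

instance finiteDimensional_kumField (a : Kˣ) : FiniteDimensional ℚ (kumField p a) :=
  finiteDimensional_adjoin_simple K _

omit [NumberField K] in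
/-- The Kummer character of `a` is constant modulo `Fix K(a^{1/p})`. -/
theorem kum_mul_of_mem_kumField (a : Kˣ) (g s : GK K)
    (hs : (s : Gq) ∈ (kumField p a).fixingSubgroup) :
    kum K ζ hζ a (g * s) = kum K ζ hζ a g :=
  kum_mul_of_fix K ζ hζ a _ (root_pow K a) g s
    (apply_eq_of_mem_fixingSubgroup_adjoin_simple K _ _ hs)

omit [NumberField K] in
theorem kum_zpow (a : Kˣ) (m : ℤ) : kum K ζ hζ (a ^ m) = m • kum K ζ hζ a := by
  have h := map_zpow (kumHom K ζ hζ) a m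
  exact congrArg Multiplicative.toAdd h

/-- Inertia at a valuation subring over a prime `ℓ ∉ S` fixes `K(a^{1/p})` as soon as
`p ∣ ord_w a` at the place `w` of `K` below it. -/
theorem inertia_le_kumField (hpS : ExtCitation.pPrime p ∈ S) (hK : K.IsUnramifiedOutside S)
    (a : Kˣ) (A : ValuationSubring Qb) (ℓ : ℕ) (hℓ : ℓ.Prime) (hA : A.LiesOverPrime ℓ)
    (hℓS : (⟨ℓ, hℓ⟩ : Nat.Primes) ∉ S) (w : Pl K) (hw : w.asIdeal = primeUnder K A) (x : K)
    (hx : w.valuation K ((a : K) * x ^ p) = 1) :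
    A.inertiaSubgroupIn ℚ ≤ (kumField p a).fixingSubgroup := by
  intro σ hσ
  have hp : p.Prime := Fact.out
  have hσK : σ ∈ K.fixingSubgroup := hK.2 ⟨ℓ, hℓ⟩ hℓS A hA hσ
  have hcop : Nat.Coprime ℓ p := by
    rw [Nat.coprime_primes hℓ hp]
    rintro rfl
    exact hℓS hpS
  have hx' : A.valuation (((a : K) : Qb) * (x : Qb) ^ p) = 1 := by
    have h := (valuation_eq_one_iff hw ((a : K) * x ^ p)).1 hx
    simpa using h
  exact mem_fixingSubgroup_adjoin_simple K _ σ hσK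
    (inertia_fixes_of_valuation_eq_one K _ (a : K) (root_pow K a) A ℓ hcop hA x hx' σ hσ hσK)

/-- The rational prime below a place outside `S_K` is outside `S`. -/
theorem exists_prime_of_not_mem_SK (w : Pl K) (hw : w ∉ SK S K) :
    ∃ (ℓ : ℕ) (hℓ : ℓ.Prime), (valAt K w).LiesOverPrime ℓ ∧ (⟨ℓ, hℓ⟩ : Nat.Primes) ∉ S := by
  obtain ⟨ℓ, hℓ, hmem⟩ := exists_prime_natCast_mem w
  exact ⟨ℓ, hℓ, liesOverPrime_of_natCast_mem (valAt_spec K w) hmem,
    fun hS => hw ((mem_SK_iff S K w).2 ⟨⟨ℓ, hℓ⟩, hS, hmem⟩)⟩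

/-- The divisor of `a` modulo `p` outside `S_K`. -/
noncomputable abbrev dv (p : ℕ) (S : Finset Nat.Primes) (K : IntermediateField ℚ Qb)
    [NumberField K] (a : Kˣ) : Outside (SK S K) →₀ ZMod p :=
  Multiplicative.toAdd (divModHom (R := 𝓞 K) K p (SK S K) a)

theorem dv_apply (a : Kˣ) (w : Outside (SK S K)) :
    dv p S K a w = ((-Multiplicative.toAdd (w.1.valuationOfNeZero a) : ℤ) : ZMod p) :=
  toAdd_divModHom_apply' K p (SK S K) a w

theorem valuation_eq_exp (w : Pl K) (a : Kˣ) :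
    w.valuation K (a : K) = WithZero.exp (Multiplicative.toAdd (w.valuationOfNeZero a)) :=
  (w.valuationOfNeZero_eq a).symm

/-- `dv a w = 0` means `p ∣ ord_w a`. -/
theorem exists_of_dv_eq_zero (a : Kˣ) (w : Outside (SK S K)) (h : dv p S K a w = 0) :
    ∃ x : K, x ≠ 0 ∧ w.1.valuation K ((a : K) * x ^ p) = 1 := by
  rw [exists_valuation_mul_pow_eq_one_iff K w.1 (a : K) a.ne_zero]
  rw [dv_apply, ZMod.intCast_zmod_eq_zero_iff_dvd, dvd_neg] at h
  obtain ⟨m, hm⟩ := h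
  exact ⟨m, by rw [valuation_eq_exp, hm]⟩

variable (X : KArith K (ZMod p) S)

/-- For `w ∉ S_K`: `res_w (kum a) - ord_w(a) • κ_w` is unramified at `w`. -/
theorem ram_outside (hpS : ExtCitation.pPrime p ∈ S) (hK : K.IsUnramifiedOutside S)
    (hκ : ∀ w : Pl K, w ∉ SK S K → ∃ π : Kˣ, w.valuation K (π : K) = WithZero.exp (-1 : ℤ) ∧
      ∀ s : ↥(Dloc K w), X.κ w s = kum K ζ hζ π (s : GK K))
    (a : Kˣ) (w : Outside (SK S K)) :
    (fun s : ↥(Dloc K w.1) => kum K ζ hζ a (s : GK K)) - (dv p S K a w) • X.κ w.1 ∈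
      (kData (ZMod p) S X).U1 w.1 := by
  obtain ⟨π, hπ, hκw⟩ := hκ w.1 w.2
  obtain ⟨ℓ, hℓ, hA, hℓS⟩ := exists_prime_of_not_mem_SK w.1 w.2
  set m : ℤ := Multiplicative.toAdd (w.1.valuationOfNeZero a) with hm
  set b : Kˣ := a * π ^ m with hb
  have hvb : w.1.valuation K ((b : K) * (1 : K) ^ p) = 1 := by
    rw [one_pow, mul_one, hb, Units.val_mul, Units.val_zpow_eq_zpow_val, map_mul, map_zpow₀, hπ,
      valuation_eq_exp, ← hm, ← WithZero.exp_zsmul, ← WithZero.exp_add, ← WithZero.exp_zero]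
    congr 1
    simp
  have hfun : (fun s : ↥(Dloc K w.1) => kum K ζ hζ a (s : GK K)) - (dv p S K a w) • X.κ w.1 =
      fun s : ↥(Dloc K w.1) => kum K ζ hζ b (s : GK K) := by
    funext s
    simp only [Pi.sub_apply, Pi.smul_apply, smul_eq_mul]
    rw [hκw, dv_apply, hb, kum_mul, kum_zpow, ← hm]
    simp only [Pi.add_apply, zsmul_eq_mul, Pi.mul_apply, Pi.intCast_apply]
    push_cast
    ring
  rw [hfun]
  exact (mem_kData_U1_iff X w.1 _).2 ⟨kumField p b, inferInstance,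
    inertia_le_kumField hpS hK b (valAt K w.1) ℓ hℓ hA hℓS w.1 (valAt_spec K w.1) 1 hvb,
    fun g s hs => kum_mul_of_mem_kumField ζ hζ b (g : GK K) (s : GK K) hs⟩

/-- **Principal divisors are global.**  If the ramified characters `κ_w` (`w ∉ S_K`) are Kummer
characters of uniformisers, then for every `a ∈ Kˣ` the element
`((res_v kum a)_{v ∈ S_K}, div(a) mod p)` of `𝕁` is global. -/
theorem isGlobal_kum (hpS : ExtCitation.pPrime p ∈ S) (hK : K.IsUnramifiedOutside S)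
    (hκ : ∀ w : Pl K, w ∉ SK S K → ∃ π : Kˣ, w.valuation K (π : K) = WithZero.exp (-1 : ℤ) ∧
      ∀ s : ↥(Dloc K w), X.κ w s = kum K ζ hζ π (s : GK K))
    (a : Kˣ) :
    ∃ ξ, (kData (ZMod p) S X).IsGlobal (ξ, dv p S K a) := by
  classical
  have hp : p.Prime := Fact.out
  set c : GK K → ZMod p := kum K ζ hζ a with hc
  -- `c` restricted to the local groups lies in `Hloc`
  have hHloc : ∀ v : Pl K, (kData (ZMod p) S X).rs1 v c ∈ (kData (ZMod p) S X).Hloc v := by
    intro v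
    refine ⟨(mem_kData_L1_iff X v _).2 ⟨kumField p a, inferInstance, fun g s hs =>
      kum_mul_of_mem_kumField ζ hζ a (g : GK K) (s : GK K) hs⟩, ?_⟩
    have key : ∀ g h : ↥(Dloc K v),
        c (h : GK K) - c ((g : GK K) * (h : GK K)) + c (g : GK K) = 0 := by
      intro g h
      rw [hc, kum_map_mul]
      ring
    exact LinearMap.mem_ker.2 (funext fun x =>
      (kData_dl1_apply X v (fun s : ↥(Dloc K v) => c (s : GK K)) x.1 x.2).trans (key x.1 x.2))
  refine ⟨fun v => ⟨(kData (ZMod p) S X).rs1 v c, hHloc v⟩, ?_⟩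
  refine ⟨SK S K ∪ (dv p S K a).support.map ⟨Subtype.val, Subtype.val_injective⟩,
    Finset.subset_union_left, c, ?_, ?_, fun v => rfl, ?_⟩
  · -- level
    refine (mem_kData_C1_iff X _ c).2 ⟨kumField p a, ⟨inferInstance, fun ℓ hℓ A hA hT => ?_⟩,
      fun g s hs => kum_mul_of_mem_kumField ζ hζ a g s hs⟩
    set w' : Pl K := placeUnder K A hℓ hA with hw'
    have hw'T : w' ∉ SK S K ∪ (dv p S K a).support.map ⟨Subtype.val, Subtype.val_injective⟩ :=
      fun h => hT w' h rfl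
    rw [Finset.mem_union, not_or] at hw'T
    have hℓS : (⟨ℓ, hℓ⟩ : Nat.Primes) ∉ S := fun hS =>
      hw'T.1 ((mem_SK_iff S K _).2 ⟨⟨ℓ, hℓ⟩, hS, (natCast_mem_primeUnder_iff K A ℓ).2 hA⟩)
    have hd0 : dv p S K a ⟨w', hw'T.1⟩ = 0 := by
      by_contra hne
      exact hw'T.2 (Finset.mem_map.2 ⟨⟨w', hw'T.1⟩, Finsupp.mem_support_iff.2 hne, rfl⟩)
    obtain ⟨x, -, hx⟩ := exists_of_dv_eq_zero a ⟨w', hw'T.1⟩ hd0
    exact inertia_le_kumField hpS hK a A ℓ hℓ hA hℓS w' rfl x hx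
  · -- cocycle
    funext ⟨σ, τ⟩
    rw [kData_d1_apply, hc, kum_map_mul]
    show kum K ζ hζ a τ - (kum K ζ hζ a σ + kum K ζ hζ a τ) + kum K ζ hζ a σ = 0
    ring
  · -- ramification outside `S_K`
    intro w
    exact ram_outside ζ hζ X hpS hK hκ a ⟨w.1, w.2⟩

/-- The principal divisors modulo `p` outside `S_K`, as a `ZMod p`-submodule. -/
noncomputable def divSub (p : ℕ) [Fact p.Prime] (S : Finset Nat.Primes)
    (K : IntermediateField ℚ Qb) [NumberField K] :
    Submodule (ZMod p) (Outside (SK S K) →₀ ZMod p) :=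
  AddSubgroup.toZModSubmodule p (divRange (R := 𝓞 K) K p (SK S K))

theorem mem_divSub_iff (d : Outside (SK S K) →₀ ZMod p) :
    d ∈ divSub p S K ↔ ∃ a : Kˣ, dv p S K a = d :=
  mem_divRange_iff K p (SK S K) d

theorem range_subtype_divSub (d : Outside (SK S K) →₀ ZMod p) :
    d ∈ LinearMap.range (divSub p S K).subtype ↔
      ∃ a : Kˣ, Multiplicative.toAdd (divModHom (R := 𝓞 K) K p (SK S K) a) = d := by
  rw [Submodule.range_subtype]
  exact mem_divSub_iff d

/-- The inclusion of the principal divisors, typed for the concrete datum. -/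
noncomputable def ordK : ↥(divSub p S K) →ₗ[ZMod p] ((kData (ZMod p) S X).Out →₀ ZMod p) :=
  (divSub p S K).subtype

/-- `hglob` of `AbsCount` for the concrete datum. -/
theorem hglob (hpS : ExtCitation.pPrime p ∈ S) (hK : K.IsUnramifiedOutside S)
    (hκ : ∀ w : Pl K, w ∉ SK S K → ∃ π : Kˣ, w.valuation K (π : K) = WithZero.exp (-1 : ℤ) ∧
      ∀ s : ↥(Dloc K w), X.κ w s = kum K ζ hζ π (s : GK K))
    (d : ↥(divSub p S K)) :
    ∃ ξ, (kData (ZMod p) S X).IsGlobal (ξ, ordK X d) := by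
  obtain ⟨a, ha⟩ := (mem_divSub_iff d.1).1 d.2
  obtain ⟨ξ, hξ⟩ := isGlobal_kum ζ hζ X hpS hK hκ a
  refine ⟨ξ, ?_⟩
  have h2 : ordK X d = dv p S K a := ha.symm
  rw [h2]
  exact hξ

/-- **finCl + (c4), K-side.**  If `[Cl_S : p] = p ^ ρ` then `𝕁 ⧸ (Dgl ⊔ 𝕁_S)` is finite-dimensional
of dimension `≤ ρ`. -/
theorem finCl_and_finrank_le (hpS : ExtCitation.pPrime p ∈ S) (hK : K.IsUnramifiedOutside S)
    (hκ : ∀ w : Pl K, w ∉ SK S K → ∃ π : Kˣ, w.valuation K (π : K) = WithZero.exp (-1 : ℤ) ∧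
      ∀ s : ↥(Dloc K w), X.κ w s = kum K ζ hζ π (s : GK K))
    {ρ : ℕ} (hρ : (clS (𝓞 K) p (SK S K)).index = p ^ ρ) :
    Module.Finite (ZMod p)
        ((kData (ZMod p) S X).J ⧸ ((kData (ZMod p) S X).Dgl ⊔ (kData (ZMod p) S X).JS)) ∧
      Module.finrank (ZMod p)
        ((kData (ZMod p) S X).J ⧸ ((kData (ZMod p) S X).Dgl ⊔ (kData (ZMod p) S X).JS)) ≤ ρ := by
  have hord : ∀ d, d ∈ LinearMap.range (divSub p S K).subtype ↔
      ∃ a : Kˣ, Multiplicative.toAdd (divModHom (R := 𝓞 K) K p (SK S K) a) = d :=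
    fun d => range_subtype_divSub d
  have h0 := finrank_quotient_range_ord (R := 𝓞 K) K p (SK S K)
    (Γ := ↥(divSub p S K)) (divSub p S K).subtype hord hρ
  have hfin' : Module.Finite (ZMod p)
      (((kData (ZMod p) S X).Out →₀ ZMod p) ⧸ LinearMap.range (ordK X)) := h0.1
  have hg := hglob ζ hζ X hpS hK hκ
  refine ⟨AbsCount.finite_quotient (kData (ZMod p) S X) (ordK X) hg, ?_⟩
  have h := AbsCount.finrank_quotient_le (kData (ZMod p) S X) (ordK X) hg
  have h1 : Module.finrank (ZMod p)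
      (((kData (ZMod p) S X).Out →₀ ZMod p) ⧸ LinearMap.range (ordK X)) = ρ := h0.2
  exact h.trans h1.le

end Fermat.Agent.CFT.Count.KSide
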