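/-
COUNT (C-LOC): the index of `p`-th powers in a finite extension `E` of `ℚ_q` inside
`PadicAlgCl q` containing the `p`-th roots of unity:
`[Eˣ : (Eˣ)^p] = p ^ (2 + [E : ℚ_p])` if `q = p`, and `= p ^ 2` if `q ≠ p`.
-/
import Mathlib
import Fermat.Agent.CFT.Local.PadicExt
import Fermat.Agent.CFT.Local.WildIndex

set_option autoImplicit false
set_option maxSynthPendingDepth 3

namespace Fermat.Agent.CFT.Count

open scoped NNReal NormedField Valued
open IsLocalRing Module Fermat.Agent.CFT.Local.NormedLocal Fermat.Agent.CFT.Local.PadicExt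

section Generic

/-- For a finite free `R`-algebra `S` and `a : R`: `|S / aS| = |R / aR| ^ rank`. -/
theorem card_quotient_span_algebraMap {R S : Type*} [CommRing R] [Nontrivial R] [CommRing S] [Algebra R S]
    [Module.Free R S] [Module.Finite R S] (a : R) :
    Nat.card (S ⧸ Ideal.span {algebraMap R S a}) =
      Nat.card (R ⧸ Ideal.span {a}) ^ Module.finrank R S := by
  classical
  let e : S ≃ₗ[R] (Fin (Module.finrank R S) → R) := (Module.finBasis R S).equivFun
  let π : (Fin (Module.finrank R S) → R) →ₗ[R] (Fin (Module.finrank R S) → R ⧸ Ideal.span {a}) :=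
    LinearMap.pi fun i => (Submodule.mkQ (Ideal.span {a})).comp (LinearMap.proj i)
  let φ : S →ₗ[R] (Fin (Module.finrank R S) → R ⧸ Ideal.span {a}) := π.comp e.toLinearMap
  have hφ : ∀ x i, φ x i = Submodule.Quotient.mk (e x i) := fun x i => rfl
  have hsurj : Function.Surjective φ := by
    intro y
    choose z hz using fun i => Submodule.Quotient.mk_surjective (Ideal.span {a}) (y i)
    refine ⟨e.symm z, ?_⟩
    funext i
    rw [hφ, LinearEquiv.apply_symm_apply, hz]
  have hker : LinearMap.ker φ = (Ideal.span {algebraMap R S a}).restrictScalars R := by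
    ext x
    rw [LinearMap.mem_ker, Submodule.restrictScalars_mem, Ideal.mem_span_singleton']
    constructor
    · intro hx
      have hx' : ∀ i, ∃ c, c * a = e x i := fun i => by
        have h1 : φ x i = 0 := congrFun hx i
        rw [hφ, Submodule.Quotient.mk_eq_zero] at h1
        exact Ideal.mem_span_singleton'.1 h1
      choose c hc using hx'
      refine ⟨e.symm c, ?_⟩
      apply e.injective
      funext i
      rw [mul_comm, ← Algebra.smul_def, map_smul, LinearEquiv.apply_symm_apply, Pi.smul_apply,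
        smul_eq_mul, mul_comm, hc]
    · rintro ⟨y, rfl⟩
      funext i
      rw [hφ, mul_comm, ← Algebra.smul_def, map_smul, Pi.smul_apply, smul_eq_mul, Pi.zero_apply,
        Submodule.Quotient.mk_eq_zero]
      exact Ideal.mem_span_singleton'.2 ⟨e y i, mul_comm _ _⟩
  have e1 : (S ⧸ LinearMap.ker φ) ≃ₗ[R] (Fin (Module.finrank R S) → R ⧸ Ideal.span {a}) :=
    φ.quotKerEquivOfSurjective hsurj
  have e2 := (Submodule.Quotient.restrictScalarsEquiv R (Ideal.span {algebraMap R S a})).toEquiv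
  rw [← Nat.card_congr e2, ← hker, Nat.card_congr e1.toEquiv, Nat.card_fun, Nat.card_fin]

end Generic

section Padic

variable (q : ℕ) [Fact q.Prime]

/-- `ℤ_[q]` is the valuation ring `𝒪[ℚ_[q]]` of the normed field `ℚ_[q]`. -/
noncomputable def padicIntEquivInteger : ℤ_[q] ≃+* 𝒪[ℚ_[q]] where
  toFun x := ⟨x.1, Valued.integer.mem_iff.2 x.2⟩
  invFun x := ⟨x.1, Valued.integer.mem_iff.1 x.2⟩
  left_inv _ := rfl
  right_inv _ := rfl
  map_mul' _ _ := rfl
  map_add' _ _ := rfl

theorem card_integer_padic_quotient :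
    Nat.card (𝒪[ℚ_[q]] ⧸ Ideal.span {((q : ℕ) : 𝒪[ℚ_[q]])}) = q := by
  let f : 𝒪[ℚ_[q]] →+* ZMod q :=
    (PadicInt.toZMod (p := q)).comp (padicIntEquivInteger q).symm.toRingHom
  have hsurj : Function.Surjective f := ZMod.ringHom_surjective f
  have hker : RingHom.ker f = Ideal.span {((q : ℕ) : 𝒪[ℚ_[q]])} := by
    ext x
    rw [RingHom.mem_ker, Ideal.mem_span_singleton']
    change PadicInt.toZMod ((padicIntEquivInteger q).symm x) = 0 ↔ _
    rw [← RingHom.mem_ker, PadicInt.ker_toZMod, PadicInt.maximalIdeal_eq_span_p,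
      Ideal.mem_span_singleton']
    constructor
    · rintro ⟨c, hc⟩
      refine ⟨padicIntEquivInteger q c, ?_⟩
      apply (padicIntEquivInteger q).symm.injective
      rw [map_mul, RingEquiv.symm_apply_apply, map_natCast]
      exact hc
    · rintro ⟨c, rfl⟩
      exact ⟨(padicIntEquivInteger q).symm c, by rw [map_mul, map_natCast]⟩
  rw [← hker, Nat.card_congr (RingHom.quotientKerEquivOfSurjective hsurj).toEquiv, Nat.card_zmod]

variable (E : IntermediateField ℚ_[q] (PadicAlgCl q)) [FiniteDimensional ℚ_[q] E]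

/-- `|𝒪_E / q 𝒪_E| = q ^ [E : ℚ_q]`. -/
theorem card_integer_quotient_natCast_self :
    Nat.card (𝒪[E] ⧸ Ideal.span {((q : ℕ) : 𝒪[E])}) = q ^ Module.finrank ℚ_[q] E := by
  have := finite_integer ℚ_[q] E
  have := free_integer ℚ_[q] E
  have h := card_quotient_span_algebraMap (R := 𝒪[ℚ_[q]]) (S := 𝒪[E]) ((q : ℕ) : 𝒪[ℚ_[q]])
  rw [map_natCast, card_integer_padic_quotient, finrank_integer] at h
  exact h

end Padic

section Index

variable (q : ℕ) [Fact q.Prime] (E : IntermediateField ℚ_[q] (PadicAlgCl q))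

theorem norm_natCast_eq_one_of_ne {p : ℕ} (hp : p.Prime) (hqp : q ≠ p) :
    ‖((p : ℕ) : E)‖ = 1 := by
  have h : ‖((p : ℕ) : E)‖ = ‖((p : ℕ) : ℚ_[q])‖ := by
    rw [← map_natCast (algebraMap ℚ_[q] E) p, norm_algebraMap']
  rw [h, Padic.norm_natCast_eq_one_iff]
  exact (Nat.coprime_primes Fact.out hp).2 hqp

/-- A primitive `p`-th root of unity of `E` lies in `𝒪[E]`. -/
theorem exists_integer_isPrimitiveRoot {p : ℕ} (hp : p.Prime) {ζ : E}
    (hζ : IsPrimitiveRoot ζ p) : ∃ z : 𝒪[E], IsPrimitiveRoot z p := by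
  have hn : ‖ζ‖ = 1 := by
    have h1 : ‖ζ‖ ^ p = 1 := by rw [← norm_pow, hζ.pow_eq_one, norm_one]
    exact (pow_eq_one_iff_of_nonneg (norm_nonneg _) hp.ne_zero).1 h1
  refine ⟨⟨ζ, Valued.integer.mem_iff.2 hn.le⟩, ?_⟩
  exact IsPrimitiveRoot.of_map_of_injective (f := (𝒪[E]).subtype) (hf := Subtype.val_injective) hζ

variable [FiniteDimensional ℚ_[q] E]

/-- **Local power index.** For a finite extension `E` of `ℚ_q` (inside `PadicAlgCl q`) containing
a primitive `p`-th root of unity: `[Eˣ : (Eˣ)^p] = p ^ (2 + [E : ℚ_p])` if `q = p` and `p ^ 2`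
otherwise. -/
theorem index_range_pow_units {p : ℕ} (hp : p.Prime) {ζ : E} (hζ : IsPrimitiveRoot ζ p) :
    (powMonoidHom p : Eˣ →* Eˣ).range.index =
      if q = p then p ^ (2 + Module.finrank ℚ_[q] E) else p ^ 2 := by
  obtain ⟨z, hz⟩ := exists_integer_isPrimitiveRoot q E hp hζ
  split_ifs with hqp
  · subst hqp
    have hp0 : ((q : ℕ) : 𝒪[E]) ≠ 0 := by
      exact_mod_cast (Fact.out : q.Prime).ne_zero
    rw [Fermat.Agent.CFT.Local.index_range_pow_prime_fractionField_of_primitiveRoot E hp hp0 hz,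
      card_integer_quotient_natCast_self, pow_add]
  · have hpu : IsUnit ((p : ℕ) : 𝒪[E]) :=
      Valued.integer.isUnit_iff_norm_eq_one.2 (norm_natCast_eq_one_of_ne q E hp hqp)
    exact Fermat.Agent.CFT.Local.index_range_pow_prime_fractionField_tame_of_primitiveRoot E hp
      hpu hz

/-- Cardinality form: `|Eˣ / (Eˣ)^p|`. -/
theorem card_units_quotient_pow {p : ℕ} (hp : p.Prime) {ζ : E} (hζ : IsPrimitiveRoot ζ p) :
    Nat.card (Eˣ ⧸ (powMonoidHom p : Eˣ →* Eˣ).range) =
      if q = p then p ^ (2 + Module.finrank ℚ_[q] E) else p ^ 2 := by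
  rw [← Subgroup.index_eq_card, index_range_pow_units q E hp hζ]

/-- `Eˣ / (Eˣ)^p` is finite. -/
theorem finite_units_quotient_pow {p : ℕ} (hp : p.Prime) {ζ : E} (hζ : IsPrimitiveRoot ζ p) :
    Finite (Eˣ ⧸ (powMonoidHom p : Eˣ →* Eˣ).range) := by
  apply Nat.finite_of_card_ne_zero
  rw [card_units_quotient_pow q E hp hζ]
  split_ifs <;> exact pow_ne_zero _ hp.ne_zero

end Index

end Fermat.Agent.CFT.Count
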