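import Fermat.Agent.CFT.Count.C4K
import Fermat.Agent.CFT.Global.CountQ

/-!
# COUNT: one-stop summary of the numerical inputs `(c3)`, `(c4)` and the arithmetic `A + 2c = 2Bd`

For `K ≤ Qb` a number field containing a primitive `p`-th root of unity (`p` odd), unramified
outside `S ∋ p`, there is ONE `ρ` (`p ^ ρ = [Cl : Cl^p ⊔ ⟨S_K⟩]`) such that
* `dim H¹(G_{ℚ,S}, N) = r₂ + |S_K| + ρ` for `N = M0(K)` and for its dual twist (`CountQ`),
* `dim P0 ⧸ (principal divisors) = ρ` (`C4K`),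
* `(2 |S_K| + [K : ℚ]) + 2 ρ = 2 (r₂ + |S_K| + ρ)`.
So with `A := 2 |S_K| + [K : ℚ]` (the bound of `(c1)`), `c := ρ`, `Bd := r₂ + |S_K| + ρ` the
hypothesis `A + 2 * c ≤ 2 * Bd` of the linear algebra (`LAQ.la_two_sides`, `ConeCount.cone_count`)
holds.
-/

set_option autoImplicit false

open scoped NumberField
open IsDedekindDomain ExtCitation groupCohomology

namespace Fermat.Agent.CFT.Count.Summary

local notation "Qb" => AlgebraicClosure ℚ
local notation "Gq" => (AlgebraicClosure ℚ ≃ₐ[ℚ] AlgebraicClosure ℚ)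

open Fermat.Agent.CFT.Global.CountV Fermat.Agent.CFT.Global.CountQ
  Fermat.Agent.CFT.Global.SelmerCount Fermat.Agent.CFT.Count.C4K NumberField

variable {p : ℕ} [Fact p.Prime] (S : Finset Nat.Primes) (K : IntermediateField ℚ Qb)
  [NumberField K]

/-- `[K : ℚ] = 2 r₂` and the arithmetic of the count. -/
theorem count_arith (ζ : K) (hζ : IsPrimitiveRoot ζ p) (hp2 : p ≠ 2) (ρ : ℕ) :
    (2 * (SK S K).card + Module.finrank ℚ K) + 2 * ρ =
      2 * (InfinitePlace.nrComplexPlaces K + (SK S K).card + ρ) := by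
  have hp : p.Prime := Fact.out
  have h2 : 2 < p := lt_of_le_of_ne hp.two_le (Ne.symm hp2)
  rw [(rank_add_one_eq_nrComplexPlaces K h2 hζ).2]
  ring

/-- **COUNT summary** (one `ρ` for everything). -/
theorem count_summary (ζ : K) (hζ : IsPrimitiveRoot ζ p) (hp2 : p ≠ 2)
    (hpS : pPrime p ∈ S) (hK : K.IsUnramifiedOutside S) :
    ∃ ρ : ℕ, (clS (𝓞 K) p (SK S K)).index = p ^ ρ ∧
      (Finite ↥(continuousH1S S (MK p K)) ∧
        Module.finrank (ZMod p) ↥(continuousH1S S (MK p K)) =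
          InfinitePlace.nrComplexPlaces K + (SK S K).card + ρ) ∧
      (Finite ↥(continuousH1S S ((MK p K).dualTwist (cycloChar p))) ∧
        Module.finrank (ZMod p) ↥(continuousH1S S ((MK p K).dualTwist (cycloChar p))) =
          InfinitePlace.nrComplexPlaces K + (SK S K).card + ρ) ∧
      (FiniteDimensional (ZMod p) (P0 p S K ⧸ LinearMap.range (ordP p S K)) ∧
        Module.finrank (ZMod p) (P0 p S K ⧸ LinearMap.range (ordP p S K)) = ρ) ∧
      (2 * (SK S K).card + Module.finrank ℚ K) + 2 * ρ =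
        2 * (InfinitePlace.nrComplexPlaces K + (SK S K).card + ρ) := by
  have hp : p.Prime := Fact.out
  obtain ⟨ρ, hρ, hfin, hrank⟩ := finrank_continuousH1S_MK (S := S) ζ hζ hp2 hpS hK
  obtain ⟨ρ', hρ', hfin', hrank'⟩ := finrank_continuousH1S_MK_dualTwist (S := S) ζ hζ hp2 hpS hK
  have hρρ : ρ' = ρ := Nat.pow_right_injective hp.two_le (hρ'.symm.trans hρ)
  subst hρρ
  exact ⟨ρ', hρ, ⟨hfin, hrank⟩, ⟨hfin', hrank'⟩, finrank_P0_quot hρ,
    count_arith S K ζ hζ hp2 ρ'⟩

end Fermat.Agent.CFT.Count.Summary
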