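import Fermat.Agent.S55.Shapiro.Unr3QGen
import Fermat.Agent.S55.Base.CapGenPlaces
import Fermat.Agent.S55.Base.C4Principal
import Fermat.Agent.S55.Base.EvalUR

/-!
# COUNT (c4): `Gen` for the family `θ q o = res_q (ind₁ (κ o))` of `C4Principal.thetaFam`

`K ≤ Qb` a number field unramified outside `S ∋ p`, `ζ ∈ K` a primitive `p`-th root of unity,
`F : UFam p S K ζ` a family of uniformisers with Kummer characters, `N = M0 (ZMod p) G_K`.
For `l ∉ S`, every local level `1`-cocycle at `l` with values in `N` is a combination of the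
restrictions at `l` of the global Kummer cocycles `ind₁ (F.κ o)`, `o` a place of `K` above `l`,
modulo unramified cochains and coboundaries (`gen_thetaFam`): this is the contract
`C4.ThetaFam.Gen` for `C4Principal.thetaFam`.

Proof: pure dictionary on top of `Unr3Q.gen_res_ind` ((G*), row 390): a system `D` of double
coset representatives of `G_K \ G_ℚ / G_l` indexes the places of `K` above `l`
(`CapGen.vOf`), and the uniformisers of `F` at these places are uniformisers in the sense of
`LocalBr.Unram.IsUniformizerAt` (`isUniformizerAt_of_valuation`).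
-/

set_option autoImplicit false

open scoped NumberField IntermediateField
open IsDedekindDomain groupCohomology ExtCitation

namespace Fermat.Agent.CFT.Count.Unr3W

local notation "Qb" => AlgebraicClosure ℚ
local notation "Gq" => (AlgebraicClosure ℚ ≃ₐ[ℚ] AlgebraicClosure ℚ)

open Fermat.Agent.S14.Wiring.ValRing Fermat.Agent.CFT.Global.CountV Fermat.Agent.CFT.Count
open Fermat.Agent.S55 Fermat.Agent.S55.Abs Fermat.Agent.S55.Shapiro Fermat.Agent.S55.Shapiro.Unr3Q
open Fermat.Agent.S55.Base Fermat.Agent.S55.Base.EvalQ Fermat.Agent.S55.Base.C4Principal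
open Fermat.Agent.CFT.LocalBr

/-- In `ℤᵐ⁰`, an element `< 1` is `≤ exp (-1)`. -/
theorem le_exp_neg_one_of_lt_one (y : WithZero (Multiplicative ℤ)) (hy : y < 1) :
    y ≤ WithZero.exp (-1 : ℤ) := by
  rcases eq_or_ne y 0 with rfl | h0
  · exact zero_le
  · obtain ⟨n, rfl⟩ : ∃ n : ℤ, y = WithZero.exp n := ⟨WithZero.log y, (WithZero.exp_log h0).symm⟩
    rw [← WithZero.exp_zero, WithZero.exp_lt_exp] at hy
    rw [WithZero.exp_le_exp]
    omega

/-- A uniformiser at the place `v` of `K` under `A` is a uniformiser of `K` at `A`. -/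
theorem isUniformizerAt_of_valuation {K : IntermediateField ℚ Qb} [NumberField K]
    {A : ValuationSubring Qb} {v : HeightOneSpectrum (𝓞 K)} (hv : v.asIdeal = primeUnder K A)
    {π : K} (hπ : v.valuation K π = WithZero.exp (-1 : ℤ)) :
    Unram.IsUniformizerAt K A π := by
  have hπ0 : π ≠ 0 := by
    rintro rfl
    rw [map_zero] at hπ
    exact WithZero.exp_ne_zero hπ.symm
  refine ⟨(valuation_lt_one_iff hv π).1 ?_, fun x hx => ?_⟩
  · rw [hπ, ← WithZero.exp_zero, WithZero.exp_lt_exp]
    norm_num
  · have hx' : v.valuation K x ≤ WithZero.exp (-1 : ℤ) :=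
      le_exp_neg_one_of_lt_one _ ((valuation_lt_one_iff hv x).2 hx)
    have h1 : v.valuation K (x / π) ≤ 1 := by
      rw [map_div₀, hπ]
      exact div_le_one_of_le₀ hx' zero_le
    have h2 : A.valuation (((x / π : K)) : Qb) ≤ 1 :=
      (A.valuation_le_one_iff _).2 ((valuation_le_one_iff hv _).1 h1)
    have h3 : (x : Qb) = ((x / π : K) : Qb) * (π : Qb) := by
      have : x = (x / π) * π := (div_mul_cancel₀ x hπ0).symm
      exact_mod_cast congrArg (fun y : K => (y : Qb)) this
    rw [h3, map_mul]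
    exact mul_le_of_le_one_left' h2

variable {p : ℕ} [Fact p.Prime] {S : Finset Nat.Primes} {K : IntermediateField ℚ Qb}
  [NumberField K] {ζ : K}

/-- **`Gen` for `C4Principal.thetaFam`**: the contract (GEN) of `Base/C4Shape` for the family
`θ q o = res_q (ind₁ (F.κ o))`. -/
theorem gen_thetaFam (I : ArithInput p S) (hpS : pPrime p ∈ S) (hK : K.IsUnramifiedOutside S)
    (hζ : IsPrimitiveRoot ζ p) (F : UFam p S K ζ) (R : Retr K.fixingSubgroup) :
    (thetaFam I hpS hK hζ F R).Gen := by
  classical
  intro l hl z hz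
  obtain ⟨D⟩ := DRep.nonempty K.fixingSubgroup (primeLocalToGlobal l)
  have : Finite (DoubleCoset.Quotient (K.fixingSubgroup : Set Gq)
      ((primeLocalToGlobal l).range : Set Gq)) := CapGen.finite_of_drep K l D
  let _ : Fintype (DoubleCoset.Quotient (K.fixingSubgroup : Set Gq)
      ((primeLocalToGlobal l).range : Set Gq)) := Fintype.ofFinite _
  have hvS : ∀ j, CapGen.vOf K l D j ∉ SK S K := fun j =>
    (not_mem_SK_iff S K _).2 fun q hq hqv => hl (by
      rw [← prime_unique _ q l hqv (CapGen.vOf_mem K l D j)]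
      exact hq)
  let wOf : DoubleCoset.Quotient (K.fixingSubgroup : Set Gq)
      ((primeLocalToGlobal l).range : Set Gq) → Outside (SK S K) :=
    fun j => ⟨CapGen.vOf K l D j, hvS j⟩
  have hwl : ∀ j, F.l (wOf j) = l := fun j => F.l_eq (wOf j) l (CapGen.vOf_mem K l D j)
  have hinj : Function.Injective wOf := fun i j h =>
    CapGen.vOf_injective K l D (congrArg Subtype.val h)
  have hπ : ∀ j, Unram.IsUniformizerAt K (plc l (D.τ j)) (F.π (wOf j)) := fun j =>
    isUniformizerAt_of_valuation (CapGen.vOf_asIdeal K l D j) (F.hπ (wOf j))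
  have hunit : ∀ i j, i ≠ j → (plc l (D.τ i)).valuation (F.π (wOf j) : Qb) = 1 := fun i j hij =>
    CapGen.valuation_unif_of_ne K l D hij
      (fun v hv hne => F.hπ' (wOf j) v (by rw [hwl j]; exact hv) hne)
  have hzc : z ∈ cocycles₁ (Rep.res (primeLocalToGlobal l) (NK K p)) := hz.2
  have hzl : IsLevelConstant₁ (primeLocalToGlobal l) z :=
    (isLevelConstant₁_iff (primeLocalToGlobal l) z).2 hz.1
  obtain ⟨e, u, m, hu, hzu⟩ := gen_res_ind p D S hK hpS hl ζ hζ (fun j => F.π (wOf j)) hπ hunit
    (fun j => F.ϖ (wOf j)) (fun j => F.hϖ (wOf j)) (fun j => F.κ (wOf j))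
    (fun j σ => F.hκ (wOf j) σ) R z hzc hzl
  have hu' : u ∈ C1 (urLevel l) (Rep.res (primeLocalToGlobal l) (M0 (ZMod p) K.fixingSubgroup)) :=
    (mem_C1_urLevel_iff l (Rep.res (primeLocalToGlobal l) (M0 (ZMod p) K.fixingSubgroup)) u).2 hu
  refine ⟨Finsupp.mapDomain wOf (Finsupp.equivFunOnFinite.symm e), u, m, ?_, hu', ?_⟩
  · intro o ho
    obtain ⟨j, -, rfl⟩ := Finset.mem_image.1 (Finsupp.mapDomain_support ho)
    exact hwl j
  · have hsum : (Finsupp.mapDomain wOf (Finsupp.equivFunOnFinite.symm e)).sum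
          (fun o c => c • (thetaFam I hpS hK hζ F R).θ l o)
        = ∑ j, e j • resInd p (fun j => F.κ (wOf j)) R j := by
      rw [Finsupp.sum_mapDomain_index_inj hinj,
        Finsupp.sum_fintype (Finsupp.equivFunOnFinite.symm e)
          (fun a b => b • (thetaFam I hpS hK hζ F R).θ l (wOf a)) (fun _ => zero_smul _ _)]
      refine Finset.sum_congr rfl fun j _ => ?_
      rw [thetaFam_θ_of_eq I hpS hK hζ F R l (wOf j) (hwl j)]
      rfl
    have key : (∑ j, e j • resInd p (fun j => F.κ (wOf j)) R j :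
          primeLocalGaloisGroup l → NK K p)
        = (thetaFam I hpS hK hζ F R).lc l
            (Finsupp.mapDomain wOf (Finsupp.equivFunOnFinite.symm e)) := hsum.symm
    exact hzu.trans (congrArg (fun t : primeLocalGaloisGroup l → NK K p =>
      t + u + (d₀₁ (Rep.res (primeLocalToGlobal l) (NK K p))).hom m) key)

end Fermat.Agent.CFT.Count.Unr3W
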